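import Fermat.Agent.MazY.Main2

/-!
# `Moduli`
-/

set_option autoImplicit false
set_option linter.unusedSectionVars false
set_option linter.style.haveILetI false
set_option synthInstance.maxHeartbeats 400000

noncomputable section

namespace Fermat.Agent.MazY

open AlgebraicCurve ModularCurve Fermat.Agent.Curves Fermat.Agent.GoodRed Fermat.Agent.GenusX0
open Fermat.Agent.ModFun Fermat.Agent.SSMod IsLocalRing IntermediateField
open WeierstrassCurve WeierstrassCurve.Affine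
open scoped Pointwise

local notation "Qbar" => AlgebraicClosure ℚ
local notation "GQ" => Qbar ≃ₐ[ℚ] Qbar

local instance instAlgQbar'' : Algebra.IsAlgebraic ℚ Qbar := AlgebraicClosure.isAlgebraic ℚ

/-- the value of `h` -/
theorem val_b {W : WeierstrassCurve ℤ} (hΔ : W.Δ ≠ 0) {ℓ p : ℕ} (hℓ : ℓ.Prime)
    {A : ValuationSubring Qbar} (hA : A.LiesOverPrime ℓ) (hℓp : ¬ ℓ ∣ p)
    (hc : ¬ (ℓ : ℤ) ∣ W.c₄) (k : Qbar) :
    A.valuation ((p : Qbar) ^ 12 * k ^ 4 / (W.Δ : Qbar) ^ (p - 1) *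
      ((W.c₄ : Qbar) ^ 3 / (W.Δ : Qbar))⁻¹ ^ (p - 1)) = A.valuation (k ^ 2) ^ 2 := by
  have hΔ0 : (W.Δ : Qbar) ≠ 0 := by exact_mod_cast hΔ
  have e : (p : Qbar) ^ 12 * k ^ 4 / (W.Δ : Qbar) ^ (p - 1) *
      ((W.c₄ : Qbar) ^ 3 / (W.Δ : Qbar))⁻¹ ^ (p - 1) =
      (p : Qbar) ^ 12 * (k ^ 2) ^ 2 * (((W.c₄ : Qbar) ^ 3)⁻¹) ^ (p - 1) := by
    rw [inv_div, div_pow, inv_pow]
    have := pow_ne_zero (p - 1) hΔ0
    field_simp
  have h1 : A.valuation ((p : ℕ) : Qbar) = 1 := by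
    have := ECRed.val_int_of_coprime A hℓ hA (n := (p : ℤ)) (fun h => hℓp (by exact_mod_cast h))
    simpa using this
  have h2 : A.valuation (W.c₄ : Qbar) = 1 := ECRed.val_int_of_coprime A hℓ hA hc
  rw [e]
  simp only [map_mul, map_pow, map_inv₀, h1, h2, one_pow, inv_one, mul_one, one_mul]

/-- the value of `t` -/
theorem val_a {W : WeierstrassCurve ℤ} {ℓ : ℕ} (hℓ : ℓ.Prime)
    {A : ValuationSubring Qbar} (hA : A.LiesOverPrime ℓ)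
    (hc : ¬ (ℓ : ℤ) ∣ W.c₄) (hd : (ℓ : ℤ) ∣ W.Δ) :
    ((W.c₄ : Qbar) ^ 3 / (W.Δ : Qbar))⁻¹ ∈ A.nonunits := by
  rw [ValuationSubring.mem_nonunits_iff, inv_div, map_div₀, map_pow,
    ECRed.val_int_of_coprime A hℓ hA hc, one_pow, div_one]
  exact val_int_lt hA hd

set_option maxHeartbeats 1000000 in
theorem moduli : Maz.Moduli := by
  intro p _ hp h5 W hΔ h2Δ h2c C hC hst P0 Pinf hP0 hPinf
  classical
  obtain ⟨ι⟩ := exists_emb_Qbar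
  have hE := laurentBaseChange_eq Qbar p
  have h4 : W.c₄ ≠ 0 := by
    intro h
    exact h2c (h ▸ dvd_zero _)
  have h6 : W.c₆ ≠ 0 := by
    intro h
    have h1 := W.c_relation
    rw [h] at h1
    have h2 : (2 : ℤ) ∣ W.c₄ ^ 3 := ⟨864 * W.Δ, by linarith⟩
    exact h2c (Int.prime_two.dvd_of_dvd_pow h2)
  have hfin : Finite C := Nat.finite_of_card_ne_zero (by rw [hC]; exact hp.ne_zero)
  letI : Fintype C := Fintype.ofFinite C
  have hcard : Fintype.card C = p := by rw [← hC, Nat.card_eq_fintype_card]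
  have hp2 : p ≠ 2 := by omega
  have heven : Even (p - 1) := hp.even_sub_one hp2
  obtain ⟨t, u, h, s, CFd⟩ := exists_cf ι hp hE Pinf P0 (Maz.jB p) rfl hPinf hP0
  obtain ⟨τ, hτ1, hτ2⟩ := exists_tau' ι hp heven hΔ h4 h6 C hcard
  obtain ⟨y, hy1, hy2⟩ := exists_y ι hp hE (j := Maz.jB p) (u := u) rfl CFd.cu hτ1 hτ2
  have hΔ0 : (W.Δ : Qbar) ≠ 0 := by exact_mod_cast hΔ
  have hc0 : (W.c₄ : Qbar) ≠ 0 := by exact_mod_cast h4
  set k : Qbar := Kc W C with hk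
  have hkσ : ∀ σ : GQ, σ k = k := fun σ => Kc_gal C hst σ
  have hk0 : k ≠ 0 := by
    intro h0
    rw [h0] at hτ2
    have h1 : ι ((p : Qbar) ^ 12 * 0 ^ 4 / (W.Δ : Qbar) ^ (p - 1)) = 0 := by
      rw [zero_pow (by norm_num), mul_zero, zero_div, map_zero]
    rw [h1, zero_mul] at hτ2
    exact ModularForm.discriminant_ne_zero τ hτ2
  have hpK : (p : Qbar) ≠ 0 := by exact_mod_cast hp.ne_zero
  have hjv0 : (W.c₄ : Qbar) ^ 3 / (W.Δ : Qbar) ≠ 0 := div_ne_zero (pow_ne_zero _ hc0) hΔ0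
  have huv0 : (p : Qbar) ^ 12 * k ^ 4 / (W.Δ : Qbar) ^ (p - 1) ≠ 0 :=
    div_ne_zero (mul_ne_zero (pow_ne_zero _ hpK) (pow_ne_zero _ hk0)) (pow_ne_zero _ hΔ0)
  obtain ⟨a, ha⟩ : ∃ a : Qbar, a = ((W.c₄ : Qbar) ^ 3 / (W.Δ : Qbar))⁻¹ := ⟨_, rfl⟩
  obtain ⟨v, hv⟩ : ∃ v : Qbar, v = (p : Qbar) ^ 12 * k ^ 4 / (W.Δ : Qbar) ^ (p - 1) := ⟨_, rfl⟩
  obtain ⟨b, hb⟩ : ∃ b : Qbar, b = v * a ^ (p - 1) := ⟨_, rfl⟩
  obtain ⟨d, hd⟩ : ∃ d : Qbar, d = a * v⁻¹ := ⟨_, rfl⟩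
  have ha0 : a ≠ 0 := by rw [ha]; exact inv_ne_zero hjv0
  have hv0 : v ≠ 0 := by rw [hv]; exact huv0
  have hd0 : d ≠ 0 := by rw [hd]; exact mul_ne_zero ha0 (inv_ne_zero hv0)
  have haσ : ∀ σ : GQ, σ a = a := by
    intro σ
    rw [ha]
    simp only [map_inv₀, map_div₀, map_pow, map_intCast]
  have hvσ : ∀ σ : GQ, σ v = v := by
    intro σ
    rw [hv]
    simp only [map_div₀, map_pow, map_intCast, map_mul, map_natCast, hkσ σ]
  have hbσ : ∀ σ : GQ, σ b = b := by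
    intro σ
    rw [hb, map_mul, map_pow, haσ, hvσ]
  have hdσ : ∀ σ : GQ, σ d = d := by
    intro σ
    rw [hd, map_mul, map_inv₀, haσ, hvσ]
  -- values
  have Hj : HV y (Maz.jB p) ((W.c₄ : Qbar) ^ 3 / (W.Δ : Qbar)) := HV.of_ord hy1
  have Hu : HV y u v := by rw [hv]; exact HV.of_ord hy2
  have Ht : HV y t a := by
    have h1 : t = (Maz.jB p)⁻¹ := Subtype.ext CFd.ct
    rw [h1, ha]
    exact Hj.inv hjv0
  have Hh : HV y h b := by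
    rw [CFd.eh, hb]
    exact Hu.mul (Ht.pow _)
  have Hs : HV y s d := by
    rw [CFd.es, hd, div_eq_mul_inv]
    exact Ht.mul (Hu.inv hv0)
  have Hsi : HV y s⁻¹ d⁻¹ := Hs.inv hd0
  have hpp : (0 : ℤ) < p := by exact_mod_cast hp.pos
  have os : P0.ord s = 1 := by rw [CFd.ord_s hp, CFd.t0, CFd.u0]; ring
  have V : Vals y t h s a b d :=
    ⟨Ht.ord_pos (sub_const_ne_zero P0 (by rw [CFd.t0]; omega) _),
      Hh.ord_pos (sub_const_ne_zero P0 (CFd.h_zero hp).ne' _),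
      Hs.ord_pos (sub_const_ne_zero P0 (by rw [os]; norm_num) _),
      Hsi.ord_pos (sub_const_ne_zero P0 (by rw [P0.ord_inv, os]; norm_num) _)⟩
  have hvb : ∀ {ℓ : ℕ} (_ : ℓ.Prime) {A : ValuationSubring Qbar} (_ : A.LiesOverPrime ℓ)
      (_ : ¬ ℓ ∣ p) (_ : ¬ (ℓ : ℤ) ∣ W.c₄), A.valuation b = A.valuation (k ^ 2) ^ 2 := by
    intro ℓ hℓ A hA hℓp hc
    rw [hb, hv, ha]
    exact val_b hΔ hℓ hA hℓp hc k
  have hne : ∀ {ℓ : ℕ}, ¬ ℓ ∣ p → ℓ ≠ p := fun h1 h2 => h1 (h2 ▸ dvd_rfl)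
  have hbA : ∀ {ℓ : ℕ} (_ : ℓ.Prime) {A : ValuationSubring Qbar} (_ : A.LiesOverPrime ℓ)
      (_ : ¬ ℓ ∣ p) (_ : ¬ (ℓ : ℤ) ∣ W.c₄), b ∈ A := by
    intro ℓ hℓ A hA hℓp hc
    rw [← ValuationSubring.valuation_le_one_iff, hvb hℓ hA hℓp hc]
    exact pow_le_one' (val_Kc_le hℓ hA hp (hne hℓp) hp2 hcard) 2
  refine ⟨y, ?_, ?_⟩
  · intro σ
    obtain ⟨A, hA⟩ := Frob.exists_liesOverPrime Qbar Nat.prime_two
    have h2p : ¬ 2 ∣ p := by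
      intro h2
      exact hp2 ((Nat.prime_dvd_prime_iff_eq Nat.prime_two hp).mp h2).symm
    have h2c' : ¬ ((2 : ℕ) : ℤ) ∣ W.c₄ := by exact_mod_cast h2c
    have h2Δ' : ((2 : ℕ) : ℤ) ∣ W.Δ := by exact_mod_cast h2Δ
    have hpκ := residue_ne_zero Nat.prime_two hA h2p
    have haA : a ∈ A.nonunits := by rw [ha]; exact val_a Nat.prime_two hA h2c' h2Δ'
    exact (local_pkg ι hp CFd Nat.prime_two hA h2p hpκ haA (hbA Nat.prime_two hA h2p h2c') V).1 _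
      (vals_gact σ V (fix_t CFd σ) (fix_h CFd σ) (fix_s CFd σ) (haσ σ) (hbσ σ) (hdσ σ))
  · rintro ℓ A K ⟨hℓ, hA, hℓp, M, hFF, r, hM, -, hK⟩ hℓΔ hℓc
    haveI : NeZero M := ⟨by rintro rfl; simp at hM⟩
    have haA : a ∈ A.nonunits := by rw [ha]; exact val_a hℓ hA hℓc hℓΔ
    have hloc := (local_pkg ι hp CFd hℓ hA hℓp hM haA (hbA hℓ hA hℓp hℓc) V).2 r
    refine ⟨fun hz => ?_, fun hz => ?_⟩
    · refine cls_mem hK (hloc.1 ?_)
      rw [ValuationSubring.mem_nonunits_iff, hvb hℓ hA hℓp hℓc,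
        val_Kc_eq hℓ hA hp (hne hℓp) hp2 hcard hz, one_pow]
      exact lt_irrefl _
    · refine cls_mem hK (hloc.2 ?_)
      rw [ValuationSubring.mem_nonunits_iff, hvb hℓ hA hℓp hℓc]
      exact pow_lt_one' (val_Kc_lt hℓ hA hp (hne hℓp) hp2 hcard hz) two_ne_zero

end Fermat.Agent.MazY
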