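import Fermat.Agent.MazY.Uni

/-!
# The addition theorem
-/

set_option autoImplicit false

noncomputable section

namespace Fermat.Agent.MazY

open Filter Topology WeierstrassCurve

variable (L : PeriodPair) (W : WeierstrassCurve ℂ)

local notation "℘" => PeriodPair.weierstrassP L
local notation "℘'" => PeriodPair.derivWeierstrassP L

/-- the slope -/
def lam (c z : ℂ) : ℂ := (Y L W z - Y L W (c - z)) / (X L W z - X L W (c - z))

/-- the `x`-coordinate of the sum -/
def SX (c z : ℂ) : ℂ := lam L W c z ^ 2 + W.a₁ * lam L W c z - W.a₂ - X L W z - X L W (c - z)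

/-- the `y`-coordinate of the sum -/
def SY (c z : ℂ) : ℂ := -(lam L W c z * (SX L W c z - X L W z) + Y L W z) -
  W.a₁ * SX L W c z - W.a₃

variable {L W}

theorem eqn (h : Unif L W) {z : ℂ} (hz : z ∉ L.lattice) :
    Y L W z ^ 2 + W.a₁ * X L W z * Y L W z + W.a₃ * Y L W z =
      X L W z ^ 3 + W.a₂ * X L W z ^ 2 + W.a₄ * X L W z + W.a₆ := by
  have := h.equation hz
  rw [Affine.equation_iff'] at this
  linear_combination this

theorem hasDerivAt_sub_X {c z : ℂ} (hz : c - z ∉ L.lattice) :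
    HasDerivAt (fun z => X L W (c - z)) (-℘' (c - z)) z := by
  have := (hasDerivAt_X (W := W) hz).comp z ((hasDerivAt_id z).const_sub c)
  exact this.congr_deriv (by simp)

theorem Unif.hasDerivAt_sub_Y (h : Unif L W) {c z : ℂ} (hz : c - z ∉ L.lattice) :
    HasDerivAt (fun z => Y L W (c - z)) (-(3 * X L W (c - z) ^ 2 + 2 * W.a₂ * X L W (c - z) + W.a₄ -
      W.a₁ * Y L W (c - z))) z := by
  have := (h.hasDerivAt_Y hz).comp z ((hasDerivAt_id z).const_sub c)
  exact this.congr_deriv (by ring)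

theorem Unif.hasDerivAt_lam (h : Unif L W) {c z : ℂ} (hz : z ∉ L.lattice)
    (hz2 : c - z ∉ L.lattice) (hne : X L W z ≠ X L W (c - z)) :
    HasDerivAt (lam L W c) (X L W z - X L W (c - z)) z := by
  have hne' : X L W z - X L W (c - z) ≠ 0 := sub_ne_zero.mpr hne
  have h1 := ((h.hasDerivAt_Y hz).fun_sub (h.hasDerivAt_sub_Y hz2)).fun_div
    ((hasDerivAt_X (W := W) hz).fun_sub (hasDerivAt_sub_X (W := W) hz2)) hne'
  refine h1.congr_deriv ?_
  rw [div_eq_iff (pow_ne_zero 2 hne'), ← psi_eq L W z, ← psi_eq L W (c - z)]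
  have e1 := eqn h hz
  have e2 := eqn h hz2
  linear_combination (-2 : ℂ) * e1 + 2 * e2

theorem Unif.hasDerivAt_SX (h : Unif L W) {c z : ℂ} (hz : z ∉ L.lattice)
    (hz2 : c - z ∉ L.lattice) (hne : X L W z ≠ X L W (c - z)) :
    HasDerivAt (SX L W c) 0 z := by
  have hne' : X L W z - X L W (c - z) ≠ 0 := sub_ne_zero.mpr hne
  have hl := h.hasDerivAt_lam hz hz2 hne
  have h1 := ((((hl.fun_pow 2).fun_add (hl.const_mul W.a₁)).sub_const W.a₂).fun_sub
    (hasDerivAt_X (W := W) hz)).fun_sub (hasDerivAt_sub_X (W := W) hz2)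
  refine h1.congr_deriv ?_
  have e : lam L W c z * (X L W z - X L W (c - z)) = Y L W z - Y L W (c - z) := by
    rw [lam, div_mul_cancel₀ _ hne']
  rw [← psi_eq L W z, ← psi_eq L W (c - z)]
  simp only [Nat.cast_ofNat, Nat.add_one_sub_one, pow_one]
  linear_combination 2 * e

theorem Unif.hasDerivAt_SY (h : Unif L W) {c z : ℂ} (hz : z ∉ L.lattice)
    (hz2 : c - z ∉ L.lattice) (hne : X L W z ≠ X L W (c - z)) :
    HasDerivAt (SY L W c) 0 z := by
  have hne' : X L W z - X L W (c - z) ≠ 0 := sub_ne_zero.mpr hne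
  have hl := h.hasDerivAt_lam hz hz2 hne
  have hs := h.hasDerivAt_SX hz hz2 hne
  have h1 := ((((hl.fun_mul (hs.fun_sub (hasDerivAt_X (W := W) hz))).fun_add
    (h.hasDerivAt_Y hz)).fun_neg).fun_sub (hs.const_mul W.a₁)).sub_const W.a₃
  refine h1.congr_deriv ?_
  have e : lam L W c z * (X L W z - X L W (c - z)) = Y L W z - Y L W (c - z) := by
    rw [lam, div_mul_cancel₀ _ hne']
  have e1 := eqn h hz
  have e2 := eqn h hz2
  rw [← psi_eq L W z, SX]
  -- multiply by the denominator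
  apply mul_left_cancel₀ hne'
  set l := lam L W c z
  set x1 := X L W z
  set x2 := X L W (c - z)
  set y1 := Y L W z
  set y2 := Y L W (c - z)
  linear_combination (-((x1 - x2) * l + (y1 - y2) + W.a₁ * (x1 - x2) -
    (2 * y1 + W.a₁ * x1 + W.a₃))) * e + e1 - e2

end Fermat.Agent.MazY
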