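import Fermat.Agent.MazY.Add

/-!
# The addition theorem: the sum is the image of the sum
-/

set_option autoImplicit false

noncomputable section

namespace Fermat.Agent.MazY

open Filter Topology WeierstrassCurve

theorem const_near {F : ℂ → ℂ} {a : ℂ} (hF : Meromorphic F) (ha : Tendsto F (𝓝[≠] 0) (𝓝 a))
    (hd : ∀ᶠ z in 𝓝[≠] 0, HasDerivAt F 0 z) (z : ℂ) : F =ᶠ[𝓝[≠] z] fun _ => a := by
  set G : ℂ → ℂ := Function.update F 0 a with hG
  have hGF : ∀ z, z ≠ 0 → G z = F z := fun z hz => Function.update_of_ne hz _ _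
  have hGd : ∀ᶠ z in 𝓝[≠] (0 : ℂ), HasDerivAt G 0 z := by
    filter_upwards [hd, self_mem_nhdsWithin] with z h1 h2
    refine h1.congr_of_eventuallyEq ?_
    filter_upwards [isOpen_ne.mem_nhds h2] with w hw
    exact hGF w hw
  have hGc : ContinuousAt G 0 := by
    rw [continuousAt_update_same]
    exact ha
  have hGa : AnalyticAt ℂ G 0 :=
    Complex.analyticAt_of_differentiable_on_punctured_nhds_of_continuousAt
      (hGd.mono fun z h => h.differentiableAt) hGc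
  have h1 : ∀ᶠ z in 𝓝 (0 : ℂ), deriv G z = 0 := by
    rw [← hGa.deriv.frequently_zero_iff_eventually_zero]
    exact (hGd.mono fun z h => h.deriv).frequently
  have h2 : ∀ᶠ z in 𝓝 (0 : ℂ), AnalyticAt ℂ G z := hGa.eventually_analyticAt
  obtain ⟨r, hr, hball⟩ := Metric.eventually_nhds_iff_ball.1 (h1.and h2)
  have h3 : ∀ z ∈ Metric.ball (0 : ℂ) r, G z = G 0 := by
    intro z hz
    have h4 := (convex_ball (0 : ℂ) r).norm_image_sub_le_of_norm_deriv_le (𝕜 := ℂ) (f := G) (C := 0)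
      (fun w hw => (hball w hw).2.differentiableAt) (fun w hw => by rw [(hball w hw).1, norm_zero])
      (Metric.mem_ball_self hr) hz
    rw [zero_mul, norm_le_zero_iff, sub_eq_zero] at h4
    exact h4
  have h5 : meromorphicOrderAt (fun z => F z - a) 0 = ⊤ := by
    rw [meromorphicOrderAt_eq_top_iff]
    filter_upwards [self_mem_nhdsWithin, mem_nhdsWithin_of_mem_nhds (Metric.ball_mem_nhds 0 hr)]
      with w hw hw2
    rw [← hGF w hw, h3 w hw2, hG, Function.update_self, sub_self]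
  have hm : Meromorphic fun z => F z - a := fun z => (hF z).sub (MeromorphicAt.const a z)
  have h6 : meromorphicOrderAt (fun z => F z - a) z = ⊤ := by
    by_contra h2
    have h3 := (MeromorphicOn.exists_meromorphicOrderAt_ne_top_iff_forall
      (f := fun z => F z - a) (U := Set.univ) (fun z _ => hm z)
      isConnected_univ).1 ⟨⟨z, Set.mem_univ _⟩, h2⟩ ⟨0, Set.mem_univ _⟩
    exact h3 h5
  rw [meromorphicOrderAt_eq_top_iff] at h6
  filter_upwards [h6] with w hw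
  exact sub_eq_zero.mp hw

variable (L : PeriodPair) (W : WeierstrassCurve ℂ)

local notation "℘" => PeriodPair.weierstrassP L
local notation "℘'" => PeriodPair.derivWeierstrassP L

theorem meromorphic_X : Meromorphic (X L W) := fun z =>
  (L.meromorphic_weierstrassP z).sub (MeromorphicAt.const _ z)

theorem meromorphic_Y : Meromorphic (Y L W) := fun z =>
  (((L.meromorphic_derivWeierstrassP z).sub ((MeromorphicAt.const _ z).mul
    (meromorphic_X L W z))).sub (MeromorphicAt.const _ z)).div (MeromorphicAt.const _ z)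

theorem meromorphic_sub {f : ℂ → ℂ} (hf : Meromorphic f) (c : ℂ) : Meromorphic fun z => f (c - z) :=
  fun z => (hf (c - z)).comp_analyticAt (g := fun z => c - z) (by fun_prop)

theorem meromorphic_lam (c : ℂ) : Meromorphic (lam L W c) := fun z =>
  ((meromorphic_Y L W z).sub (meromorphic_sub (meromorphic_Y L W) c z)).div
    ((meromorphic_X L W z).sub (meromorphic_sub (meromorphic_X L W) c z))

theorem meromorphic_SX (c : ℂ) : Meromorphic (SX L W c) := fun z =>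
  (((((meromorphic_lam L W c z).pow 2).add ((MeromorphicAt.const _ z).mul
    (meromorphic_lam L W c z))).sub (MeromorphicAt.const _ z)).sub (meromorphic_X L W z)).sub
    (meromorphic_sub (meromorphic_X L W) c z)

theorem meromorphic_SY (c : ℂ) : Meromorphic (SY L W c) := fun z =>
  (((((meromorphic_lam L W c z).mul ((meromorphic_SX L W c z).sub (meromorphic_X L W z))).add
    (meromorphic_Y L W z)).neg).sub ((MeromorphicAt.const _ z).mul (meromorphic_SX L W c z))).sub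
    (MeromorphicAt.const _ z)

theorem tendsto_id_ne : Tendsto (fun z : ℂ => z) (𝓝[≠] 0) (𝓝 0) :=
  tendsto_id.mono_left nhdsWithin_le_nhds

theorem tendsto_u : Tendsto (fun z => z ^ 2 * X L W z) (𝓝[≠] 0) (𝓝 1) := by
  have h := (tendsto_sq_mul_wp L).sub ((tendsto_id_ne.pow 2).mul_const (W.b₂ / 12))
  simp only [ne_eq, OfNat.ofNat_ne_zero, not_false_eq_true, zero_pow, zero_mul, sub_zero] at h
  refine h.congr fun z => ?_
  rw [X]; ring

theorem tendsto_v : Tendsto (fun z => z ^ 3 * Y L W z) (𝓝[≠] 0) (𝓝 (-1)) := by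
  have h := (((tendsto_cube_mul_wp' L).sub ((tendsto_id_ne.mul_const W.a₁).mul
    (tendsto_u L W))).sub ((tendsto_id_ne.pow 3).mul_const W.a₃)).div_const 2
  norm_num at h
  refine h.congr fun z => ?_
  rw [Y]; ring

variable {L W}

theorem tendsto_sub_X {c : ℂ} (hc : c ∉ L.lattice) :
    Tendsto (fun z => X L W (c - z)) (𝓝[≠] 0) (𝓝 (X L W c)) := by
  have h1 := (hasDerivAt_sub_X (L := L) (W := W) (c := c) (z := 0) (by rwa [sub_zero])).continuousAt
  have h2 := h1.tendsto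
  simp only [sub_zero] at h2
  exact h2.mono_left nhdsWithin_le_nhds

theorem Unif.tendsto_sub_Y (h : Unif L W) {c : ℂ} (hc : c ∉ L.lattice) :
    Tendsto (fun z => Y L W (c - z)) (𝓝[≠] 0) (𝓝 (Y L W c)) := by
  have h1 := (h.hasDerivAt_sub_Y (c := c) (z := 0) (by rwa [sub_zero])).continuousAt
  have h2 := h1.tendsto
  simp only [sub_zero] at h2
  exact h2.mono_left nhdsWithin_le_nhds

theorem eventually_good {c : ℂ} (hc : c ∉ L.lattice) : ∀ᶠ z in 𝓝[≠] (0 : ℂ), z ≠ 0 ∧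
    z ∉ L.lattice ∧ c - z ∉ L.lattice ∧ X L W z ≠ X L W (c - z) := by
  have h1 : ∀ᶠ z in 𝓝[≠] (0 : ℂ), c - z ∉ L.lattice := by
    have h2 : ContinuousAt (fun z : ℂ => c - z) 0 := by fun_prop
    have h3 := h2.preimage_mem_nhds (t := (L.lattice : Set ℂ)ᶜ)
      (by rw [sub_zero]; exact L.isClosed_lattice.isOpen_compl.mem_nhds hc)
    exact mem_nhdsWithin_of_mem_nhds h3
  have h4 : ∀ᶠ z in 𝓝[≠] (0 : ℂ), X L W z ≠ X L W (c - z) := by
    have h5 : Tendsto (fun z => z ^ 2 * X L W z - z ^ 2 * X L W (c - z)) (𝓝[≠] 0)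
        (𝓝 (1 - 0 ^ 2 * X L W c)) :=
      (tendsto_u L W).sub ((tendsto_id_ne.pow 2).mul (tendsto_sub_X hc))
    have h6 : ∀ᶠ z in 𝓝[≠] (0 : ℂ), z ^ 2 * X L W z - z ^ 2 * X L W (c - z) ≠ 0 :=
      h5.eventually (isOpen_ne.mem_nhds (by norm_num))
    filter_upwards [h6] with z hz h7
    rw [h7, sub_self] at hz
    exact hz rfl
  filter_upwards [self_mem_nhdsWithin, eventually_notMem L, h1, h4] with z a b c d
  exact ⟨a, b, c, d⟩

theorem Unif.tendsto_SX (h : Unif L W) {c : ℂ} (hc : c ∉ L.lattice) :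
    Tendsto (SX L W c) (𝓝[≠] 0) (𝓝 (X L W c)) := by
  have hu := tendsto_u L W
  have hv := tendsto_v L W
  have hx := tendsto_sub_X (W := W) hc
  have hy := h.tendsto_sub_Y hc
  have hi := tendsto_id_ne
  have key : Tendsto (fun z => ((z ^ 2 * X L W z) ^ 2 * X L W (c - z) +
      z ^ 2 * (z ^ 2 * X L W z) * X L W (c - z) ^ 2 - z ^ 4 * X L W (c - z) ^ 3 +
      W.a₂ * (2 * z ^ 2 * (z ^ 2 * X L W z) * X L W (c - z) - z ^ 4 * X L W (c - z) ^ 2) +
      W.a₄ * z ^ 2 * (z ^ 2 * X L W z) + W.a₆ * z ^ 4 - W.a₃ * z * (z ^ 3 * Y L W z) +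
      z ^ 4 * Y L W (c - z) ^ 2 - 2 * z * (z ^ 3 * Y L W z) * Y L W (c - z) -
      W.a₁ * z * X L W (c - z) * (z ^ 3 * Y L W z) -
      W.a₁ * z ^ 2 * (z ^ 2 * X L W z) * Y L W (c - z) +
      W.a₁ * z ^ 4 * X L W (c - z) * Y L W (c - z)) /
      (z ^ 2 * X L W z - z ^ 2 * X L W (c - z)) ^ 2) (𝓝[≠] 0) (𝓝 ((1 ^ 2 * X L W c +
      0 ^ 2 * 1 * X L W c ^ 2 - 0 ^ 4 * X L W c ^ 3 +
      W.a₂ * (2 * 0 ^ 2 * 1 * X L W c - 0 ^ 4 * X L W c ^ 2) +
      W.a₄ * 0 ^ 2 * 1 + W.a₆ * 0 ^ 4 - W.a₃ * 0 * (-1) +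
      0 ^ 4 * Y L W c ^ 2 - 2 * 0 * (-1) * Y L W c -
      W.a₁ * 0 * X L W c * (-1) - W.a₁ * 0 ^ 2 * 1 * Y L W c +
      W.a₁ * 0 ^ 4 * X L W c * Y L W c) / (1 - 0 ^ 2 * X L W c) ^ 2)) := by
    refine Tendsto.div ?_ ?_ (by norm_num)
    · refine ((((((((((((hu.pow 2).mul hx).add (((hi.pow 2).mul hu).mul (hx.pow 2))).sub
        ((hi.pow 4).mul (hx.pow 3))).add ((((((hi.pow 2).const_mul 2).mul hu).mul hx).sub
        ((hi.pow 4).mul (hx.pow 2))).const_mul W.a₂)).add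
        (((hi.pow 2).const_mul W.a₄).mul hu)).add ((hi.pow 4).const_mul W.a₆)).sub
        ((hi.const_mul W.a₃).mul hv)).add ((hi.pow 4).mul (hy.pow 2))).sub
        (((hi.const_mul 2).mul hv).mul hy)).sub (((hi.const_mul W.a₁).mul hx).mul hv)).sub
        ((((hi.pow 2).const_mul W.a₁).mul hu).mul hy)).add
        ((((hi.pow 4).const_mul W.a₁).mul hx).mul hy)
    · exact (hu.sub ((hi.pow 2).mul hx)).pow 2
  have e : ((1 ^ 2 * X L W c +
      0 ^ 2 * 1 * X L W c ^ 2 - 0 ^ 4 * X L W c ^ 3 +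
      W.a₂ * (2 * 0 ^ 2 * 1 * X L W c - 0 ^ 4 * X L W c ^ 2) +
      W.a₄ * 0 ^ 2 * 1 + W.a₆ * 0 ^ 4 - W.a₃ * 0 * (-1) +
      0 ^ 4 * Y L W c ^ 2 - 2 * 0 * (-1) * Y L W c -
      W.a₁ * 0 * X L W c * (-1) - W.a₁ * 0 ^ 2 * 1 * Y L W c +
      W.a₁ * 0 ^ 4 * X L W c * Y L W c) / (1 - 0 ^ 2 * X L W c) ^ 2) = X L W c := by
    norm_num
  rw [e] at key
  refine key.congr' ?_
  filter_upwards [eventually_good (W := W) hc] with z hz
  obtain ⟨hz0, hz1, hz2, hz3⟩ := hz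
  have hne' : X L W z - X L W (c - z) ≠ 0 := sub_ne_zero.mpr hz3
  have e1 := eqn h hz1
  have hd : z ^ 2 * X L W z - z ^ 2 * X L W (c - z) ≠ 0 := by
    rw [← mul_sub]
    exact mul_ne_zero (pow_ne_zero 2 hz0) hne'
  rw [div_eq_iff (pow_ne_zero 2 hd), SX, lam]
  field_simp
  linear_combination (-1 : ℂ) * e1

end Fermat.Agent.MazY
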