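import Fermat.Agent.MazY.Add2

/-!
# The uniformisation is a group isomorphism
-/

set_option autoImplicit false

noncomputable section

namespace Fermat.Agent.MazY

open Filter Topology WeierstrassCurve

variable {L : PeriodPair} {W : WeierstrassCurve ℂ}

local notation "℘" => PeriodPair.weierstrassP L
local notation "℘'" => PeriodPair.derivWeierstrassP L

theorem Unif.SX_const (h : Unif L W) {c : ℂ} (hc : c ∉ L.lattice) (z : ℂ) :
    SX L W c =ᶠ[𝓝[≠] z] fun _ => X L W c := by
  refine const_near (meromorphic_SX L W c) (h.tendsto_SX hc) ?_ z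
  filter_upwards [eventually_good (W := W) hc] with z hz
  exact h.hasDerivAt_SX hz.2.1 hz.2.2.1 hz.2.2.2

theorem Unif.tendsto_SY (h : Unif L W) {c : ℂ} (hc : c ∉ L.lattice) :
    Tendsto (SY L W c) (𝓝[≠] 0) (𝓝 (Y L W c)) := by
  have hu := tendsto_u L W
  have hv := tendsto_v L W
  have hx := tendsto_sub_X (W := W) hc
  have hy := h.tendsto_sub_Y hc
  have hi := tendsto_id_ne
  have hs : Tendsto (fun z => (X L W c - X L W (c - z)) / z) (𝓝[≠] 0) (𝓝 (℘' c)) := by
    have h1 := (hasDerivAt_sub_X (L := L) (W := W) (c := c) (z := 0) (by rwa [sub_zero]))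
    rw [hasDerivAt_iff_tendsto_slope] at h1
    have h2 := h1.neg
    rw [neg_neg, sub_zero] at h2
    refine h2.congr fun z => ?_
    rw [slope_def_field, sub_zero, sub_zero]
    ring
  have key : Tendsto (fun z => -(((z ^ 3 * Y L W z) * ((X L W c - X L W (c - z)) / z) -
      Y L W (c - z) * (z ^ 2 * X L W c - z ^ 2 * X L W z)) /
      (z ^ 2 * X L W z - z ^ 2 * X L W (c - z))) - W.a₁ * X L W c - W.a₃) (𝓝[≠] 0)
      (𝓝 (-((-1 * ℘' c - Y L W c * (0 ^ 2 * X L W c - 1)) / (1 - 0 ^ 2 * X L W c)) -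
        W.a₁ * X L W c - W.a₃)) := by
    refine ((Tendsto.div ?_ ?_ (by norm_num)).neg.sub_const _).sub_const _
    · exact (hv.mul hs).sub (hy.mul (((hi.pow 2).mul_const _).sub hu))
    · exact hu.sub ((hi.pow 2).mul hx)
  have e : (-((-1 * ℘' c - Y L W c * (0 ^ 2 * X L W c - 1)) / (1 - 0 ^ 2 * X L W c)) -
        W.a₁ * X L W c - W.a₃) = Y L W c := by
    rw [← psi_eq L W c]
    norm_num
    ring
  rw [e] at key
  refine key.congr' ?_
  filter_upwards [eventually_good (W := W) hc, h.SX_const hc 0] with z hz hz5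
  obtain ⟨hz0, hz1, hz2, hz3⟩ := hz
  have hne' : X L W z - X L W (c - z) ≠ 0 := sub_ne_zero.mpr hz3
  have hd : z ^ 2 * X L W z - z ^ 2 * X L W (c - z) ≠ 0 := by
    rw [← mul_sub]
    exact mul_ne_zero (pow_ne_zero 2 hz0) hne'
  rw [SY, hz5, lam]
  congr 3
  rw [div_eq_iff hd]
  field_simp
  ring

theorem Unif.SY_const (h : Unif L W) {c : ℂ} (hc : c ∉ L.lattice) (z : ℂ) :
    SY L W c =ᶠ[𝓝[≠] z] fun _ => Y L W c := by
  refine const_near (meromorphic_SY L W c) (h.tendsto_SY hc) ?_ z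
  filter_upwards [eventually_good (W := W) hc] with z hz
  exact h.hasDerivAt_SY hz.2.1 hz.2.2.1 hz.2.2.2

/-- the sum at a good point -/
theorem Unif.sum_eq (h : Unif L W) {c z : ℂ} (hc : c ∉ L.lattice) (hz : z ∉ L.lattice)
    (hz2 : c - z ∉ L.lattice) (hne : X L W z ≠ X L W (c - z)) :
    SX L W c z = X L W c ∧ SY L W c z = Y L W c := by
  constructor
  · exact tendsto_nhds_unique (((h.hasDerivAt_SX hz hz2 hne).continuousAt.tendsto.mono_left
      nhdsWithin_le_nhds).congr' (h.SX_const hc z)) tendsto_const_nhds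
  · exact tendsto_nhds_unique (((h.hasDerivAt_SY hz hz2 hne).continuousAt.tendsto.mono_left
      nhdsWithin_le_nhds).congr' (h.SY_const hc z)) tendsto_const_nhds

open Classical in
/-- the uniformisation map -/
def Phi (h : Unif L W) (z : ℂ) : W.toAffine.Point :=
  if hz : z ∈ L.lattice then 0 else .some (X L W z) (Y L W z) (h.nonsingular hz)

theorem Phi_of_mem (h : Unif L W) {z : ℂ} (hz : z ∈ L.lattice) : Phi h z = 0 := by
  rw [Phi, dif_pos hz]

theorem Phi_of_notMem (h : Unif L W) {z : ℂ} (hz : z ∉ L.lattice) :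
    Phi h z = .some (X L W z) (Y L W z) (h.nonsingular hz) := by
  rw [Phi, dif_neg hz]

theorem Phi_eq_zero_iff (h : Unif L W) {z : ℂ} : Phi h z = 0 ↔ z ∈ L.lattice := by
  constructor
  · intro h1
    by_contra h2
    rw [Phi_of_notMem h h2] at h1
    exact Affine.Point.some_ne_zero _ h1
  · exact Phi_of_mem h

theorem X_add_mem {z l : ℂ} (hl : l ∈ L.lattice) : X L W (z + l) = X L W z := by
  rw [X, X, L.weierstrassP_add_coe z ⟨l, hl⟩]

theorem Y_add_mem {z l : ℂ} (hl : l ∈ L.lattice) : Y L W (z + l) = Y L W z := by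
  rw [Y, Y, X_add_mem hl, L.derivWeierstrassP_add_coe z ⟨l, hl⟩]

theorem Phi_add_mem (h : Unif L W) {z l : ℂ} (hl : l ∈ L.lattice) : Phi h (z + l) = Phi h z := by
  by_cases hz : z ∈ L.lattice
  · rw [Phi_of_mem h hz, Phi_of_mem h (add_mem hz hl)]
  · have h2 : z + l ∉ L.lattice := fun h3 => hz (by simpa using sub_mem h3 hl)
    rw [Phi_of_notMem h hz, Phi_of_notMem h h2]
    simp only [X_add_mem hl, Y_add_mem hl]

theorem Phi_neg (h : Unif L W) (z : ℂ) : Phi h (-z) = -Phi h z := by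
  by_cases hz : z ∈ L.lattice
  · rw [Phi_of_mem h hz, Phi_of_mem h (neg_mem hz), neg_zero]
  · have h2 : -z ∉ L.lattice := fun h3 => hz (by simpa using neg_mem h3)
    rw [Phi_of_notMem h hz, Phi_of_notMem h h2, Affine.Point.neg_some]
    simp only [X_neg, Y_neg]

open Classical in
/-- additivity at a generic pair -/
theorem Phi_add_gen (h : Unif L W) {z w : ℂ} (hz : z ∉ L.lattice) (hw : w ∉ L.lattice)
    (hzw : z + w ∉ L.lattice) (hne : X L W z ≠ X L W w) : Phi h (z + w) = Phi h z + Phi h w := by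
  have e : z + w - z = w := by ring
  obtain ⟨h1, h2⟩ := h.sum_eq (c := z + w) (z := z) hzw hz (by rwa [e]) (by rwa [e])
  rw [Phi_of_notMem h hz, Phi_of_notMem h hw, Phi_of_notMem h hzw, Affine.Point.add_of_X_ne hne]
  have hl : W.toAffine.slope (X L W z) (X L W w) (Y L W z) (Y L W w) = lam L W (z + w) z := by
    rw [Affine.slope_of_X_ne hne, lam, e]
  have e1 : W.toAffine.addX (X L W z) (X L W w) (lam L W (z + w) z) = X L W (z + w) := by
    rw [← h1, SX, Affine.addX, e]
  have e2 : W.toAffine.addY (X L W z) (X L W w) (Y L W z) (lam L W (z + w) z) = Y L W (z + w) := by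
    rw [← h2, SY, Affine.addY, Affine.negAddY, Affine.negY, e1, h1]
  simp only [hl, e1, e2]

end Fermat.Agent.MazY
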