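import Fermat.Agent.MazY.Red2
import Fermat.Agent.Maz.Defs

/-!
# Comparison with an arbitrary reduction map
-/

set_option autoImplicit false
set_option linter.unusedSectionVars false
set_option linter.style.haveILetI false
set_option synthInstance.maxHeartbeats 400000

noncomputable section

namespace Fermat.Agent.MazY

open AlgebraicCurve ModularCurve Fermat.Agent.Curves Fermat.Agent.GoodRed Fermat.Agent.GenusX0
open Fermat.Agent.ModFun Fermat.Agent.SSMod IsLocalRing IntermediateField

local notation "Qbar" => AlgebraicClosure ℚ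
local notation "GQ" => Qbar ≃ₐ[ℚ] Qbar

variable {A : ValuationSubring Qbar} {N : ℕ} [NeZero N]

set_option maxHeartbeats 1600000 in
theorem red_eq_zero {ℓ : ℕ} (hℓ : ℓ.Prime) (hA : A.LiesOverPrime ℓ) (hN : ¬ ℓ ∣ N)
    {M : ℕ} [IsFunctionField (ResidueField A) (modularFunctionFieldFullC (ResidueField A) M)]
    (r : RedMap A N M) {M' : ℕ} [NeZero M] [NeZero M']
    [IsFunctionField (ResidueField A) (modularFunctionFieldFullC (ResidueField A) M')]
    (hMM : M ∣ M')
    {R : Divisor Qbar (modularFunctionFieldBar N) →+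
      Divisor (ResidueField A) (modularFunctionFieldFullC (ResidueField A) M')} {c : ℤ}
    (pd : PosDeg R c)
    (spec : ∀ (f : modularFunctionFieldBar N) (fb : modularFunctionFieldFullC (ResidueField A) M'),
        LR (residue A) (f : LaurentSeries Qbar) (fb : LaurentSeries (ResidueField A)) → fb ≠ 0 →
          R (divisorOf f) = divisorOf fb)
    {D : Divisor Qbar (modularFunctionFieldBar N)} (hD : Divisor.degree D = 0) (h0 : R D = 0) :
    r.R D = 0 := by
  have hle := full_degeneracyC_le (K := ResidueField A) hMM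
  let ρ : modularFunctionFieldFullC (ResidueField A) M →ₐ[ResidueField A]
      modularFunctionFieldFullC (ResidueField A) M' := IntermediateField.inclusion hle
  have h1 : PosDeg ((Divisor.pullbackAlong ρ (integralAlong ρ)).comp r.R) _ :=
    r.posDeg.comp (pullbackAlong_posDeg ρ (integralAlong ρ))
  have h2 := rigid h1 pd (fun f hf => by
    obtain ⟨g, gb, hg, hgb, hdiv, hLR⟩ := RedMap.exists_scale hℓ hA hN hf
    change Divisor.pullbackAlong ρ (integralAlong ρ) (r.R (divisorOf f)) = _
    rw [hdiv, r.spec' hLR hgb, pullbackAlong_divisorOf]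
    refine (spec g (ρ (IntermediateField.inclusion r.hle gb)) hLR ?_).symm
    rw [Ne, map_eq_zero, map_eq_zero]
    exact hgb) hD
  rw [h0, AddMonoidHom.comp_apply] at h2
  exact pullbackAlong_injective ρ (integralAlong ρ) (by rw [h2, map_zero])

theorem cls_mem {ℓ : ℕ} {K : AddSubgroup (JZero N)} {hℓ : ℓ.Prime} {hA : A.LiesOverPrime ℓ}
    {hN : ¬ ℓ ∣ N} {M : ℕ}
    [IsFunctionField (ResidueField A) (modularFunctionFieldFullC (ResidueField A) M)]
    {r : RedMap A N M} (hK : K = (S37.redHom r hℓ hA hN).ker)
    {P P' : Place Qbar (modularFunctionFieldBar N)}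
    (h : r.R (Finsupp.single P 1 - Finsupp.single P' 1) = 0) : Maz.cls N P P' ∈ K := by
  rw [hK, AddMonoidHom.mem_ker, Maz.cls, S37.redHom_mk]
  change (QuotientAddGroup.mk (r.R (Finsupp.single P 1 - Finsupp.single P' 1)) : _ ⧸ _) = 0
  rw [h]
  rfl

end Fermat.Agent.MazY
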