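import Fermat.Agent.MazY.Sep
import Fermat.Agent.SSMod.ModEq
import Fermat.Agent.AnJac.Canon
import Fermat.Agent.GoodRed.Haupt

/-!
# The cusps of `X_0(N)`, `N` prime, and the functions `t`, `u`, `h`, `s`
-/

set_option autoImplicit false
set_option linter.unusedSectionVars false
set_option linter.style.haveILetI false

noncomputable section

namespace Fermat.Agent.MazY

open AlgebraicCurve ModularCurve Fermat.Agent.Curves Fermat.Agent.GoodRed Fermat.Agent.GenusX0
open Fermat.Agent.ModFun Fermat.Agent.SSMod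

variable {K : Type*} [Field K] [IsAlgClosed K] [CharZero K] {N : ℕ} [NeZero N]

/-- the series of `Δ(τ)/Δ(Nτ)` -/
def uL (K : Type*) [Field K] (N : ℕ) [NeZero N] : LaurentSeries K :=
  DeltaSer K * qExpand K N (DeltaInvSer K)

theorem ld_uL : Ld (1 - N : ℤ) (uL K N) (1 : K) := by
  have h := (ld_Delta K).mul ((ld_DeltaInv K).qExpand N)
  rw [one_mul] at h
  have e : (1 : ℤ) + N * -1 = 1 - N := by ring
  rw [e] at h
  exact h

theorem order_of_ld {x : LaurentSeries K} {n : ℤ} {c : K} (h : Ld n x c) (hc : c ≠ 0) :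
    x.order = n := by
  apply le_antisymm
  · apply HahnSeries.order_le_of_coeff_ne_zero
    rw [h.2]; exact hc
  · by_contra hlt
    push Not at hlt
    have h2 := h.1 _ hlt
    have h3 := HahnSeries.coeff_order_eq_zero.mp h2
    have h4 := h.2
    rw [h3] at h4
    exact hc (by rw [← h4]; rfl)

theorem ne_zero_of_ld {x : LaurentSeries K} {n : ℤ} {c : K} (h : Ld n x c) (hc : c ≠ 0) :
    x ≠ 0 := by
  rintro rfl
  exact hc (by rw [← h.2]; rfl)

theorem order_gt_of_ld {x : LaurentSeries K} {n : ℤ} (h : Ld n x 0) (hx : x ≠ 0) :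
    n < x.order := by
  by_contra hlt
  push Not at hlt
  have h3 : x.coeff x.order ≠ 0 := by
    rw [Ne, HahnSeries.coeff_order_eq_zero]; exact hx
  rcases lt_or_eq_of_le hlt with h4 | h4
  · exact h3 (h.1 _ h4)
  · rw [h4] at h3
    exact h3 h.2

/-- the function `u` and its basic properties -/
theorem exists_u (ι : K →+* ℂ) (hN : N.Prime) : ∃ u : modularFunctionFieldFullC K N,
    (u : LaurentSeries K) = uL K N ∧
    ∀ P : Place K (modularFunctionFieldFullC K N), 0 ≤ P.ord (je K N) → P.ord u = 0 := by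
  haveI : Fact N.Prime := ⟨hN⟩
  have hqM : Nat.Coprime N 1 := Nat.coprime_one_right N
  have key : ∀ n : ℕ, n = N * 1 → ∃ u : modularFunctionFieldFullC K n,
      (u : LaurentSeries K) = uL K N ∧
      ∀ P : Place K (modularFunctionFieldFullC K n), 0 ≤ P.ord (je K n) → P.ord u = 0 := by
    rintro _ rfl
    haveI := isFunctionField_fullC K (N * 1) (by
      rw [mul_one]; exact_mod_cast NeZero.ne N)
    refine ⟨al ι hqM (uM K N 1), al_uM ι hqM, fun P hP => ?_⟩
    have hj : jA K N 1 ∈ P.toValuationSubring := by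
      have h0 : jA K N 1 ≠ 0 := fun h => transcendental_je (k := K) (N := N * 1)
        ((show je K (N * 1) = 0 from h) ▸ isAlgebraic_zero)
      exact (mem_iff_ord P h0).mpr hP
    have h1 := uM_mem P hj
    have h2 := al_uM_mem ι hqM P hj
    have h3 := uM_mul_al (K := K) ι hqM
    have hN0 : ((N : K) ^ 12) ≠ 0 := pow_ne_zero _ (by exact_mod_cast NeZero.ne N)
    have h4 : uM K N 1 * al ι hqM (uM K N 1) ≠ 0 := by
      rw [h3]; simpa using hN0
    have h5 := left_ne_zero_of_mul h4
    have h6 := right_ne_zero_of_mul h4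
    have h7 := congrArg P.ord h3
    rw [P.ord_mul h5 h6, ord_algebraMap] at h7
    have h8 := (mem_iff_ord P h5).mp h1
    have h9 := (mem_iff_ord P h6).mp h2
    omega
  exact key N (mul_one N).symm

theorem psi_prime (hN : N.Prime) : dedekindPsi N = N + 1 := by
  have := Gamma0Comb.dedekindPsi_prime_pow hN 0
  simpa using this

/-- the pole divisor of `j` -/
theorem pole_j (hN : N.Prime) [IsFunctionField K (modularFunctionFieldFullC K N)]
    {Pj P0 : Place K (modularFunctionFieldFullC K N)} (h1 : Pj.ord (je K N) = -1)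
    (h0 : P0.ord (je K N) = -N) :
    poleDivisor (k := K) (je K N) = Finsupp.single Pj 1 + N • Finsupp.single P0 1 := by
  classical
  have hne : Pj ≠ P0 := by
    rintro rfl
    have := hN.one_lt
    omega
  refine (eq_of_le_of_degree ?_ ?_).symm
  · intro w
    rw [poleDivisor_apply, Finsupp.add_apply, Finsupp.smul_apply, Finsupp.single_apply,
      Finsupp.single_apply, nsmul_eq_mul]
    split_ifs with hw hw' hw'
    · exact absurd (hw.trans hw'.symm) hne
    · subst hw; omega
    · subst hw'; omega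
    · simp
  · rw [degree_poleDivisor transcendental_je, finrank_je, psi_prime hN, map_add, map_nsmul,
      Divisor.degree_single, Divisor.degree_single, deg_eq_one, deg_eq_one]
    push_cast
    simp [add_comm]

/-- the functions `t`, `u`, `h`, `s` -/
structure CF (K : Type*) [Field K] (N : ℕ) [NeZero N]
    {E : IntermediateField K (LaurentSeries K)} (Pj P0 : Place K E) (t u h s : E) : Prop where
  ct : (t : LaurentSeries K) = (jqModC K)⁻¹
  cu : (u : LaurentSeries K) = uL K N
  ht : t ≠ 0
  hu : u ≠ 0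
  eh : h = u * t ^ (N - 1)
  es : s = t / u
  div_t : ∀ w, w ≠ Pj → w ≠ P0 → w.ord t ≤ 0
  div_u : ∀ w, w ≠ Pj → w ≠ P0 → w.ord u = 0
  tj : Pj.ord t = 1
  t0 : P0.ord t = N
  uj : Pj.ord u = 1 - N
  u0 : P0.ord u = N - 1
  hj : 0 < Pj.ord (h - 1)

theorem exists_cf (ι : K →+* ℂ) (hN : N.Prime) {E : IntermediateField K (LaurentSeries K)}
    (hE : E = modularFunctionFieldFullC K N) [IsFunctionField K E]
    (Pj P0 : Place K E) (j : E) (hj : (j : LaurentSeries K) = jqModC K)
    (h1 : Pj.ord j = -1) (h0 : P0.ord j = -N) : ∃ t u h s : E, CF K N Pj P0 t u h s := by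
  classical
  subst hE
  obtain rfl : j = je K N := Subtype.ext hj
  have hN2 := hN.one_lt
  have hne : Pj ≠ P0 := by
    rintro rfl
    omega
  obtain ⟨u, cu, hu⟩ := exists_u ι hN
  have hj0 : je K N ≠ 0 := fun h => transcendental_je (k := K) (N := N) (h ▸ isAlgebraic_zero)
  have hu0 : u ≠ 0 := by
    intro h
    apply ne_zero_of_ld (ld_uL (K := K) (N := N)) one_ne_zero
    rw [← cu, h]; rfl
  have hpole := pole_j hN h1 h0
  have hpo : ∀ w, w ≠ Pj → w ≠ P0 → 0 ≤ w.ord (je K N) := by
    intro w hw1 hw0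
    have := DFunLike.congr_fun hpole w
    rw [poleDivisor_apply, Finsupp.add_apply, Finsupp.smul_apply, Finsupp.single_apply,
      Finsupp.single_apply, if_neg hw1.symm, if_neg hw0.symm] at this
    simp at this
    exact this
  obtain ⟨v, hv⟩ := AnJac.exists_vinf K N
  have hvj : v.ord (je K N) = -1 := by
    rw [hv _ hj0]
    exact order_of_ld (ld_jq K) one_ne_zero
  obtain rfl : v = Pj := by
    by_contra hvP
    have hv0 : v ≠ P0 := by
      rintro rfl
      omega
    have := hpo v hvP hv0
    omega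
  have huj : v.ord u = 1 - N := by
    rw [hv _ hu0, cu]
    exact order_of_ld ld_uL one_ne_zero
  have hu0' : P0.ord u = N - 1 := by
    have h2 := degree_divisorOf (k := K) u
    have h3 : divisorOf (k := K) u = (1 - N : ℤ) • Finsupp.single v 1 +
        (P0.ord u) • Finsupp.single P0 1 := by
      ext w
      rw [divisorOf_apply, Finsupp.add_apply, Finsupp.smul_apply, Finsupp.smul_apply,
        Finsupp.single_apply, Finsupp.single_apply]
      by_cases hw : v = w
      · subst hw
        rw [if_pos rfl, if_neg (fun h => hne h.symm), huj]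
        simp
      · by_cases hw' : P0 = w
        · subst hw'
          rw [if_neg hw, if_pos rfl]
          simp
        · rw [if_neg hw, if_neg hw', hu w (hpo w (fun h => hw h.symm) fun h => hw' h.symm)]
          simp
    rw [h3, map_add, map_zsmul, map_zsmul, Divisor.degree_single, Divisor.degree_single, deg_eq_one,
      deg_eq_one] at h2
    simp at h2
    omega
  have ht0 : (je K N)⁻¹ ≠ 0 := inv_ne_zero hj0
  refine ⟨(je K N)⁻¹, u, _, _, ⟨rfl, cu, ht0, hu0, rfl, rfl, ?_, ?_, ?_, ?_, huj, hu0', ?_⟩⟩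
  · intro w hw1 hw0
    have := hpo w hw1 hw0
    rw [w.ord_inv]
    omega
  · intro w hw1 hw0
    exact hu w (hpo w hw1 hw0)
  · rw [v.ord_inv, h1]; rfl
  · rw [P0.ord_inv, h0]; omega
  · have hh0 : P0.ord (u * (je K N)⁻¹ ^ (N - 1)) = N - 1 + (N - 1) * N := by
      rw [P0.ord_mul hu0 (pow_ne_zero _ ht0), ord_pow, hu0', P0.ord_inv, h0]
      have : ((N - 1 : ℕ) : ℤ) = N - 1 := by
        rw [Nat.cast_sub hN2.le, Nat.cast_one]
      rw [this]
      ring
    have hne1 : u * (je K N)⁻¹ ^ (N - 1) - 1 ≠ 0 := by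
      intro h
      rw [sub_eq_zero] at h
      rw [h] at hh0
      have e1 : P0.ord (1 : modularFunctionFieldFullC K N) = 0 := by
        have := ord_algebraMap P0 (1 : K)
        rwa [map_one] at this
      rw [e1] at hh0
      have : (1 : ℤ) < N := by exact_mod_cast hN2
      nlinarith
    have hjp : (je K N) ^ (N - 1) ≠ 0 := pow_ne_zero _ hj0
    have e2 : u * (je K N)⁻¹ ^ (N - 1) - 1 = (u - (je K N) ^ (N - 1)) * ((je K N) ^ (N - 1))⁻¹ := by
      rw [inv_pow, sub_mul, mul_inv_cancel₀ hjp]
    have hne2 : u - (je K N) ^ (N - 1) ≠ 0 := by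
      intro h
      rw [h, zero_mul] at e2
      exact hne1 e2
    rw [e2, v.ord_mul hne2 (inv_ne_zero hjp), v.ord_inv, ord_pow, h1, hv _ hne2]
    have h3 : ∀ n : ℕ, Ld (-(n : ℤ)) (jqModC K ^ n) (1 : K) := by
      intro n
      induction n with
      | zero =>
        rw [pow_zero]
        refine ⟨fun m hm => ?_, ?_⟩
        · rw [HahnSeries.coeff_one, if_neg]
          simp at hm
          omega
        · simp
      | succ n ih =>
        have := ih.mul (ld_jq K)
        rw [one_mul] at this
        rw [pow_succ]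
        convert this using 1
        push_cast
        ring
    have h4 : Ld (1 - N : ℤ) (uL K N - jqModC K ^ (N - 1)) (0 : K) := by
      have h5 := h3 (N - 1)
      have e3 : (-((N - 1 : ℕ) : ℤ)) = 1 - N := by
        rw [Nat.cast_sub hN2.le, Nat.cast_one]; ring
      rw [e3] at h5
      refine ⟨fun m hm => ?_, ?_⟩
      · rw [HahnSeries.coeff_sub, ld_uL.1 m hm, h5.1 m hm, sub_zero]
      · rw [HahnSeries.coeff_sub, ld_uL.2, h5.2, sub_self]
    have h6 : ((u - (je K N) ^ (N - 1) : modularFunctionFieldFullC K N) : LaurentSeries K) =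
        uL K N - jqModC K ^ (N - 1) := by
      rw [AddSubgroupClass.coe_sub, SubmonoidClass.coe_pow, cu]
      rfl
    rw [h6]
    have h7 := order_gt_of_ld h4 (by
      rw [← h6]; exact fun h => hne2 (Subtype.ext h))
    have : ((N - 1 : ℕ) : ℤ) = N - 1 := by
      rw [Nat.cast_sub hN2.le, Nat.cast_one]
    rw [this]
    omega

namespace CF

variable {E : IntermediateField K (LaurentSeries K)} [IsFunctionField K E] {Pj P0 : Place K E}
  {t u h s : E} (C : CF K N Pj P0 t u h s) (hN : N.Prime)

include C hN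

theorem ne : Pj ≠ P0 := by
  intro h
  have h1 := C.tj
  have h2 := C.t0
  rw [h, h2] at h1
  have := hN.one_lt
  omega

theorem ord_s (w : Place K E) : w.ord s = w.ord t - w.ord u := by
  rw [C.es, ord_div w C.ht C.hu]

theorem ord_h (w : Place K E) : w.ord h = w.ord u + (N - 1) * w.ord t := by
  rw [C.eh, w.ord_mul C.hu (pow_ne_zero _ C.ht), ord_pow, Nat.cast_sub hN.one_lt.le, Nat.cast_one]

theorem t_div : poleDivisor (k := K) t⁻¹ = Finsupp.single Pj 1 + N • Finsupp.single P0 1 := by
  classical
  ext w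
  rw [poleDivisor_apply, w.ord_inv, Finsupp.add_apply, Finsupp.smul_apply, Finsupp.single_apply,
    Finsupp.single_apply, nsmul_eq_mul]
  by_cases hw : Pj = w
  · subst hw
    rw [if_pos rfl, if_neg (C.ne hN).symm, C.tj]
    simp
  · by_cases hw' : P0 = w
    · subst hw'
      rw [if_neg hw, if_pos rfl, C.t0]
      simp
    · rw [if_neg hw, if_neg hw']
      have := C.div_t w (fun h => hw h.symm) (fun h => hw' h.symm)
      simp
      omega

theorem s_zer : poleDivisor (k := K) s⁻¹ = Finsupp.single P0 1 + N • Finsupp.single Pj 1 := by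
  classical
  ext w
  rw [poleDivisor_apply, w.ord_inv, C.ord_s hN, Finsupp.add_apply, Finsupp.smul_apply,
    Finsupp.single_apply, Finsupp.single_apply, nsmul_eq_mul]
  by_cases hw : Pj = w
  · subst hw
    rw [if_pos rfl, if_neg (C.ne hN).symm, C.tj, C.uj]
    simp
  · by_cases hw' : P0 = w
    · subst hw'
      rw [if_neg hw, if_pos rfl, C.t0, C.u0]
      simp
    · rw [if_neg hw, if_neg hw']
      have := C.div_t w (fun h => hw h.symm) (fun h => hw' h.symm)
      have := C.div_u w (fun h => hw h.symm) (fun h => hw' h.symm)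
      simp
      omega

theorem s_pol : poleDivisor (k := K) s = poleDivisor t := by
  ext w
  rw [poleDivisor_apply, poleDivisor_apply, C.ord_s hN]
  by_cases hw : Pj = w
  · subst hw
    rw [C.tj, C.uj]
    have := hN.one_lt
    omega
  · by_cases hw' : P0 = w
    · subst hw'
      rw [C.t0, C.u0]
      omega
    · have := C.div_u w (fun h => hw h.symm) (fun h => hw' h.symm)
      omega

theorem h_pol : ∃ m : ℕ, poleDivisor (k := K) h ≤ m • poleDivisor t := by
  refine ⟨N - 1, fun w => ?_⟩
  rw [Finsupp.smul_apply, nsmul_eq_mul, poleDivisor_apply, poleDivisor_apply, C.ord_h hN,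
    Nat.cast_sub hN.one_lt.le, Nat.cast_one]
  have hN1 : (1 : ℤ) < N := by exact_mod_cast hN.one_lt
  by_cases hw : Pj = w
  · subst hw
    rw [C.tj, C.uj]
    have e : -((1 : ℤ) - N + (N - 1) * 1) = 0 := by ring
    rw [e]
    simp
  · by_cases hw' : P0 = w
    · subst hw'
      rw [C.t0, C.u0]
      have e : max 0 (-((N : ℤ) - 1 + (N - 1) * N)) = 0 := by
        apply max_eq_left
        nlinarith
      rw [e]
      have : 0 ≤ max 0 (-(N : ℤ)) := le_max_left _ _
      nlinarith
    · have h1 := C.div_u w (fun h => hw h.symm) (fun h => hw' h.symm)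
      have h2 := C.div_t w (fun h => hw h.symm) (fun h => hw' h.symm)
      have h3 : (N - 1 : ℤ) * w.ord t ≤ 0 := by nlinarith
      rw [h1, zero_add, max_eq_right (by omega), max_eq_right (by omega)]
      apply le_of_eq
      ring

theorem h_zero : 0 < P0.ord h := by
  rw [C.ord_h hN, C.u0, C.t0]
  have hN1 : (1 : ℤ) < N := by exact_mod_cast hN.one_lt
  nlinarith

end CF

end Fermat.Agent.MazY
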