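import Fermat.Agent.MazY.Iso

/-!
# The discriminant of a lattice; half periods
-/

set_option autoImplicit false

noncomputable section

namespace Fermat.Agent.MazY

open Filter Topology WeierstrassCurve

variable (L : PeriodPair)

local notation "℘" => PeriodPair.weierstrassP L
local notation "℘'" => PeriodPair.derivWeierstrassP L

/-- the discriminant of a lattice -/
def Dl : ℂ := L.g₂ ^ 3 - 27 * L.g₃ ^ 2

variable {L}

/-- the cubic has no multiple root -/
theorem no_double {z : ℂ} (hz : z ∉ L.lattice) (h1 : 4 * ℘ z ^ 3 - L.g₂ * ℘ z - L.g₃ = 0)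
    (h2 : 12 * ℘ z ^ 2 - L.g₂ = 0) : False := by
  set e := ℘ z with he
  have ha : AnalyticAt ℂ (fun w => ℘ w - e) z := (analyticAt_wp hz).sub analyticAt_const
  rcases ha.eventually_eq_zero_or_eventually_ne_zero with h | h
  · -- `℘` is constant near `z`
    have h5 : ℘' =ᶠ[𝓝 z] fun _ => 0 := by
      have h6 : ℘ =ᶠ[𝓝 z] fun _ => e := by
        filter_upwards [h] with w hw
        exact sub_eq_zero.mp hw
      filter_upwards [h6.eventually_nhds] with w hw
      rw [← L.deriv_weierstrassP, Filter.EventuallyEq.deriv_eq hw, deriv_const]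
    apply wp'_order_ne_top L z
    rw [meromorphicOrderAt_eq_top_iff]
    exact h5.filter_mono nhdsWithin_le_nhds
  · have hne : ¬ ∀ᶠ w in 𝓝 z, ℘ w - e = 0 := by
      intro h3
      have h4 := (h3.filter_mono nhdsWithin_le_nhds).and h
      obtain ⟨w, hw⟩ := (h4 : ∀ᶠ w in 𝓝[≠] z, _).exists
      exact hw.2 hw.1
    obtain ⟨n, k, hk, hk0, hkf⟩ := (ha.exists_eventuallyEq_pow_smul_nonzero_iff).2 hne
    -- the identity near `z`
    have hop : (L.lattice : Set ℂ)ᶜ ∈ 𝓝 z := L.isClosed_lattice.isOpen_compl.mem_nhds hz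
    have hn : n ≠ 0 := by
      rintro rfl
      have h3 := hkf.self_of_nhds
      simp only [pow_zero, one_smul, ← he, sub_self] at h3
      exact hk0 h3.symm
    obtain ⟨m, rfl⟩ := Nat.exists_eq_succ_of_ne_zero hn
    have hkd : ∀ᶠ w in 𝓝 z, AnalyticAt ℂ k w := hk.eventually_analyticAt
    have key : ∀ᶠ w in 𝓝[≠] z, ((m + 1 : ℂ) * k w + (w - z) * deriv k w) ^ 2 =
        4 * (w - z) ^ 2 * k w ^ 2 * (℘ w - e + 3 * e) := by
      filter_upwards [mem_nhdsWithin_of_mem_nhds hkf.eventually_nhds,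
        mem_nhdsWithin_of_mem_nhds hkd, mem_nhdsWithin_of_mem_nhds hop, self_mem_nhdsWithin]
        with w hw1 hw2 hw3 hw4
      have d1 : HasDerivAt (fun w => ℘ w - e) (℘' w) w := (hasDerivAt_wp hw3).sub_const e
      have d2 : HasDerivAt (fun w => (w - z) ^ (m + 1) • k w)
          (((m + 1 : ℕ) * (w - z) ^ m * 1) * k w + (w - z) ^ (m + 1) * deriv k w) w := by
        have h3 := (((hasDerivAt_id w).sub_const z).fun_pow (m + 1)).fun_mul
          hw2.differentiableAt.hasDerivAt
        simpa using h3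
      have d3 := d1.unique (d2.congr_of_eventuallyEq hw1)
      have e1 := L.derivWeierstrassP_sq w hw3
      have e2 : ℘ w = e + (w - z) ^ (m + 1) * k w := by
        have := hw1.self_of_nhds
        simp only [smul_eq_mul, Nat.succ_eq_add_one] at this
        linear_combination this
      rw [d3] at e1
      have hwz : (w - z) ^ m ≠ 0 := pow_ne_zero m (sub_ne_zero.mpr hw4)
      apply mul_left_cancel₀ (pow_ne_zero 2 hwz)
      rw [e2] at e1 ⊢
      rw [pow_succ] at e1 ⊢
      push_cast at e1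
      linear_combination e1 + (1 : ℂ) * h1 + ((w - z) ^ m * (w - z) * k w) * h2
    have l1 : Tendsto (fun w => ((m + 1 : ℂ) * k w + (w - z) * deriv k w) ^ 2) (𝓝[≠] z)
        (𝓝 (((m + 1 : ℂ) * k z + (z - z) * deriv k z) ^ 2)) := by
      have h3 : ContinuousAt (fun w => ((m + 1 : ℂ) * k w + (w - z) * deriv k w) ^ 2) z :=
        ((continuousAt_const.mul hk.continuousAt).add
          ((continuousAt_id.sub continuousAt_const).mul hk.deriv.continuousAt)).pow 2
      exact h3.tendsto.mono_left nhdsWithin_le_nhds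
    have l2 : Tendsto (fun w => 4 * (w - z) ^ 2 * k w ^ 2 * (℘ w - e + 3 * e)) (𝓝[≠] z)
        (𝓝 (4 * (z - z) ^ 2 * k z ^ 2 * (℘ z - e + 3 * e))) := by
      have h3 : ContinuousAt (fun w => 4 * (w - z) ^ 2 * k w ^ 2 * (℘ w - e + 3 * e)) z :=
        (((continuousAt_const.mul ((continuousAt_id.sub continuousAt_const).pow 2)).mul
          (hk.continuousAt.pow 2)).mul (ha.continuousAt.add continuousAt_const))
      exact h3.tendsto.mono_left nhdsWithin_le_nhds
    have h3 := tendsto_nhds_unique (l1.congr' key) l2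
    rw [sub_self, zero_mul, add_zero, zero_pow two_ne_zero, mul_zero, zero_mul, zero_mul] at h3
    have h4 := pow_eq_zero_iff two_ne_zero |>.mp h3
    rcases mul_eq_zero.mp h4 with h5 | h5
    · have : ((m + 1 : ℕ) : ℂ) = 0 := by exact_mod_cast h5
      exact absurd (Nat.cast_eq_zero.mp this) (Nat.succ_ne_zero m)
    · exact hk0 h5

theorem Dl_ne_zero : Dl L ≠ 0 := by
  intro h
  rw [Dl] at h
  by_cases h2 : L.g₂ = 0
  · have h3 : L.g₃ = 0 := by
      rw [h2] at h
      have : L.g₃ ^ 2 = 0 := by linear_combination (-1 / 27 : ℂ) * h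
      exact pow_eq_zero_iff two_ne_zero |>.mp this
    obtain ⟨z, hz, he⟩ := exists_wp_eq (L := L) 0
    exact no_double hz (by rw [he, h2, h3]; ring) (by rw [he, h2]; ring)
  · obtain ⟨z, hz, he⟩ := exists_wp_eq (L := L) (-3 * L.g₃ / (2 * L.g₂))
    refine no_double hz ?_ ?_
    · rw [he]
      field_simp
      linear_combination (4 * L.g₃) * h
    · rw [he]
      field_simp
      linear_combination (-4 : ℂ) * h

variable (L) in
/-- the short Weierstrass curve of a lattice -/
def WL : WeierstrassCurve ℂ := ⟨0, 0, 0, -L.g₂ / 4, -L.g₃ / 4⟩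

theorem unif_WL : Unif L (WL L) where
  h4 := by simp only [WL, WeierstrassCurve.c₄, WeierstrassCurve.b₂, WeierstrassCurve.b₄]; ring
  h6 := by
    simp only [WL, WeierstrassCurve.c₆, WeierstrassCurve.b₂, WeierstrassCurve.b₄,
      WeierstrassCurve.b₆]; ring
  hΔ := by
    have h := Dl_ne_zero (L := L)
    rw [Dl] at h
    intro h2
    apply h
    rw [← h2]
    simp only [WL, WeierstrassCurve.Δ, WeierstrassCurve.b₂, WeierstrassCurve.b₄,
      WeierstrassCurve.b₆, WeierstrassCurve.b₈]
    ring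

theorem Unif.Δ_eq {W : WeierstrassCurve ℂ} (h : Unif L W) : W.Δ = Dl L := by
  have h1 := W.c_relation
  have h2 := h.h4
  have h3 := h.h6
  rw [← h2, ← h3] at h1
  rw [Dl]
  linear_combination (1 / 1728 : ℂ) * h1

theorem half_iff {z : ℂ} (hz : z ∉ L.lattice) : ℘' z = 0 ↔ z + z ∈ L.lattice :=
  wp'_eq_zero_iff unif_WL hz

theorem wp_eq_iff {z w : ℂ} (hz : z ∉ L.lattice) (hw : w ∉ L.lattice) :
    ℘ z = ℘ w ↔ z - w ∈ L.lattice ∨ z + w ∈ L.lattice := by
  rw [← X_eq_iff unif_WL hz hw, X, X]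
  constructor
  · intro h; rw [h]
  · intro h; linear_combination h

/-- the second derivative of `℘` at a half period -/
def dd (L : PeriodPair) (z : ℂ) : ℂ := 6 * PeriodPair.weierstrassP L z ^ 2 - L.g₂ / 2

theorem dd_ne_zero {z : ℂ} (hz : z ∉ L.lattice) (h2 : z + z ∈ L.lattice) : dd L z ≠ 0 := by
  intro h
  have h1 := (half_iff hz).2 h2
  have h3 := L.derivWeierstrassP_sq z hz
  rw [h1] at h3
  rw [dd] at h
  exact no_double hz (by linear_combination -h3) (by linear_combination 2 * h)

/-- the product of the second derivatives at the half periods -/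
theorem prod_dd {s t : ℂ} (hs : s ∉ L.lattice) (ht : t ∉ L.lattice) (hst : s + t ∉ L.lattice)
    (hs2 : s + s ∈ L.lattice) (ht2 : t + t ∈ L.lattice) :
    dd L s * dd L t * dd L (s + t) = -Dl L / 2 := by
  have hst2 : (s + t) + (s + t) ∈ L.lattice := by
    have := add_mem hs2 ht2
    have e : (s + t) + (s + t) = (s + s) + (t + t) := by ring
    rwa [e]
  have r1 := L.derivWeierstrassP_sq s hs
  have r2 := L.derivWeierstrassP_sq t ht
  have r3 := L.derivWeierstrassP_sq (s + t) hst
  rw [(half_iff hs).2 hs2] at r1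
  rw [(half_iff ht).2 ht2] at r2
  rw [(half_iff hst).2 hst2] at r3
  have n1 : ℘ s ≠ ℘ t := by
    rw [Ne, wp_eq_iff hs ht]
    rintro (h | h)
    · apply hst
      have := add_mem h ht2
      have e : s - t + (t + t) = s + t := by ring
      rwa [e] at this
    · exact hst h
  have n2 : ℘ s ≠ ℘ (s + t) := by
    rw [Ne, wp_eq_iff hs hst]
    rintro (h | h)
    · apply ht
      have e : t = -(s - (s + t)) := by ring
      rw [e]; exact neg_mem h
    · apply ht
      have e : t = (s + (s + t)) - (s + s) := by ring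
      rw [e]; exact sub_mem h hs2
  have n3 : ℘ t ≠ ℘ (s + t) := by
    rw [Ne, wp_eq_iff ht hst]
    rintro (h | h)
    · apply hs
      have e : s = -(t - (s + t)) := by ring
      rw [e]; exact neg_mem h
    · apply hs
      have e : s = (t + (s + t)) - (t + t) := by ring
      rw [e]; exact sub_mem h ht2
  set a := ℘ s
  set b := ℘ t
  set c := ℘ (s + t)
  have q1 : 4 * (a ^ 2 + a * b + b ^ 2) = L.g₂ := by
    apply mul_left_cancel₀ (sub_ne_zero.mpr n1)
    linear_combination r2 - r1
  have q2 : 4 * (a ^ 2 + a * c + c ^ 2) = L.g₂ := by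
    apply mul_left_cancel₀ (sub_ne_zero.mpr n2)
    linear_combination r3 - r1
  have q3 : c = -a - b := by
    apply mul_left_cancel₀ (sub_ne_zero.mpr n3)
    linear_combination (q1 - q2) / 4
  have q4 : L.g₃ = 4 * a ^ 3 - L.g₂ * a := by linear_combination r1
  have e1 : dd L s = 6 * a ^ 2 - L.g₂ / 2 := rfl
  have e2 : dd L t = 6 * b ^ 2 - L.g₂ / 2 := rfl
  have e3 : dd L (s + t) = 6 * c ^ 2 - L.g₂ / 2 := rfl
  rw [e1, e2, e3, Dl, q4, ← q1, q3]
  ring

end Fermat.Agent.MazY
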