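import Fermat.Agent.MazY.Add3

/-!
# The uniformisation is a group isomorphism (2)
-/

set_option autoImplicit false

noncomputable section

namespace Fermat.Agent.MazY

open Filter Topology WeierstrassCurve

variable {L : PeriodPair} {W : WeierstrassCurve ℂ}

local notation "℘" => PeriodPair.weierstrassP L
local notation "℘'" => PeriodPair.derivWeierstrassP L

theorem map_add_punctured (c : ℂ) : map (fun z => c + z) (𝓝[≠] (0 : ℂ)) = 𝓝[≠] c := by
  have := (Homeomorph.addLeft c).map_punctured_nhds_eq 0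
  simpa using this

theorem eventually_X_ne {z w : ℂ} (hz : z ∉ L.lattice) (hw : w ∉ L.lattice)
    (hzw : z + w ∉ L.lattice) : ∀ᶠ t in 𝓝[≠] (0 : ℂ), X L W (z + t) ≠ X L W (w - t) := by
  have hX : ∀ {u : ℂ}, u ∉ L.lattice → AnalyticAt ℂ (X L W) u := fun hu =>
    (analyticAt_wp hu).sub analyticAt_const
  have ha : AnalyticAt ℂ (fun t => X L W (z + t) - X L W (w - t)) 0 := by
    apply AnalyticAt.sub
    · exact (hX (u := z + 0) (by rwa [add_zero])).comp (f := fun t : ℂ => z + t)
        (by fun_prop)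
    · exact (hX (u := w - 0) (by rwa [sub_zero])).comp (f := fun t : ℂ => w - t) (by fun_prop)
  rcases ha.eventually_eq_zero_or_eventually_ne_zero with h | h
  · exfalso
    have hm : Meromorphic fun t => X L W (z + t) - X L W (w - t) := fun t =>
      ((meromorphic_X L W (z + t)).comp_analyticAt (g := fun t => z + t) (by fun_prop)).sub
        (meromorphic_sub (meromorphic_X L W) w t)
    have h5 : meromorphicOrderAt (fun t => X L W (z + t) - X L W (w - t)) 0 = ⊤ := by
      rw [meromorphicOrderAt_eq_top_iff]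
      exact h.filter_mono nhdsWithin_le_nhds
    have h6 : meromorphicOrderAt (fun t => X L W (z + t) - X L W (w - t)) (-z) = ⊤ := by
      by_contra h2
      have h3 := (MeromorphicOn.exists_meromorphicOrderAt_ne_top_iff_forall
        (f := fun t => X L W (z + t) - X L W (w - t)) (U := Set.univ) (fun z _ => hm z)
        isConnected_univ).1 ⟨⟨-z, Set.mem_univ _⟩, h2⟩ ⟨0, Set.mem_univ _⟩
      exact h3 h5
    rw [meromorphicOrderAt_eq_top_iff, ← map_add_punctured, eventually_map] at h6
    have h7 : Tendsto (fun s => s ^ 2 * X L W s - s ^ 2 * X L W (w + z - s)) (𝓝[≠] 0)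
        (𝓝 (1 - 0 ^ 2 * X L W (w + z))) :=
      (tendsto_u L W).sub ((tendsto_id_ne.pow 2).mul (tendsto_sub_X (by rwa [add_comm])))
    have h8 : Tendsto (fun s => s ^ 2 * X L W s - s ^ 2 * X L W (w + z - s)) (𝓝[≠] 0) (𝓝 0) := by
      refine tendsto_const_nhds.congr' ?_
      filter_upwards [h6] with s hs
      have e1 : z + (-z + s) = s := by ring
      have e2 : w - (-z + s) = w + z - s := by ring
      rw [e1, e2] at hs
      rw [← mul_sub, hs, mul_zero]
    have := tendsto_nhds_unique h7 h8
    norm_num at this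
  · filter_upwards [h] with t ht h2
    exact ht (sub_eq_zero.mpr h2)

theorem eventually_add_notMem {z : ℂ} (hz : z ∉ L.lattice) :
    ∀ᶠ t in 𝓝[≠] (0 : ℂ), z + t ∉ L.lattice := by
  have h2 : ContinuousAt (fun t : ℂ => z + t) 0 := by fun_prop
  have h3 := h2.preimage_mem_nhds (t := (L.lattice : Set ℂ)ᶜ)
    (by rw [add_zero]; exact L.isClosed_lattice.isOpen_compl.mem_nhds hz)
  exact mem_nhdsWithin_of_mem_nhds h3

theorem eventually_X_ne_const (a : ℂ) : ∀ᶠ t in 𝓝[≠] (0 : ℂ), X L W t ≠ a := by
  have h5 : Tendsto (fun z => z ^ 2 * X L W z - z ^ 2 * a) (𝓝[≠] 0)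
      (𝓝 (1 - 0 ^ 2 * a)) :=
    (tendsto_u L W).sub ((tendsto_id_ne.pow 2).mul tendsto_const_nhds)
  have h6 : ∀ᶠ z in 𝓝[≠] (0 : ℂ), z ^ 2 * X L W z - z ^ 2 * a ≠ 0 :=
    h5.eventually (isOpen_ne.mem_nhds (by norm_num))
  filter_upwards [h6] with z hz h7
  rw [h7, sub_self] at hz
  exact hz rfl

open Classical in
/-- **the uniformisation is additive** -/
theorem Phi_add (h : Unif L W) (z w : ℂ) : Phi h (z + w) = Phi h z + Phi h w := by
  by_cases hz : z ∈ L.lattice
  · rw [Phi_of_mem h hz, zero_add, add_comm, Phi_add_mem h hz]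
  by_cases hw : w ∈ L.lattice
  · rw [Phi_of_mem h hw, add_zero, Phi_add_mem h hw]
  by_cases hzw : z + w ∈ L.lattice
  · rw [Phi_of_mem h hzw]
    have e : w = -z + (z + w) := by ring
    have h1 : Phi h w = -Phi h z := by rw [e, Phi_add_mem h hzw, Phi_neg]
    rw [h1, add_neg_cancel]
  have hnw : -(w : ℂ) ∉ L.lattice := fun h3 => hw (by simpa using neg_mem h3)
  obtain ⟨t, h1, h2, h3, h4, h5, h6⟩ := ((eventually_X_ne (W := W) hz hw hzw).and
    ((eventually_add_notMem hz).and ((eventually_add_notMem hnw).and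
    ((eventually_notMem L).and ((eventually_X_ne_const (L := L) (W := W) (X L W z)).and
    (eventually_X_ne_const (L := L) (W := W) (X L W w))))))).exists
  have hwt : w - t ∉ L.lattice := fun h7 => h3 (by
    have := neg_mem h7
    rwa [neg_sub, sub_eq_neg_add] at this)
  have hnt : -t ∉ L.lattice := fun h7 => h4 (by simpa using neg_mem h7)
  have e : z + w = (z + t) + (w - t) := by ring
  have e2 : w - t = w + -t := by ring
  rw [e, Phi_add_gen h h2 hwt (by rwa [← e]) h1, Phi_add_gen h hz h4 h2 (Ne.symm h5), e2,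
    Phi_add_gen h hw hnt (by rwa [← e2]) (by rw [X_neg]; exact Ne.symm h6), Phi_neg]
  abel

open Classical in
/-- the uniformisation as a group homomorphism -/
def PhiHom (h : Unif L W) : ℂ →+ W.toAffine.Point where
  toFun := Phi h
  map_zero' := Phi_of_mem h (zero_mem _)
  map_add' := Phi_add h

theorem Phi_surjective (h : Unif L W) : Function.Surjective (Phi h) := by
  intro P
  rcases P with _ | ⟨x, y, hP⟩
  · exact ⟨0, Phi_of_mem h (zero_mem _)⟩
  · obtain ⟨z, hz, hx⟩ := exists_wp_eq (L := L) (x + W.b₂ / 12)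
    have hX : X L W z = x := by rw [X, hx]; ring
    have e1 := h.equation hz
    have e2 := hP.left
    rw [hX] at e1
    rcases Affine.Y_eq_of_X_eq e2 e1 rfl with h1 | h1
    · refine ⟨z, ?_⟩
      rw [Phi_of_notMem h hz]
      simp only [hX, ← h1]
    · refine ⟨-z, ?_⟩
      have h2 : -z ∉ L.lattice := fun h3 => hz (by simpa using neg_mem h3)
      rw [Phi_of_notMem h h2]
      simp only [X_neg, Y_neg, hX, ← h1]

open Classical in
theorem Phi_eq_iff (h : Unif L W) {z w : ℂ} : Phi h z = Phi h w ↔ z - w ∈ L.lattice := by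
  rw [← Phi_eq_zero_iff h]
  have e : z = (z - w) + w := by ring
  constructor
  · intro h1
    rw [e, Phi_add] at h1
    simpa using h1
  · intro h1
    rw [e, Phi_add, h1, zero_add]

/-- zeros of `℘'` are the half periods -/
theorem wp'_eq_zero_iff (h : Unif L W) {z : ℂ} (hz : z ∉ L.lattice) :
    ℘' z = 0 ↔ z + z ∈ L.lattice := by
  classical
  rw [← Phi_eq_zero_iff h, Phi_add, add_eq_zero_iff_eq_neg, Phi_of_notMem h hz,
    Affine.Point.neg_some]
  constructor
  · intro h1
    have : Y L W z = W.toAffine.negY (X L W z) (Y L W z) := by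
      rw [Affine.negY]
      have := psi_eq L W z
      linear_combination this + h1
    congr 1
  · intro h1
    have h2 := (Affine.Point.some.injEq _ _ _ _ _ _).mp h1
    have h3 := h2.2
    rw [Affine.negY] at h3
    rw [← psi_eq L W z]
    linear_combination h3

theorem X_eq_iff (h : Unif L W) {z w : ℂ} (hz : z ∉ L.lattice) (hw : w ∉ L.lattice) :
    X L W z = X L W w ↔ z - w ∈ L.lattice ∨ z + w ∈ L.lattice := by
  have hnw : -(w : ℂ) ∉ L.lattice := fun h3 => hw (by simpa using neg_mem h3)
  constructor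
  · intro h1
    have e1 := h.equation hz
    have e2 := h.equation hw
    rw [h1] at e1
    rcases Affine.Y_eq_of_X_eq e1 e2 rfl with h2 | h2
    · left
      rw [← Phi_eq_iff h, Phi_of_notMem h hz, Phi_of_notMem h hw]
      simp only [h1, h2]
    · right
      have : z - -w ∈ L.lattice := by
        rw [← Phi_eq_iff h, Phi_of_notMem h hz, Phi_of_notMem h hnw]
        simp only [h1, h2, X_neg, Y_neg]
      simpa using this
  · rintro (h1 | h1)
    · have e : z = w + (z - w) := by ring
      rw [e, X_add_mem h1]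
    · have e : z = -w + (z + w) := by ring
      rw [e, X_add_mem h1, X_neg]

end Fermat.Agent.MazY
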