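import Fermat.Agent.MazY.Disc

/-!
# The discriminant of an isogenous lattice
-/

set_option autoImplicit false

noncomputable section

namespace Fermat.Agent.MazY

open Filter Topology WeierstrassCurve

variable {L : PeriodPair}

local notation "℘" => PeriodPair.weierstrassP L
local notation "℘'" => PeriodPair.derivWeierstrassP L

theorem wp'_add_mem {z l : ℂ} (hl : l ∈ L.lattice) : ℘' (z + l) = ℘' z :=
  L.derivWeierstrassP_add_coe z ⟨l, hl⟩

theorem notMem_congr {z w : ℂ} (h : z - w ∈ L.lattice) (hz : z ∉ L.lattice) : w ∉ L.lattice := by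
  intro hw
  apply hz
  have := add_mem h hw
  rwa [sub_add_cancel] at this

theorem tendsto_half {s : ℂ} (hs : s ∉ L.lattice) (hs2 : s + s ∈ L.lattice) :
    Tendsto (fun z => ℘' (z + s) / z) (𝓝[≠] 0) (𝓝 (dd L s)) := by
  have h1 := hasDerivAt_wp' L hs
  rw [hasDerivAt_iff_tendsto_slope, ← tendsto_shift] at h1
  refine h1.congr fun z => ?_
  rw [slope_def_field, (half_iff hs).2 hs2, sub_zero, add_sub_cancel_left, add_comm]

/-- the product over the half periods -/
def Mh (L : PeriodPair) (s t z : ℂ) : ℂ := PeriodPair.derivWeierstrassP L z *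
  PeriodPair.derivWeierstrassP L (z + s) * PeriodPair.derivWeierstrassP L (z + t) *
  PeriodPair.derivWeierstrassP L (z + (s + t))

theorem meromorphic_shift {f : ℂ → ℂ} (hf : Meromorphic f) (c : ℂ) : Meromorphic fun z => f (z + c) :=
  fun z => (hf (z + c)).comp_analyticAt (g := fun z => z + c) (by fun_prop)

theorem meromorphic_Mh (s t : ℂ) : Meromorphic (Mh L s t) := fun z =>
  (((L.meromorphic_derivWeierstrassP z).mul
    (meromorphic_shift L.meromorphic_derivWeierstrassP s z)).mul
    (meromorphic_shift L.meromorphic_derivWeierstrassP t z)).mul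
    (meromorphic_shift L.meromorphic_derivWeierstrassP (s + t) z)

section Half

variable {s t : ℂ} (hs : s ∉ L.lattice) (ht : t ∉ L.lattice) (hst : s + t ∉ L.lattice)
    (hs2 : s + s ∈ L.lattice) (ht2 : t + t ∈ L.lattice)

include hs ht hst hs2 ht2

theorem tendsto_Mh : Tendsto (Mh L s t) (𝓝[≠] 0) (𝓝 (Dl L)) := by
  have hst2 : (s + t) + (s + t) ∈ L.lattice := by
    have := add_mem hs2 ht2
    have e : (s + t) + (s + t) = (s + s) + (t + t) := by ring
    rwa [e]
  have h1 := (((tendsto_cube_mul_wp' L).mul (tendsto_half hs hs2)).mul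
    (tendsto_half ht ht2)).mul (tendsto_half hst hst2)
  have e : -2 * dd L s * dd L t * dd L (s + t) = Dl L := by
    have := prod_dd hs ht hst hs2 ht2
    linear_combination (-2 : ℂ) * this
  rw [e] at h1
  refine h1.congr' ?_
  filter_upwards [self_mem_nhdsWithin] with z hz
  have hz' : z ≠ 0 := hz
  rw [Mh]
  field_simp

theorem Mh_eq (hcov : ∀ z, z + z ∈ L.lattice → z ∈ L.lattice ∨ z + s ∈ L.lattice ∨
    z + t ∈ L.lattice ∨ z + (s + t) ∈ L.lattice) {z : ℂ} (hz : z + z ∉ L.lattice) :
    Mh L s t z = Dl L := by
  have hst2 : (s + t) + (s + t) ∈ L.lattice := by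
    have := add_mem hs2 ht2
    have e : (s + t) + (s + t) = (s + s) + (t + t) := by ring
    rwa [e]
  have hanal : ∀ z, z + z ∉ L.lattice → AnalyticAt ℂ (Mh L s t) z := by
    intro z hz
    have n0 : z ∉ L.lattice := fun h => hz (add_mem h h)
    have n1 : z + s ∉ L.lattice := fun h => hz (by
      have := sub_mem (add_mem h h) hs2
      have e : z + s + (z + s) - (s + s) = z + z := by ring
      rwa [e] at this)
    have n2 : z + t ∉ L.lattice := fun h => hz (by
      have := sub_mem (add_mem h h) ht2
      have e : z + t + (z + t) - (t + t) = z + z := by ring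
      rwa [e] at this)
    have n3 : z + (s + t) ∉ L.lattice := fun h => hz (by
      have := sub_mem (add_mem h h) hst2
      have e : z + (s + t) + (z + (s + t)) - (s + t + (s + t)) = z + z := by ring
      rwa [e] at this)
    exact (((analyticAt_wp' n0).mul ((analyticAt_wp' n1).comp (f := fun z => z + s)
      (by fun_prop))).mul ((analyticAt_wp' n2).comp (f := fun z => z + t)
      (by fun_prop))).mul ((analyticAt_wp' n3).comp (f := fun z => z + (s + t)) (by fun_prop))
  have hperL : ∀ l ∈ L.lattice, ∀ z, Mh L s t (z + l) = Mh L s t z := by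
    intro l hl z
    have e1 : z + l + s = z + s + l := by ring
    have e2 : z + l + t = z + t + l := by ring
    have e3 : z + l + (s + t) = z + (s + t) + l := by ring
    rw [Mh, Mh, e1, e2, e3, wp'_add_mem hl, wp'_add_mem hl, wp'_add_mem hl, wp'_add_mem hl]
  have hpers : ∀ z, Mh L s t (z + s) = Mh L s t z := by
    intro z
    have e1 : z + s + s = z + (s + s) := by ring
    have e2 : z + s + t = z + (s + t) := by ring
    have e3 : z + s + (s + t) = z + t + (s + s) := by ring
    rw [Mh, Mh, e1, e2, e3, wp'_add_mem hs2, wp'_add_mem hs2]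
    ring
  have hpert : ∀ z, Mh L s t (z + t) = Mh L s t z := by
    intro z
    have e1 : z + t + t = z + (t + t) := by ring
    have e2 : z + t + s = z + (s + t) := by ring
    have e3 : z + t + (s + t) = z + s + (t + t) := by ring
    rw [Mh, Mh, e1, e2, e3, wp'_add_mem ht2, wp'_add_mem ht2]
    ring
  have hord0 : 0 ≤ meromorphicOrderAt (Mh L s t) 0 := by
    rw [← tendsto_nhds_iff_meromorphicOrderAt_nonneg (meromorphic_Mh s t 0)]
    exact ⟨_, tendsto_Mh hs ht hst hs2 ht2⟩
  have hshift : ∀ (c z : ℂ), (∀ z, Mh L s t (z + c) = Mh L s t z) → meromorphicOrderAt (Mh L s t) (z + c) =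
      meromorphicOrderAt (Mh L s t) z := by
    intro c z hc
    rw [← meromorphicOrderAt_comp_add_const_eq_meromorphicOrderAt]
    congr 1
    funext w
    exact hc w
  have hord : ∀ z, 0 ≤ meromorphicOrderAt (Mh L s t) z := by
    intro z
    by_cases hz : z + z ∈ L.lattice
    · have key : ∀ c, (∀ w, Mh L s t (w + c) = Mh L s t w) → z + c ∈ L.lattice →
          0 ≤ meromorphicOrderAt (Mh L s t) z := by
        intro c hc h1
        rw [← hshift c z hc]
        have := hshift (z + c) 0 (hperL _ h1)
        rw [zero_add] at this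
        rw [this]
        exact hord0
      rcases hcov z hz with h1 | h1 | h1 | h1
      · exact key 0 (fun w => by rw [add_zero]) (by rwa [add_zero])
      · exact key s hpers h1
      · exact key t hpert h1
      · exact key (s + t) (fun w => by rw [← add_assoc, hpert, hpers]) h1
    · exact (hanal z hz).meromorphicOrderAt_nonneg
  obtain ⟨c, hc, hc2⟩ := liouville_const L (meromorphic_Mh s t) hperL hord
  rw [hc2 z (hanal z hz).continuousAt]
  exact tendsto_nhds_unique tendsto_const_nhds
    ((tendsto_Mh hs ht hst hs2 ht2).congr' (hc 0))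

end Half

end Fermat.Agent.MazY
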