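import Fermat.Agent.MazY.Isog

/-!
# The discriminant of an isogenous lattice (2)
-/

set_option autoImplicit false

noncomputable section

namespace Fermat.Agent.MazY

open Filter Topology WeierstrassCurve

local notation "wp'" => PeriodPair.derivWeierstrassP

/-- a cyclic overlattice of odd index `n + 1` -/
structure Isg (L L' : PeriodPair) (δ : ℂ) (n : ℕ) : Prop where
  le : L.lattice ≤ L'.lattice
  dmem : δ ∈ L'.lattice
  Nd : ((n + 1 : ℕ) : ℂ) * δ ∈ L.lattice
  cov : ∀ z ∈ L'.lattice, ∃ k : ℤ, z + k * δ ∈ L.lattice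
  ind : ∀ k : ℤ, k * δ ∈ L.lattice → ((n + 1 : ℕ) : ℤ) ∣ k
  even : Even n

variable {L L' : PeriodPair} {δ : ℂ} {n : ℕ}

/-- the product over the kernel -/
def Fk (L : PeriodPair) (δ : ℂ) (n : ℕ) (z : ℂ) : ℂ :=
  ∏ a ∈ Finset.range (n + 1), wp' L (z + a * δ)

/-- the product over the nonzero elements of the kernel -/
def Gk (L : PeriodPair) (δ : ℂ) (n : ℕ) (z : ℂ) : ℂ :=
  ∏ a ∈ Finset.range n, wp' L (z + (a + 1 : ℕ) * δ)

theorem Fk_eq (z : ℂ) : Fk L δ n z = wp' L z * Gk L δ n z := by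
  rw [Fk, Finset.prod_range_succ', Gk, Nat.cast_zero, zero_mul, add_zero, mul_comm]

theorem meromorphic_Fk : Meromorphic (Fk L δ n) := fun z =>
  MeromorphicAt.fun_prod (fun a _ => meromorphic_shift L.meromorphic_derivWeierstrassP (a * δ) z)

namespace Isg

variable (h : Isg L L' δ n)

include h

theorem Fk_periodic {l : ℂ} (hl : l ∈ L'.lattice) (z : ℂ) : Fk L δ n (z + l) = Fk L δ n z := by
  let S : AddSubgroup ℂ :=
    { carrier := {c | ∀ z, Fk L δ n (z + c) = Fk L δ n z}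
      add_mem' := by
        intro a b ha hb z
        rw [← add_assoc, hb, ha]
      zero_mem' := by intro z; rw [add_zero]
      neg_mem' := by
        intro a ha z
        rw [← ha (z + -a), neg_add_cancel_right] }
  have hL : ∀ c ∈ L.lattice, c ∈ S := by
    intro c hc z
    refine Finset.prod_congr rfl fun a _ => ?_
    have e : z + c + a * δ = z + a * δ + c := by ring
    rw [e, wp'_add_mem hc]
  have hδ : δ ∈ S := by
    intro z
    rw [Fk, Fk, Finset.prod_range_succ, Finset.prod_range_succ' (n := n)]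
    congr 1
    · refine Finset.prod_congr rfl fun a _ => ?_
      congr 1
      push_cast; ring
    · have e : z + δ + n * δ = z + ((0 : ℕ) : ℂ) * δ + ((n + 1 : ℕ) : ℂ) * δ := by
        push_cast; ring
      rw [e, wp'_add_mem h.Nd]
  obtain ⟨k, hk⟩ := h.cov l hl
  have e : l = (l + k * δ) - k • δ := by rw [zsmul_eq_mul]; ring
  have : l ∈ S := by
    rw [e]
    exact S.sub_mem (hL _ hk) (S.zsmul_mem hδ k)
  exact this z

theorem add_notMem {z : ℂ} (hz : z ∉ L'.lattice) (a : ℕ) : z + a * δ ∉ L.lattice := by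
  intro h1
  apply hz
  have h2 : (a : ℂ) * δ ∈ L'.lattice := by
    have := L'.lattice.smul_mem (a : ℤ) h.dmem
    simpa using this
  have h3 := sub_mem (h.le h1) h2
  rwa [add_sub_cancel_right] at h3

theorem analyticAt_Fk {z : ℂ} (hz : z ∉ L'.lattice) : AnalyticAt ℂ (Fk L δ n) z := by
  refine Finset.analyticAt_fun_prod _ fun a _ => ?_
  exact (analyticAt_wp' (h.add_notMem hz a)).comp (f := fun z => z + a * δ) (by fun_prop)

theorem nat_mul_notMem {a : ℕ} (ha : a < n) : ((a + 1 : ℕ) : ℂ) * δ ∉ L.lattice := by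
  intro h1
  have h2 := h.ind ((a + 1 : ℕ) : ℤ) (by exact_mod_cast h1)
  have h3 := Int.le_of_dvd (by positivity) h2
  have : (n + 1 : ℕ) ≤ a + 1 := by exact_mod_cast h3
  omega

theorem half_notMem {s : ℂ} (hs : s ∉ L.lattice) (hs2 : s + s ∈ L.lattice) : s ∉ L'.lattice := by
  intro h1
  obtain ⟨k, hk⟩ := h.cov s h1
  have h2 : ((2 * k : ℤ) : ℂ) * δ ∈ L.lattice := by
    have := sub_mem (add_mem hk hk) hs2
    have e : s + k * δ + (s + k * δ) - (s + s) = ((2 * k : ℤ) : ℂ) * δ := by push_cast; ring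
    rwa [e] at this
  have h3 := h.ind _ h2
  have h4 : ((n + 1 : ℕ) : ℤ) ∣ k := by
    refine IsCoprime.dvd_of_dvd_mul_left ?_ h3
    have : Nat.Coprime (n + 1) 2 := by
      rw [Nat.coprime_two_right]
      exact h.even.add_one
    exact_mod_cast Nat.isCoprime_iff_coprime.mpr this
  obtain ⟨m, rfl⟩ := h4
  apply hs
  have h5 : ((m : ℤ) : ℂ) * (((n + 1 : ℕ) : ℂ) * δ) ∈ L.lattice := by
    have := L.lattice.smul_mem m h.Nd
    simpa using this
  have := sub_mem hk h5
  have e : s + (((n + 1 : ℕ) : ℤ) * m : ℤ) * δ - ((m : ℤ) : ℂ) * (((n + 1 : ℕ) : ℂ) * δ) = s := by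
    push_cast; ring
  rwa [e] at this

theorem add_half_notMem {s : ℂ} (hs : s ∉ L.lattice) (hs2 : s + s ∈ L.lattice) (a : ℕ) :
    s + a * δ ∉ L.lattice := h.add_notMem (h.half_notMem hs hs2) a

theorem Fk_eq_zero {z : ℂ} (hz : z ∉ L'.lattice) (hz2 : z + z ∈ L'.lattice) : Fk L δ n z = 0 := by
  obtain ⟨k, hk⟩ := h.cov _ hz2
  obtain ⟨c, hc⟩ := h.even
  -- `2 (c+1) = n + 2 ≡ 1`
  set a : ℤ := (k * (c + 1)) % ((n + 1 : ℕ) : ℤ) with ha
  have hpos : (0 : ℤ) < ((n + 1 : ℕ) : ℤ) := by positivity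
  have ha0 : 0 ≤ a := Int.emod_nonneg _ hpos.ne'
  have ha1 : a < ((n + 1 : ℕ) : ℤ) := Int.emod_lt_of_pos _ hpos
  have ha2 : ((n + 1 : ℕ) : ℤ) ∣ 2 * a - k := by
    have h1 : ((n + 1 : ℕ) : ℤ) ∣ k * (c + 1) - a := by
      rw [ha]; exact Int.dvd_self_sub_emod
    have h2 : 2 * a - k = k * ((n + 1 : ℕ) : ℤ) - 2 * (k * (c + 1) - a) := by
      rw [hc]; push_cast; ring
    rw [h2]
    exact dvd_sub (dvd_mul_left _ _) (h1.mul_left _)
  obtain ⟨m, hm⟩ := ha2
  obtain ⟨b, hb⟩ := Int.eq_ofNat_of_zero_le ha0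
  have hb1 : b ∈ Finset.range (n + 1) := by
    rw [Finset.mem_range]
    rw [hb] at ha1
    exact_mod_cast ha1
  refine Finset.prod_eq_zero hb1 ?_
  rw [half_iff (h.add_notMem hz b)]
  have h5 : ((m : ℤ) : ℂ) * (((n + 1 : ℕ) : ℂ) * δ) ∈ L.lattice := by
    have := L.lattice.smul_mem m h.Nd
    simpa using this
  have h6 := add_mem hk h5
  have e : z + z + k * δ + ((m : ℤ) : ℂ) * (((n + 1 : ℕ) : ℂ) * δ) = z + b * δ + (z + b * δ) := by
    have h7 : (2 * (b : ℤ) - k : ℤ) = ((n + 1 : ℕ) : ℤ) * m := by rw [← hm, hb]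
    have h8 : (2 * (b : ℂ) - k) = ((n + 1 : ℕ) : ℂ) * m := by exact_mod_cast h7
    linear_combination (-δ) * h8
  rwa [e] at h6

theorem tendsto_Gk : Tendsto (Gk L δ n) (𝓝[≠] 0) (𝓝 (Gk L δ n 0)) := by
  have h1 : AnalyticAt ℂ (Gk L δ n) 0 := by
    refine Finset.analyticAt_fun_prod _ fun a ha => ?_
    have h2 := h.nat_mul_notMem (Finset.mem_range.mp ha)
    exact (analyticAt_wp' (z := 0 + ((a + 1 : ℕ) : ℂ) * δ) (by rwa [zero_add])).comp
      (f := fun z => z + ((a + 1 : ℕ) : ℂ) * δ) (by fun_prop)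
  exact h1.continuousAt.tendsto.mono_left nhdsWithin_le_nhds

theorem tendsto_Q : Tendsto (fun z => Fk L δ n z / wp' L' z) (𝓝[≠] 0) (𝓝 (Gk L δ n 0)) := by
  have h1 := ((tendsto_cube_mul_wp' L).mul h.tendsto_Gk).div (tendsto_cube_mul_wp' L')
    (by norm_num)
  have e : -2 * Gk L δ n 0 / -2 = Gk L δ n 0 := by ring
  rw [e] at h1
  refine h1.congr' ?_
  filter_upwards [self_mem_nhdsWithin] with z hz
  have hz' : z ≠ 0 := hz
  rw [Pi.div_apply, Fk_eq, mul_assoc, mul_div_mul_left _ _ (pow_ne_zero 3 hz')]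

theorem meromorphic_Q : Meromorphic fun z => Fk L δ n z / wp' L' z := fun z =>
  (meromorphic_Fk z).div (L'.meromorphic_derivWeierstrassP z)

/-- **the product formula** -/
theorem Fk_eq_mul {z : ℂ} (hz : z ∉ L'.lattice) : Fk L δ n z = Gk L δ n 0 * wp' L' z := by
  by_cases hz0 : wp' L' z = 0
  · rw [hz0, mul_zero]
    exact h.Fk_eq_zero hz ((half_iff hz).1 hz0)
  have hper : ∀ l ∈ L'.lattice, ∀ z, Fk L δ n (z + l) / wp' L' (z + l) =
      Fk L δ n z / wp' L' z := by
    intro l hl z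
    rw [h.Fk_periodic hl, wp'_add_mem hl]
  have hord : ∀ z, 0 ≤ meromorphicOrderAt (fun z => Fk L δ n z / wp' L' z) z := by
    intro z
    by_cases hz : z ∈ L'.lattice
    · have e1 : meromorphicOrderAt (fun z => Fk L δ n z / wp' L' z) (0 + z) =
          meromorphicOrderAt (fun z => Fk L δ n z / wp' L' z) 0 := by
        rw [← meromorphicOrderAt_comp_add_const_eq_meromorphicOrderAt]
        congr 1
        funext w
        exact hper z hz w
      rw [zero_add] at e1
      rw [e1, ← tendsto_nhds_iff_meromorphicOrderAt_nonneg (h.meromorphic_Q 0)]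
      exact ⟨_, h.tendsto_Q⟩
    · by_cases hz2 : z + z ∈ L'.lattice
      · rw [← tendsto_nhds_iff_meromorphicOrderAt_nonneg (h.meromorphic_Q z)]
        have h0 : wp' L' z = 0 := (half_iff hz).2 hz2
        have h1 := hasDerivAt_wp' L' hz
        rw [hasDerivAt_iff_tendsto_slope] at h1
        have h2 := (h.analyticAt_Fk hz).differentiableAt.hasDerivAt
        rw [hasDerivAt_iff_tendsto_slope] at h2
        refine ⟨_, (h2.div h1 (dd_ne_zero hz hz2)).congr' ?_⟩
        filter_upwards [self_mem_nhdsWithin] with w hw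
        have hwz : w - z ≠ 0 := sub_ne_zero.mpr hw
        rw [Pi.div_apply, slope_def_field, slope_def_field, h.Fk_eq_zero hz hz2, h0, sub_zero,
          sub_zero, div_div_div_cancel_right₀ hwz]
      · have h0 : wp' L' z ≠ 0 := fun h0 => hz2 ((half_iff hz).1 h0)
        exact ((h.analyticAt_Fk hz).div (analyticAt_wp' hz) h0).meromorphicOrderAt_nonneg
  obtain ⟨c, hc, hc2⟩ := liouville_const L' h.meromorphic_Q hper hord
  have h3 := hc2 z ((h.analyticAt_Fk hz).div (analyticAt_wp' hz) hz0).continuousAt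
  have h4 : c = Gk L δ n 0 := tendsto_nhds_unique tendsto_const_nhds (h.tendsto_Q.congr' (hc 0))
  rw [div_eq_iff hz0] at h3
  rw [h3, h4]

/-- the derivative at a half period -/
theorem dd_mul {s : ℂ} (hs : s ∉ L.lattice) (hs2 : s + s ∈ L.lattice) :
    dd L s * Gk L δ n s = Gk L δ n 0 * dd L' s := by
  have hs' := h.half_notMem hs hs2
  have h1 : AnalyticAt ℂ (Gk L δ n) s := by
    refine Finset.analyticAt_fun_prod _ fun a ha => ?_
    exact (analyticAt_wp' (h.add_notMem hs' (a + 1))).comp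
      (f := fun z => z + ((a + 1 : ℕ) : ℂ) * δ) (by fun_prop)
  have d1 : HasDerivAt (Fk L δ n) (dd L s * Gk L δ n s + wp' L s * deriv (Gk L δ n) s) s := by
    have := (hasDerivAt_wp' L hs).fun_mul h1.differentiableAt.hasDerivAt
    refine this.congr_of_eventuallyEq ?_
    exact Eventually.of_forall fun z => Fk_eq z
  have d2 : HasDerivAt (Fk L δ n) (Gk L δ n 0 * dd L' s) s := by
    have := (hasDerivAt_wp' L' hs').const_mul (Gk L δ n 0)
    refine this.congr_of_eventuallyEq ?_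
    filter_upwards [L'.isClosed_lattice.isOpen_compl.mem_nhds hs'] with z hz
    exact h.Fk_eq_mul hz
  have h3 := d1.unique d2
  rw [(half_iff hs).2 hs2, zero_mul, add_zero] at h3
  exact h3

/-- **the discriminant of the isogenous lattice** -/
theorem disc_eq {s t : ℂ} (hs : s ∉ L.lattice) (ht : t ∉ L.lattice) (hst : s + t ∉ L.lattice)
    (hs2 : s + s ∈ L.lattice) (ht2 : t + t ∈ L.lattice)
    (hcov : ∀ z, z + z ∈ L.lattice → z ∈ L.lattice ∨ z + s ∈ L.lattice ∨
    z + t ∈ L.lattice ∨ z + (s + t) ∈ L.lattice) :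
    Dl L ^ (n + 1) = (Gk L δ n 0) ^ 4 * Dl L' := by
  have hst2 : (s + t) + (s + t) ∈ L.lattice := by
    have := add_mem hs2 ht2
    have e : (s + t) + (s + t) = (s + s) + (t + t) := by ring
    rwa [e]
  have p1 := prod_dd hs ht hst hs2 ht2
  have p2 := prod_dd (h.half_notMem hs hs2) (h.half_notMem ht ht2) (h.half_notMem hst hst2)
    (h.le hs2) (h.le ht2)
  have q1 := h.dd_mul hs hs2
  have q2 := h.dd_mul ht ht2
  have q3 := h.dd_mul hst hst2
  have hM : Gk L δ n 0 * Gk L δ n s * Gk L δ n t * Gk L δ n (s + t) = Dl L ^ n := by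
    rw [Gk, Gk, Gk, Gk, ← Finset.prod_mul_distrib, ← Finset.prod_mul_distrib,
      ← Finset.prod_mul_distrib]
    rw [Finset.prod_congr rfl (g := fun _ => Dl L), Finset.prod_const, Finset.card_range]
    intro a ha
    have h5 : ((a + 1 : ℕ) : ℂ) * δ + ((a + 1 : ℕ) : ℂ) * δ ∉ L.lattice := by
      intro h6
      have h7 : ((2 * (a + 1 : ℕ) : ℤ) : ℂ) * δ ∈ L.lattice := by
        have e : ((2 * (a + 1 : ℕ) : ℤ) : ℂ) * δ =
          ((a + 1 : ℕ) : ℂ) * δ + ((a + 1 : ℕ) : ℂ) * δ := by push_cast; ring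
        rwa [e]
      have h8 := h.ind _ h7
      have h9 : ((n + 1 : ℕ) : ℤ) ∣ ((a + 1 : ℕ) : ℤ) := by
        refine IsCoprime.dvd_of_dvd_mul_left ?_ h8
        have : Nat.Coprime (n + 1) 2 := by
          rw [Nat.coprime_two_right]
          exact h.even.add_one
        exact_mod_cast Nat.isCoprime_iff_coprime.mpr this
      have h10 := Int.le_of_dvd (by positivity) h9
      have h11 : (n + 1 : ℕ) ≤ a + 1 := by exact_mod_cast h10
      have := Finset.mem_range.mp ha
      omega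
    rw [← Mh_eq hs ht hst hs2 ht2 hcov h5, Mh]
    rw [zero_add, add_comm s, add_comm t, add_comm (s + t)]
  have e1 : (dd L s * Gk L δ n s) * (dd L t * Gk L δ n t) * (dd L (s + t) * Gk L δ n (s + t)) *
      Gk L δ n 0 = Gk L δ n 0 ^ 4 * (dd L' s * dd L' t * dd L' (s + t)) := by
    rw [q1, q2, q3]; ring
  rw [p2] at e1
  have e2 : (dd L s * Gk L δ n s) * (dd L t * Gk L δ n t) * (dd L (s + t) * Gk L δ n (s + t)) *
      Gk L δ n 0 = (dd L s * dd L t * dd L (s + t)) *
      (Gk L δ n 0 * Gk L δ n s * Gk L δ n t * Gk L δ n (s + t)) := by ring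
  rw [e2, p1, hM] at e1
  rw [pow_succ]
  linear_combination (-2 : ℂ) * e1

end Isg

end Fermat.Agent.MazY
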