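import Fermat.Agent.MazY.Modu3
import Fermat.Agent.Maz.FreyS12

/-!
# The product of `ψ₂` over a subgroup
-/

set_option autoImplicit false
set_option linter.unusedSectionVars false

noncomputable section

namespace Fermat.Agent.MazY

open Fermat.Agent.ECRed Fermat.Agent.ECRed.KummerLine Fermat.Agent.ECRed.Frey OrdFn
open WeierstrassCurve WeierstrassCurve.Affine Fermat.Agent.Maz.FreyS
open scoped Pointwise

local notation "Qbar" => AlgebraicClosure ℚ
local notation "GQ" => Qbar ≃ₐ[ℚ] Qbar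

local instance instAlgQbar : Algebra.IsAlgebraic ℚ Qbar := AlgebraicClosure.isAlgebraic ℚ

variable (W : WeierstrassCurve ℤ)

/-- the product of `ψ₂` over `C` -/
def Kc (C : AddSubgroup ((W.map (Int.castRingHom ℚ))⁄Qbar).Point) [Fintype C] : Qbar :=
  ∏ R : C, psiP ((W.map (Int.castRingHom ℚ))⁄Qbar) R

variable {W}

theorem psiP_smul (σ : GQ) (R : ((W.map (Int.castRingHom ℚ))⁄Qbar).Point) :
    psiP ((W.map (Int.castRingHom ℚ))⁄Qbar) (σ • R) =
      σ (psiP ((W.map (Int.castRingHom ℚ))⁄Qbar) R) := by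
  rcases R with _ | ⟨x, y, h⟩
  · have h1 : σ • (Point.zero : ((W.map (Int.castRingHom ℚ))⁄Qbar).Point) = Point.zero := rfl
    rw [h1]
    change (1 : Qbar) = σ 1
    rw [map_one]
  · obtain ⟨h', h1⟩ : ∃ h', σ • (Point.some x y h : ((W.map (Int.castRingHom ℚ))⁄Qbar).Point) =
      Point.some (σ x) (σ y) h' := ⟨_, rfl⟩
    rw [h1, psiP_some, psiP_some]
    have ha1 : ((W.map (Int.castRingHom ℚ))⁄Qbar).a₁ = ((W.a₁ : ℤ) : Qbar) := coe_map_b _
    have ha3 : ((W.map (Int.castRingHom ℚ))⁄Qbar).a₃ = ((W.a₃ : ℤ) : Qbar) := coe_map_b _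
    rw [ha1, ha3]
    simp only [map_add, map_mul, map_ofNat, map_intCast]

theorem Kc_gal (C : AddSubgroup ((W.map (Int.castRingHom ℚ))⁄Qbar).Point) [Fintype C]
    (hst : ∀ σ : GQ, ∀ Q ∈ C, σ • Q ∈ C) (σ : GQ) : σ (Kc W C) = Kc W C := by
  classical
  rw [Kc, map_prod]
  have hinj : Function.Injective (fun R : C => (⟨σ • (R : ((W.map (Int.castRingHom ℚ))⁄Qbar).Point),
      hst σ R R.2⟩ : C)) := by
    intro R R' h
    have h1 : σ • (R : ((W.map (Int.castRingHom ℚ))⁄Qbar).Point) =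
      σ • (R' : ((W.map (Int.castRingHom ℚ))⁄Qbar).Point) := congrArg Subtype.val h
    exact Subtype.ext (MulAction.injective σ h1)
  have hbij := Finite.injective_iff_bijective.mp hinj
  refine Fintype.prod_bijective _ hbij _ _ fun R => ?_
  exact (psiP_smul σ (R : ((W.map (Int.castRingHom ℚ))⁄Qbar).Point)).symm

section Val

variable {ℓ p : ℕ} (hℓ : ℓ.Prime) {A : ValuationSubring Qbar} (hA : A.LiesOverPrime ℓ)
  (hp : p.Prime) (hℓp : ℓ ≠ p)

include hℓ hA hp hℓp in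
theorem N_mem [DecidableEq Qbar] {R : ((W.map (Int.castRingHom ℚ))⁄Qbar).Point} (hR : R ≠ 0)
    (hpR : p • R = 0) : (KummerLine.ofCurve ((W.map (Int.castRingHom ℚ))⁄Qbar)).N R ∈ A := by
  set κ := KummerLine.ofCurve ((W.map (Int.castRingHom ℚ))⁄Qbar) with hκ
  have hI : κ.Integral (ordFnAt A hℓ hA) := by
    refine ⟨?_, ?_, ?_, ?_⟩
    · have hb : κ.b₂ = ((W.b₂ : ℤ) : Qbar) := by
        show ((W.map (Int.castRingHom ℚ)).map (algebraMap ℚ Qbar)).b₂ = _
        rw [map_b₂, map_b₂]; exact coe_map_b _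
      rw [hb]; exact ge_intCast _
    · have hb : κ.b₄ = ((W.b₄ : ℤ) : Qbar) := by
        show ((W.map (Int.castRingHom ℚ)).map (algebraMap ℚ Qbar)).b₄ = _
        rw [map_b₄, map_b₄]; exact coe_map_b _
      rw [hb]; exact ge_intCast _
    · have hb : κ.b₆ = ((W.b₆ : ℤ) : Qbar) := by
        show ((W.map (Int.castRingHom ℚ)).map (algebraMap ℚ Qbar)).b₆ = _
        rw [map_b₆, map_b₆]; exact coe_map_b _
      rw [hb]; exact ge_intCast _
    · have hb : κ.b₈ = ((W.b₈ : ℤ) : Qbar) := by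
        show ((W.map (Int.castRingHom ℚ)).map (algebraMap ℚ Qbar)).b₈ = _
        rw [map_b₈, map_b₈]; exact coe_map_b _
      rw [hb]; exact ge_intCast _
  have hn : (ordFnAt A hℓ hA).Eq 0 ((p : ℕ) : Qbar) := by
    have := eq_zero_of_not_dvd (A := A) hℓ hA (n := (p : ℤ)) (by
      intro h
      have h1 : ℓ ∣ p := by exact_mod_cast h
      exact hℓp ((Nat.prime_dvd_prime_iff_eq hℓ hp).mp h1))
    simpa using this
  exact (ordFnAt_ge A hℓ hA _).mp (KummerLine.integral_of_torsion hI hn hR hpR)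

theorem psiP_sq [DecidableEq Qbar] {R : ((W.map (Int.castRingHom ℚ))⁄Qbar).Point} (hR : R ≠ 0) :
    psiP ((W.map (Int.castRingHom ℚ))⁄Qbar) R ^ 2 =
      (KummerLine.ofCurve ((W.map (Int.castRingHom ℚ))⁄Qbar)).psi
        ((KummerLine.ofCurve ((W.map (Int.castRingHom ℚ))⁄Qbar)).N R) := by
  rcases R with _ | ⟨x, y, h⟩
  · exact absurd rfl hR
  · rw [psiP_some]
    have h1 := ECRed.psi_eq h.1
    rw [negY] at h1
    have h2 : (KummerLine.ofCurve ((W.map (Int.castRingHom ℚ))⁄Qbar)).N (Point.some x y h) = x := rfl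
    rw [h2]
    change _ = 4 * x ^ 3 + ((W.map (Int.castRingHom ℚ))⁄Qbar).b₂ * x ^ 2 +
      2 * ((W.map (Int.castRingHom ℚ))⁄Qbar).b₄ * x + ((W.map (Int.castRingHom ℚ))⁄Qbar).b₆
    rw [← h1]
    ring

theorem psi_mem [DecidableEq Qbar] {x : Qbar} (hx : x ∈ A) :
    (KummerLine.ofCurve ((W.map (Int.castRingHom ℚ))⁄Qbar)).psi x ∈ A := by
  have hb2 : ((W.map (Int.castRingHom ℚ))⁄Qbar).b₂ = ((W.b₂ : ℤ) : Qbar) := by
    show ((W.map (Int.castRingHom ℚ)).map (algebraMap ℚ Qbar)).b₂ = _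
    rw [map_b₂, map_b₂]; exact coe_map_b _
  have hb4 : ((W.map (Int.castRingHom ℚ))⁄Qbar).b₄ = ((W.b₄ : ℤ) : Qbar) := by
    show ((W.map (Int.castRingHom ℚ)).map (algebraMap ℚ Qbar)).b₄ = _
    rw [map_b₄, map_b₄]; exact coe_map_b _
  have hb6 : ((W.map (Int.castRingHom ℚ))⁄Qbar).b₆ = ((W.b₆ : ℤ) : Qbar) := by
    show ((W.map (Int.castRingHom ℚ)).map (algebraMap ℚ Qbar)).b₆ = _
    rw [map_b₆, map_b₆]; exact coe_map_b _
  change 4 * x ^ 3 + ((W.map (Int.castRingHom ℚ))⁄Qbar).b₂ * x ^ 2 +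
      2 * ((W.map (Int.castRingHom ℚ))⁄Qbar).b₄ * x + ((W.map (Int.castRingHom ℚ))⁄Qbar).b₆ ∈ A
  rw [hb2, hb4, hb6]
  have hI : ∀ n : ℤ, (n : Qbar) ∈ A := fun n => intCast_mem A n
  have h4 : (4 : Qbar) ∈ A := by have := hI 4; exact_mod_cast this
  have h2 : (2 : Qbar) ∈ A := by have := hI 2; exact_mod_cast this
  exact add_mem (add_mem (add_mem (mul_mem h4 (pow_mem hx 3)) (mul_mem (hI _) (pow_mem hx 2)))
    (mul_mem (mul_mem h2 (hI _)) hx)) (hI _)

include hℓ hA hp hℓp in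
/-- the valuation of `ψ₂` at a point of order `p` -/
theorem psi_cases (h2p : p ≠ 2) {R : ((W.map (Int.castRingHom ℚ))⁄Qbar).Point} (hR : R ≠ 0)
    (hpR : p • R = 0) : psiP ((W.map (Int.castRingHom ℚ))⁄Qbar) R ^ 2 ∈ A ∧
      (W.InZeroComponentAt A R ↔ psiP ((W.map (Int.castRingHom ℚ))⁄Qbar) R ^ 2 ∉ A.nonunits) := by
  classical
  set κ := KummerLine.ofCurve ((W.map (Int.castRingHom ℚ))⁄Qbar) with hκ
  have hN := N_mem (W := W) hℓ hA hp hℓp hR hpR
  have hsq := psiP_sq (W := W) hR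
  refine ⟨by rw [hsq]; exact psi_mem hN, ?_⟩
  rw [inZero_iff, hsq]
  have h2R : R + R ≠ 0 := by
    intro h
    rw [← two_nsmul] at h
    have h1 := addOrderOf_dvd_of_nsmul_eq_zero h
    have h3 := addOrderOf_dvd_of_nsmul_eq_zero hpR
    have h4 : addOrderOf R ∣ Nat.gcd 2 p := Nat.dvd_gcd h1 h3
    have h5 : Nat.Coprime 2 p := (Nat.coprime_primes Nat.prime_two hp).mpr h2p.symm
    rw [h5] at h4
    exact hR (AddMonoid.addOrderOf_eq_one_iff.mp (Nat.dvd_one.mp h4))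
  have hN2 := N_mem (W := W) hℓ hA hp hℓp h2R (by rw [nsmul_add, hpR, add_zero])
  obtain ⟨h0, hdup⟩ := KummerLine.dup κ hR h2R
  constructor
  · rintro (h | h | h) hn
    · exact hR h
    · exact h hN
    · apply h
      refine ⟨hn, ?_⟩
      rw [← hdup]
      rw [ValuationSubring.mem_nonunits_iff] at hn ⊢
      rw [map_mul]
      exact mul_lt_one_of_lt_of_le hn ((ValuationSubring.valuation_le_one_iff _ _).mpr hN2)
  · intro hn
    exact Or.inr (Or.inr fun h => hn h.1)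

variable {C : AddSubgroup ((W.map (Int.castRingHom ℚ))⁄Qbar).Point} [Fintype C]

theorem val_Kc : A.valuation (Kc W C ^ 2) =
    ∏ R : C, A.valuation (psiP ((W.map (Int.castRingHom ℚ))⁄Qbar) R ^ 2) := by
  rw [Kc, ← Finset.prod_pow, map_prod]

include hℓ hA hp hℓp in
theorem val_psi_le (h2p : p ≠ 2) (hC : Fintype.card C = p) (R : C) :
    A.valuation (psiP ((W.map (Int.castRingHom ℚ))⁄Qbar) R ^ 2) ≤ 1 := by
  by_cases hR : (R : ((W.map (Int.castRingHom ℚ))⁄Qbar).Point) = 0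
  · rw [hR, psiP_zero, one_pow, map_one]
  · have hpR : p • (R : ((W.map (Int.castRingHom ℚ))⁄Qbar).Point) = 0 := by
      have : p • R = 0 := by rw [← hC]; exact card_nsmul_eq_zero
      have := congrArg (Subtype.val) this
      simpa using this
    rw [ValuationSubring.valuation_le_one_iff]
    exact (psi_cases hℓ hA hp hℓp h2p hR hpR).1

include hℓ hA hp hℓp in
theorem val_Kc_le (h2p : p ≠ 2) (hC : Fintype.card C = p) : A.valuation (Kc W C ^ 2) ≤ 1 := by
  rw [val_Kc]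
  exact Finset.prod_le_one' fun R _ => val_psi_le hℓ hA hp hℓp h2p hC R

include hℓ hA hp hℓp in
theorem val_Kc_eq (h2p : p ≠ 2) (hC : Fintype.card C = p)
    (h : ∀ Q ∈ C, W.InZeroComponentAt A Q) : A.valuation (Kc W C ^ 2) = 1 := by
  rw [val_Kc]
  refine Finset.prod_eq_one fun R _ => ?_
  by_cases hR : (R : ((W.map (Int.castRingHom ℚ))⁄Qbar).Point) = 0
  · rw [hR, psiP_zero, one_pow, map_one]
  · have hpR : p • (R : ((W.map (Int.castRingHom ℚ))⁄Qbar).Point) = 0 := by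
      have : p • R = 0 := by rw [← hC]; exact card_nsmul_eq_zero
      have := congrArg (Subtype.val) this
      simpa using this
    have h1 := ((psi_cases hℓ hA hp hℓp h2p hR hpR).2).mp (h R R.2)
    rw [ValuationSubring.mem_nonunits_iff, not_lt] at h1
    exact le_antisymm (val_psi_le hℓ hA hp hℓp h2p hC R) h1

include hℓ hA hp hℓp in
theorem val_Kc_lt (h2p : p ≠ 2) (hC : Fintype.card C = p)
    (h : ∃ Q ∈ C, ¬ W.InZeroComponentAt A Q) : A.valuation (Kc W C ^ 2) < 1 := by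
  classical
  obtain ⟨Q, hQ, hn⟩ := h
  have hQ0 : Q ≠ 0 := by
    rintro rfl
    exact hn (Or.inl rfl)
  have hpR : p • Q = 0 := by
    have : p • (⟨Q, hQ⟩ : C) = 0 := by rw [← hC]; exact card_nsmul_eq_zero
    have := congrArg (Subtype.val) this
    simpa using this
  have h1 := (psi_cases (W := W) hℓ hA hp hℓp h2p hQ0 hpR).2
  have h2 : psiP ((W.map (Int.castRingHom ℚ))⁄Qbar) Q ^ 2 ∈ A.nonunits := by
    by_contra hcon
    exact hn (h1.mpr hcon)
  rw [ValuationSubring.mem_nonunits_iff] at h2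
  rw [val_Kc, ← Finset.mul_prod_erase Finset.univ _ (Finset.mem_univ (⟨Q, hQ⟩ : C))]
  exact mul_lt_one_of_lt_of_le h2
    (Finset.prod_le_one' fun R _ => val_psi_le hℓ hA hp hℓp h2p hC R)

end Val

end Fermat.Agent.MazY
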