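import Fermat.Agent.MazY.Kc

/-!
# The complex side of the product of `ψ₂` over a subgroup
-/

set_option autoImplicit false
set_option linter.unusedSectionVars false

noncomputable section

namespace Fermat.Agent.MazY

open WeierstrassCurve WeierstrassCurve.Affine UpperHalfPlane ModularForm
open Fermat.Agent.ModFun
open scoped Pointwise MatrixGroups

local notation "Qbar" => AlgebraicClosure ℚ
local notation "GQ" => Qbar ≃ₐ[ℚ] Qbar

variable {W : WeierstrassCurve ℤ} (ι : Qbar →+* ℂ)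

theorem coe_c (n : ℤ) : (algebraMap ℚ ℂ) ((Int.castRingHom ℚ) n) = (n : ℂ) := by simp

theorem psiP_map (R : ((W.map (Int.castRingHom ℚ))⁄Qbar).Point) :
    psiP ((W.map (Int.castRingHom ℚ))⁄ℂ) (Point.map ι.toRatAlgHom R) =
      ι (psiP ((W.map (Int.castRingHom ℚ))⁄Qbar) R) := by
  rcases R with _ | ⟨x, y, h⟩
  · change (1 : ℂ) = ι 1
    rw [map_one]
  · obtain ⟨h', h1⟩ : ∃ h', Point.map ι.toRatAlgHom
        (Point.some x y h : ((W.map (Int.castRingHom ℚ))⁄Qbar).Point) =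
      Point.some (ι x) (ι y) h' := ⟨_, rfl⟩
    rw [h1, psiP_some, psiP_some]
    have ha1 : ((W.map (Int.castRingHom ℚ))⁄Qbar).a₁ = ((W.a₁ : ℤ) : Qbar) :=
      Fermat.Agent.Maz.FreyS.coe_map_b _
    have ha3 : ((W.map (Int.castRingHom ℚ))⁄Qbar).a₃ = ((W.a₃ : ℤ) : Qbar) :=
      Fermat.Agent.Maz.FreyS.coe_map_b _
    have hb1 : ((W.map (Int.castRingHom ℚ))⁄ℂ).a₁ = ((W.a₁ : ℤ) : ℂ) := coe_c _
    have hb3 : ((W.map (Int.castRingHom ℚ))⁄ℂ).a₃ = ((W.a₃ : ℤ) : ℂ) := coe_c _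
    rw [ha1, ha3, hb1, hb3]
    simp only [map_add, map_mul, map_ofNat, map_intCast]

/-- **existence of the modular point** -/
theorem exists_tau' {p : ℕ} [NeZero p] (hp : p.Prime) (hp2 : Even (p - 1)) (hΔ : W.Δ ≠ 0)
    (h4 : W.c₄ ≠ 0) (h6 : W.c₆ ≠ 0)
    (C : AddSubgroup ((W.map (Int.castRingHom ℚ))⁄Qbar).Point) [Fintype C]
    (hC : Fintype.card C = p) :
    ∃ τ : ℍ, jfun τ = ι ((W.c₄ : Qbar) ^ 3 / (W.Δ : Qbar)) ∧
      discriminant τ = ι ((p : Qbar) ^ 12 * (Kc W C) ^ 4 / (W.Δ : Qbar) ^ (p - 1)) *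
        discriminant (Nτ p τ) := by
  classical
  set WC : WeierstrassCurve ℂ := (W.map (Int.castRingHom ℚ))⁄ℂ with hWC
  have e0 : WC = W.map (Int.castRingHom ℂ) := by
    rw [hWC]
    change (W.map (Int.castRingHom ℚ)).map (algebraMap ℚ ℂ) = _
    rw [WeierstrassCurve.map_map]
    congr 1
  have eΔ : WC.Δ = ((W.Δ : ℤ) : ℂ) := by rw [e0, map_Δ]; rfl
  have e4 : WC.c₄ = ((W.c₄ : ℤ) : ℂ) := by rw [e0, map_c₄]; rfl
  have e6 : WC.c₆ = ((W.c₆ : ℤ) : ℂ) := by rw [e0, map_c₆]; rfl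
  have hΔC : WC.Δ ≠ 0 := by rw [eΔ]; exact_mod_cast hΔ
  have h4C : WC.c₄ ≠ 0 := by rw [e4]; exact_mod_cast h4
  have h6C : WC.c₆ ≠ 0 := by rw [e6]; exact_mod_cast h6
  set f : ((W.map (Int.castRingHom ℚ))⁄Qbar).Point →+ WC.toAffine.Point :=
    Point.map ι.toRatAlgHom with hf
  have hinj : Function.Injective f := Point.map_injective (f := ι.toRatAlgHom)
  set C' : AddSubgroup WC.toAffine.Point := C.map f with hC'
  let e : C ≃+ C' := C.equivMapOfInjective f hinj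
  letI : Fintype C' := Fintype.ofEquiv C e.toEquiv
  have hcard : Fintype.card C' = p := by
    rw [← hC]; exact (Fintype.card_congr e.toEquiv).symm
  obtain ⟨τ, hτ1, hτ2⟩ := exists_tau WC hΔC h4C h6C hp hp2 C' hcard
  have hprod : ∏ R : C', psiP WC R = ι (Kc W C) := by
    rw [Kc, map_prod, ← e.toEquiv.prod_comp]
    refine Finset.prod_congr rfl fun R _ => ?_
    exact psiP_map ι (R : ((W.map (Int.castRingHom ℚ))⁄Qbar).Point)
  rw [hprod, eΔ] at hτ2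
  rw [eΔ, e4] at hτ1
  have hΔ0 : ((W.Δ : ℤ) : ℂ) ≠ 0 := by exact_mod_cast hΔ
  refine ⟨τ, ?_, ?_⟩
  · rw [map_div₀, map_pow, map_intCast, map_intCast, eq_div_iff hΔ0]
    exact hτ1
  · rw [map_div₀, map_mul, map_pow, map_pow, map_pow, map_intCast, map_natCast, div_mul_eq_mul_div,
      eq_div_iff (pow_ne_zero _ hΔ0)]
    exact hτ2

end Fermat.Agent.MazY
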