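import Mathlib

/-!
# Elliptic functions: Liouville, surjectivity of `℘`
-/

set_option autoImplicit false

noncomputable section

namespace Fermat.Agent.MazY

open Filter Topology

variable (L : PeriodPair)

/-- periodic meromorphic functions without poles are constant -/
theorem liouville {f : ℂ → ℂ} (hf : Meromorphic f)
    (hper : ∀ l ∈ L.lattice, ∀ z, f (z + l) = f z)
    (hord : ∀ z, 0 ≤ meromorphicOrderAt f z) : ∃ c, ∀ z, f =ᶠ[𝓝[≠] z] fun _ => c := by
  have hf' : MeromorphicOn f Set.univ := fun z _ => hf z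
  set g := toMeromorphicNFOn f Set.univ with hg
  have hgf : ∀ z, f =ᶠ[𝓝[≠] z] g := fun z =>
    (hf'.toMeromorphicNFOn_eq_self_on_nhdsNE (Set.mem_univ z)).symm
  have hga : ∀ z, AnalyticAt ℂ g z := by
    intro z
    have h1 : MeromorphicNFAt g z := meromorphicNFOn_toMeromorphicNFOn f Set.univ (Set.mem_univ z)
    rw [← h1.meromorphicOrderAt_nonneg_iff_analyticAt, hg,
      meromorphicOrderAt_toMeromorphicNFOn hf' (Set.mem_univ z)]
    exact hord z
  have hgd : Differentiable ℂ g := fun z => (hga z).differentiableAt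
  have hgp : ∀ z, ∀ l ∈ L.lattice, g (z + l) = g z := by
    intro z l hl
    have h1 : (fun w => g (w + l)) =ᶠ[𝓝[≠] z] g := by
      have h2 := hgf (z + l)
      have h3 : Tendsto (fun w : ℂ => w + l) (𝓝[≠] z) (𝓝[≠] (z + l)) := by
        apply tendsto_nhdsWithin_of_tendsto_nhds_of_eventually_within
        · exact ((continuous_id.add continuous_const).tendsto z).mono_left nhdsWithin_le_nhds
        · filter_upwards [self_mem_nhdsWithin] with w hw h
          exact hw (add_right_cancel h)
      have h4 := h3.eventually h2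
      filter_upwards [h4, hgf z] with w h5 h6
      rw [← h6, ← hper l hl w]
      exact h5.symm
    have hc : Tendsto (fun w => g (w + l)) (𝓝[≠] z) (𝓝 (g (z + l))) := by
      have : Continuous fun w => g (w + l) := hgd.continuous.comp (continuous_id.add continuous_const)
      exact (this.tendsto z).mono_left nhdsWithin_le_nhds
    have hc2 : Tendsto g (𝓝[≠] z) (𝓝 (g z)) := (hgd.continuous.tendsto z).mono_left nhdsWithin_le_nhds
    exact tendsto_nhds_unique (hc.congr' h1) hc2
  have hb : ∀ z, g z = g 0 := by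
    intro z
    refine hgd.apply_eq_apply_of_bounded (IsZLattice.isCompact_range_of_periodic L.lattice _
      hgd.continuous fun z w hw => ?_).isBounded z 0
    exact hgp z w hw
  exact ⟨g 0, fun z => (hgf z).trans (Eventually.of_forall hb)⟩

theorem liouville_const {f : ℂ → ℂ} (hf : Meromorphic f)
    (hper : ∀ l ∈ L.lattice, ∀ z, f (z + l) = f z)
    (hord : ∀ z, 0 ≤ meromorphicOrderAt f z) : ∃ c, (∀ z, f =ᶠ[𝓝[≠] z] fun _ => c) ∧
      ∀ z, ContinuousAt f z → f z = c := by
  obtain ⟨c, hc⟩ := liouville L hf hper hord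
  refine ⟨c, hc, fun z hz => ?_⟩
  have h1 : Tendsto f (𝓝[≠] z) (𝓝 (f z)) := hz.tendsto.mono_left nhdsWithin_le_nhds
  exact tendsto_nhds_unique (h1.congr' (hc z)) tendsto_const_nhds

variable {L}

theorem analyticAt_wp {z : ℂ} (hz : z ∉ L.lattice) : AnalyticAt ℂ (PeriodPair.weierstrassP L) z :=
  L.analyticOnNhd_weierstrassP z hz

theorem analyticAt_wp' {z : ℂ} (hz : z ∉ L.lattice) :
    AnalyticAt ℂ (PeriodPair.derivWeierstrassP L) z :=
  L.analyticOnNhd_derivWeierstrassP z hz

theorem hasDerivAt_wp {z : ℂ} (hz : z ∉ L.lattice) :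
    HasDerivAt (PeriodPair.weierstrassP L) (PeriodPair.derivWeierstrassP L z) z := by
  have h := (analyticAt_wp hz).differentiableAt.hasDerivAt
  rwa [L.deriv_weierstrassP] at h

/-- surjectivity of `℘` -/
theorem exists_wp_eq (c : ℂ) : ∃ z, z ∉ L.lattice ∧ PeriodPair.weierstrassP L z = c := by
  by_contra hcon
  push Not at hcon
  set f : ℂ → ℂ := fun z => (PeriodPair.weierstrassP L z - c)⁻¹ with hf
  have hm : Meromorphic (fun z => PeriodPair.weierstrassP L z - c) := fun z =>
    (L.meromorphic_weierstrassP z).sub (MeromorphicAt.const c z)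
  have hfm : Meromorphic f := fun z => (hm z).inv
  have hord : ∀ z ∈ L.lattice, meromorphicOrderAt (fun z => PeriodPair.weierstrassP L z - c) z = -2 := by
    intro z hz
    have h1 : meromorphicOrderAt (PeriodPair.weierstrassP L + fun _ => -c) z =
        meromorphicOrderAt (PeriodPair.weierstrassP L) z := by
      apply meromorphicOrderAt_add_eq_left_of_lt
      · exact MeromorphicAt.const _ _
      · rw [L.order_weierstrassP z hz]
        have h2 : 0 ≤ meromorphicOrderAt (fun _ : ℂ => -c) z :=
          (analyticAt_const).meromorphicOrderAt_nonneg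
        refine lt_of_lt_of_le ?_ h2
        decide
    rw [L.order_weierstrassP z hz] at h1
    rw [← h1]
    congr 1
  have hord2 : ∀ z, 0 ≤ meromorphicOrderAt f z := by
    intro z
    by_cases hz : z ∈ L.lattice
    · have h1 : meromorphicOrderAt f z = -meromorphicOrderAt
          (fun z => PeriodPair.weierstrassP L z - c) z := meromorphicOrderAt_inv
      rw [h1, hord z hz]
      decide
    · have h1 : AnalyticAt ℂ f z := by
        apply AnalyticAt.inv
        · exact (analyticAt_wp hz).sub analyticAt_const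
        · exact sub_ne_zero.mpr (hcon z hz)
      exact h1.meromorphicOrderAt_nonneg
  obtain ⟨a, ha, ha2⟩ := liouville_const L hfm (by
    intro l hl z
    simp only [hf]
    rw [L.weierstrassP_add_coe z ⟨l, hl⟩]) hord2
  have h3 : a ≠ 0 := by
    have hz := L.ω₁_div_two_notMem_lattice
    rw [← ha2 (L.ω₁ / 2) (by
      refine AnalyticAt.continuousAt (𝕜 := ℂ) ?_
      apply AnalyticAt.inv
      · exact (analyticAt_wp hz).sub analyticAt_const
      · exact sub_ne_zero.mpr (hcon _ hz))]
    exact inv_ne_zero (sub_ne_zero.mpr (hcon _ hz))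
  have h4 : Tendsto f (𝓝[≠] 0) (𝓝 0) := by
    apply tendsto_zero_of_meromorphicOrderAt_pos
    have h1 : meromorphicOrderAt f 0 = -meromorphicOrderAt
          (fun z => PeriodPair.weierstrassP L z - c) 0 := meromorphicOrderAt_inv
    rw [h1, hord 0 (zero_mem _)]
    decide
  exact h3 (tendsto_nhds_unique (h4.congr' (ha 0)) tendsto_const_nhds).symm

end Fermat.Agent.MazY
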