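import Fermat.Agent.MazY.Modu2

/-!
# Modular parametrization: the point of the upper half plane of a curve with a cyclic subgroup
-/

set_option autoImplicit false

open UpperHalfPlane EisensteinSeries Real ModularForm
open scoped MatrixGroups

noncomputable section

namespace Fermat.Agent.MazY

open Fermat.Agent.DimS2 Fermat.Agent.GenusX0 Fermat.Agent.ModFun

open Classical in
/-- the function `ψ₂ = 2 y + a₁ x + a₃`, with value `1` at the origin -/
def psiP {F : Type*} [Field F] (W : WeierstrassCurve F) (P : W.toAffine.Point) : F :=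
  match P with
  | .zero => 1
  | .some x y _ => 2 * y + W.a₁ * x + W.a₃

theorem psiP_zero {F : Type*} [Field F] (W : WeierstrassCurve F) : psiP W 0 = 1 := rfl

theorem psiP_some {F : Type*} [Field F] (W : WeierstrassCurve F) {x y : F}
    (h : W.toAffine.Nonsingular x y) :
    psiP W (.some x y h) = 2 * y + W.a₁ * x + W.a₃ := rfl

theorem psiP_Phi {L : PeriodPair} {W : WeierstrassCurve ℂ} (h : Unif L W) {z : ℂ}
    (hz : z ∉ L.lattice) : psiP W (Phi h z) = L.derivWeierstrassP z := by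
  rw [Phi_of_notMem h hz, psiP_some, psi_eq]

theorem prod_gen {G : Type*} [AddCommGroup G] (C : AddSubgroup G) [Fintype C] {N : ℕ}
    (hN : N.Prime) (hC : Fintype.card C = N) {Q : G} (hQ : Q ∈ C) (hQ0 : Q ≠ 0) (f : G → ℂ)
    (hf : f 0 = 1) : ∏ R : C, f R = ∏ a ∈ Finset.range (N - 1), f ((a + 1) • Q) := by
  classical
  have hord : addOrderOf Q = N := by
    have h1 : addOrderOf (⟨Q, hQ⟩ : C) ∣ N := hC ▸ addOrderOf_dvd_card
    have h2 : addOrderOf (⟨Q, hQ⟩ : C) = addOrderOf Q := AddSubgroup.addOrderOf_mk Q hQ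
    rw [h2] at h1
    rcases (Nat.dvd_prime hN).mp h1 with h3 | h3
    · exact absurd (AddMonoid.addOrderOf_eq_one_iff.mp h3) hQ0
    · exact h3
  have hN1 : N - 1 + 1 = N := Nat.sub_add_cancel hN.one_lt.le
  have himg : (Finset.range N).image (fun a => (⟨a • Q, C.nsmul_mem hQ a⟩ : C)) =
      Finset.univ := by
    apply Finset.eq_univ_of_card
    rw [Finset.card_image_of_injOn, Finset.card_range, hC]
    intro a ha b hb h
    have h1 : a • Q = b • Q := congrArg Subtype.val h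
    simp only [Finset.coe_range, Set.mem_Iio] at ha hb
    have h2 := nsmul_injOn_Iio_addOrderOf (x := Q) (by rw [hord]; exact ha)
      (by rw [hord]; exact hb) h1
    exact h2
  rw [← himg, Finset.prod_image]
  · change ∏ a ∈ Finset.range N, f (a • Q) = _
    obtain ⟨n, rfl⟩ : ∃ n, N = n + 1 := ⟨N - 1, hN1.symm⟩
    rw [Finset.prod_range_succ', zero_nsmul, hf, mul_one, Nat.add_sub_cancel]
  · intro a ha b hb h
    have h1 : a • Q = b • Q := congrArg Subtype.val h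
    simp only [Finset.coe_range, Set.mem_Iio] at ha hb
    exact nsmul_injOn_Iio_addOrderOf (x := Q) (by rw [hord]; exact ha)
      (by rw [hord]; exact hb) h1

theorem exists_basis {N : ℕ} (hN : N.Prime) (τ : ℍ) (ω : ℂ) (hω : ω ≠ 0) {z : ℂ}
    (hz : z ∉ (LP τ ω hω).lattice) (hNz : (N : ℂ) * z ∈ (LP τ ω hω).lattice) :
    ∃ (g : SL(2,ℤ)) (m : ℤ), ((g 1 0 : ℂ) * τ + g 1 1) * ω ≠ 0 ∧
      (m : ℂ) * z - ((g 1 0 : ℂ) * τ + g 1 1) * ω / N ∈ (LP τ ω hω).lattice := by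
  obtain ⟨a, b, h⟩ := mem_LP.mp hNz
  have hN0 : (N : ℂ) ≠ 0 := by exact_mod_cast hN.ne_zero
  have hNp : Prime (N : ℤ) := Nat.prime_iff_prime_int.mp hN
  have hz' : z = (a * τ + b) * ω / N := by field_simp; linear_combination h
  have hnz : ∀ g : SL(2,ℤ), ((g 1 0 : ℂ) * τ + g 1 1) * ω ≠ 0 := by
    intro g hg
    have h1 := (mul_eq_zero.mp hg).resolve_right hω
    have h2 : ((g 1 0 : ℝ) : ℂ) * τ + ((g 1 1 : ℝ) : ℂ) = 0 := by push_cast; exact h1
    obtain ⟨h3, h4⟩ := lin_eq_zero h2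
    have hdet := Matrix.SpecialLinearGroup.det_coe g
    rw [Matrix.det_fin_two] at hdet
    have h5 : g 1 0 = 0 := by exact_mod_cast h3
    have h6 : g 1 1 = 0 := by exact_mod_cast h4
    rw [h5, h6] at hdet
    simp at hdet
  by_cases hb : (N : ℤ) ∣ b
  · have ha : ¬ (N : ℤ) ∣ a := by
      rintro ⟨a', rfl⟩
      obtain ⟨b', rfl⟩ := hb
      apply hz
      refine mem_LP.mpr ⟨a', b', ?_⟩
      rw [hz']
      push_cast
      field_simp
    obtain ⟨b', rfl⟩ := hb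
    obtain ⟨u, v, huv⟩ := (Prime.coprime_iff_not_dvd hNp).mpr ha
    refine ⟨ModularGroup.S, v, hnz _, mem_LP.mpr ⟨-u, v * b', ?_⟩⟩
    have e1 : ((ModularGroup.S 1 0 : ℤ) : ℂ) = 1 := by simp [ModularGroup.S]
    have e2 : ((ModularGroup.S 1 1 : ℤ) : ℂ) = 0 := by simp [ModularGroup.S]
    have e3 : (u : ℂ) * N + v * a = 1 := by exact_mod_cast huv
    rw [e1, e2, hz']
    push_cast
    field_simp
    linear_combination (τ : ℂ) * e3
  · obtain ⟨u, v, huv⟩ := (Prime.coprime_iff_not_dvd hNp).mpr hb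
    let g : SL(2,ℤ) := ⟨!![1, 0; v * a, 1], by simp⟩
    refine ⟨g, v, hnz _, mem_LP.mpr ⟨0, -u, ?_⟩⟩
    have e1 : ((g 1 0 : ℤ) : ℂ) = v * a := by simp [g]
    have e2 : ((g 1 1 : ℤ) : ℂ) = 1 := by simp [g]
    have e3 : (u : ℂ) * N + v * b = 1 := by exact_mod_cast huv
    rw [e1, e2, hz']
    push_cast
    field_simp
    linear_combination e3

/-- **the modular parametrization** -/
theorem exists_tau (W : WeierstrassCurve ℂ) (hΔ : W.Δ ≠ 0) (h4 : W.c₄ ≠ 0)
    (h6 : W.c₆ ≠ 0) {N : ℕ} [NeZero N] (hN : N.Prime) (hN2 : Even (N - 1))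
    (C : AddSubgroup W.toAffine.Point) [Fintype C] (hC : Fintype.card C = N) :
    ∃ τ : ℍ, jfun τ * W.Δ = W.c₄ ^ 3 ∧
      discriminant τ * W.Δ ^ (N - 1) =
        N ^ 12 * (∏ R : C, psiP W R) ^ 4 * discriminant (Nτ N τ) := by
  classical
  have hN0 : (N : ℂ) ≠ 0 := by exact_mod_cast NeZero.ne N
  obtain ⟨τ, hτ⟩ := exists_jfun_eq (W.c₄ ^ 3 / W.Δ)
  have hτ' : jfun τ * W.Δ = W.c₄ ^ 3 := by rw [hτ, div_mul_cancel₀ _ hΔ]
  obtain ⟨ω, hω, hu⟩ := exists_unif W hΔ h4 h6 τ hτ'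
  obtain ⟨Q, hQ0⟩ : ∃ Q : C, Q ≠ 0 := by
    haveI : Nontrivial C := by
      rw [← Fintype.one_lt_card_iff_nontrivial, hC]
      exact hN.one_lt
    exact exists_ne 0
  have hQ0' : (Q : W.toAffine.Point) ≠ 0 := fun h => hQ0 (Subtype.ext h)
  have hNQ : N • (Q : W.toAffine.Point) = 0 := by
    have : N • Q = 0 := by rw [← hC]; exact card_nsmul_eq_zero
    have := congrArg (Subtype.val) this
    simpa using this
  obtain ⟨z, hz⟩ := Phi_surjective hu Q
  have hzL : z ∉ (LP τ ω hω).lattice := by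
    intro h
    rw [Phi_of_mem hu h] at hz
    exact hQ0' hz.symm
  have hhom : ∀ w, PhiHom hu w = Phi hu w := fun _ => rfl
  have hNz : (N : ℂ) * z ∈ (LP τ ω hω).lattice := by
    rw [← Phi_eq_zero_iff hu, ← hhom, ← nsmul_eq_mul, map_nsmul, hhom, hz, hNQ]
  obtain ⟨g, m, hω', hm⟩ := exists_basis hN τ ω hω hzL hNz
  set ω' := ((g 1 0 : ℂ) * τ + g 1 1) * ω with hω'def
  have hlat := lattice_smul g τ ω hω hω'
  have hu' : Unif (LP (g • τ) ω' hω') W := unif_congr hlat.symm hu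
  have hδ : Phi hu (ω' / N) = m • (Q : W.toAffine.Point) := by
    rw [← hz, ← hhom, ← hhom, ← map_zsmul, hhom, hhom, eq_comm, Phi_eq_iff, zsmul_eq_mul]
    exact hm
  have hmem : ∀ a : ℕ, ∀ w : ℂ, Phi hu (a * w) = a • Phi hu w := by
    intro a w
    rw [← hhom, ← hhom, ← map_nsmul, nsmul_eq_mul]
  have hisg := isg_LP N hN2 (g • τ) ω' hω' (div_ne_zero hω' hN0)
  have hnot : ∀ a : ℕ, a < N - 1 → ((a + 1 : ℕ) : ℂ) * (ω' / N) ∉ (LP τ ω hω).lattice := by
    intro a ha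
    rw [← hlat]
    exact hisg.nat_mul_notMem ha
  have hN1 : 0 < N - 1 := by have := hN.one_lt; omega
  have hne : m • (Q : W.toAffine.Point) ≠ 0 := by
    intro h
    rw [h] at hδ
    have h1 := (Phi_eq_zero_iff hu).mp hδ
    have h2 := hnot 0 hN1
    apply h2
    rw [zero_add, Nat.cast_one, one_mul]
    exact h1
  refine ⟨g • τ, by rw [jfun_smul]; exact hτ', ?_⟩
  have h1 := disc_LP N hN2 (g • τ) ω' hω'
  rw [← hu'.Δ_eq] at h1
  rw [h1, prod_gen C hN hC (C.zsmul_mem Q.2 m) hne _ (psiP_zero W)]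
  congr 3
  rw [Gk]
  refine Finset.prod_congr rfl fun a ha => ?_
  rw [← hδ, ← hmem, psiP_Phi hu (hnot a (Finset.mem_range.mp ha)), zero_add, wp'_congr hlat]

end Fermat.Agent.MazY
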