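import Fermat.Agent.MazY.Cusps
import Fermat.Agent.MazY.Modu3
import Fermat.Agent.AnJac.Chars

/-!
# The place of `X_0(N)` attached to a point of the upper half plane
-/

set_option autoImplicit false
set_option linter.unusedSectionVars false
set_option linter.style.haveILetI false

noncomputable section

namespace Fermat.Agent.MazY

open AlgebraicCurve ModularCurve Fermat.Agent.Curves Fermat.Agent.GoodRed Fermat.Agent.GenusX0
open Fermat.Agent.ModFun Fermat.Agent.SSMod UpperHalfPlane ModularForm Fermat.Agent.AnJac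
open scoped MatrixGroups

variable {K : Type*} [Field K] [IsAlgClosed K] [CharZero K] {N : ℕ} [NeZero N]

theorem ef_DeltaSer : ef (DeltaSer ℂ) = discriminant := by
  ext τ
  exact evf_DeltaSer τ

theorem ef_qExpand_DeltaSer : ef (qExpand ℂ N (DeltaSer ℂ)) = fun τ => discriminant (Nτ N τ) := by
  ext τ
  rw [ef, evf_qExpand]
  have h1 : Function.Periodic.qParam 1 (τ : ℂ) ^ N = Function.Periodic.qParam 1 ((Nτ N τ : ℍ) : ℂ) := by
    rw [Function.Periodic.qParam, Function.Periodic.qParam, ← Complex.exp_nat_mul]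
    congr 1
    rw [coe_Nτ]
    push_cast
    ring
  rw [h1]
  exact evf_DeltaSer (Nτ N τ)

theorem exists_y (ι : K →+* ℂ) (hN : N.Prime) {E : IntermediateField K (LaurentSeries K)}
    (hE : E = modularFunctionFieldFullC K N) [IsFunctionField K E] {j u : E}
    (cj : (j : LaurentSeries K) = jqModC K) (cu : (u : LaurentSeries K) = uL K N)
    {jv uv : K} {τ : ℍ} (hτ : jfun τ = ι jv)
    (hu : discriminant τ = ι uv * discriminant (Nτ N τ)) :
    ∃ y : Place K E, 0 < y.ord (j - algebraMap K E jv) ∧ 0 < y.ord (u - algebraMap K E uv) := by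
  subst hE
  obtain rfl : j = je K N := Subtype.ext cj
  set P := ptGen τ with hP
  set U := P.toUDN N with hU
  set σ := sigma ι U (1 : SL(2,ℤ)) with hσ
  have hσc : ∀ c, σ (algebraMap K (modularFunctionFieldFullC K N) c) = HahnSeries.C (ι c) :=
    sigma_const ι U 1
  -- order of `j - jv`
  have o1 : 0 < (σ (je K N - algebraMap K _ jv)).order := by
    rw [map_sub, hσc, ← hτ]
    have h1 := order_jfun_sub P (sigma_je ι U (1 : SL(2,ℤ)))
    have h2 : jfun P.pt = jfun τ := rfl
    rw [h2] at h1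
    rw [hσ, h1, jram]
    split_ifs <;> norm_num
  -- order of `u - uv`
  have hne : u - algebraMap K _ uv ≠ 0 := by
    intro h
    rw [sub_eq_zero] at h
    have h1 := congrArg (fun x : modularFunctionFieldFullC K N => (x : LaurentSeries K).order) h
    rw [cu, order_of_ld ld_uL one_ne_zero] at h1
    have h2 : ((algebraMap K (modularFunctionFieldFullC K N) uv :
        modularFunctionFieldFullC K N) : LaurentSeries K) = HahnSeries.C uv := by
      rw [ModFun.C_eq_algebraMap]; rfl
    rw [h2] at h1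
    have h3 : (HahnSeries.C uv : LaurentSeries K).order = 0 := HahnSeries.order_C
    rw [h3] at h1
    have := hN.one_lt
    omega
  have hconv1 : DeltaSer ℂ ∈ convLaurent := DeltaSer_mem
  have hconv2 : qExpand ℂ N (DeltaSer ℂ) ∈ convLaurent := qExpand_mem_convLaurent _ DeltaSer_mem
  have hconv3 : (HahnSeries.C (ι uv) : LaurentSeries ℂ) ∈ convLaurent :=
    single_mem_convLaurent _ _
  have hconv4 : HahnSeries.C (ι uv) * qExpand ℂ N (DeltaSer ℂ) ∈ convLaurent :=
    convLaurent.mul_mem hconv3 hconv2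
  have hconv5 : DeltaSer ℂ - HahnSeries.C (ι uv) * qExpand ℂ N (DeltaSer ℂ) ∈ convLaurent :=
    convLaurent.sub_mem hconv1 hconv4
  set F : ℍ → ℂ := ef (DeltaSer ℂ - HahnSeries.C (ι uv) * qExpand ℂ N (DeltaSer ℂ)) with hF
  have hFeq : F = fun τ => discriminant τ - ι uv * discriminant (Nτ N τ) := by
    rw [hF, ef_sub hconv1 hconv4, ef_mul hconv3 hconv2, ef_DeltaSer, ef_qExpand_DeltaSer, ef_C]
    rfl
  have he : coeffMap ι ((u - algebraMap K _ uv : modularFunctionFieldFullC K N) :
      LaurentSeries K) * lser (ef (qExpand ℂ N (DeltaSer ℂ))) = lser F := by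
    rw [lser_ef hconv2, hF, lser_ef hconv5, AddSubgroupClass.coe_sub, map_sub, cu, uL, map_mul,
      coeffMap_qExpand, coeffMap_DeltaSer, coeffMap_DeltaInvSer]
    have h2 : ((algebraMap K (modularFunctionFieldFullC K N) uv :
        modularFunctionFieldFullC K N) : LaurentSeries K) = HahnSeries.C uv := by
      rw [ModFun.C_eq_algebraMap]; rfl
    have h3 : coeffMap ι (HahnSeries.C uv : LaurentSeries K) = HahnSeries.C (ι uv) := by
      rw [HahnSeries.C_apply, HahnSeries.C_apply, coeffMap_single]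
    rw [h2, h3, sub_mul, mul_assoc, ← map_mul, mul_comm (DeltaInvSer ℂ), DeltaSer_mul_inv, map_one,
      mul_one]
  have hh0 : ef (qExpand ℂ N (DeltaSer ℂ)) ≠ 0 := by
    intro h
    have h1 := congrFun h τ
    rw [ef_qExpand_DeltaSer] at h1
    exact discriminant_ne_zero _ h1
  have hF0 : F ≠ 0 := by
    intro h
    have h1 : lser F = 0 := by
      rw [hF, lser_ef hconv5]
      exact ef_injective hconv5 (by rw [← hF]; exact h)
    rw [h1] at he
    rcases mul_eq_zero.mp he with h2 | h2
    · rw [map_eq_zero_iff _ (AnJac.coeffMap_injective ι)] at h2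
      exact hne (Subtype.ext h2)
    · rw [lser_ef hconv2] at h2
      exact hh0 (by rw [h2]; ext τ; exact (by
        have := ef_C 0
        rw [map_zero] at this
        exact congrFun this τ))
  have hPu : (Spot.ud U.toUD).HasOrd (fun τ => ef (qExpand ℂ N (DeltaSer ℂ)) ((1 : SL(2,ℤ)) • τ))
      (analyticOrderNatAt (ef (qExpand ℂ N (DeltaSer ℂ)) ∘ ofComplex) P.pt) := by
    rw [one_smul_fun]
    exact Spot.hasOrd_ud_pt P (isP_ef hconv2).mdiff hh0
  have hz : analyticOrderNatAt (ef (qExpand ℂ N (DeltaSer ℂ)) ∘ ofComplex) P.pt = 0 := by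
    have ha : AnalyticAt ℂ (ef (qExpand ℂ N (DeltaSer ℂ)) ∘ ofComplex) (P.pt : ℂ) :=
      analyticAt_of_mdiff (isP_ef hconv2).mdiff P.pt
    have h0 : (ef (qExpand ℂ N (DeltaSer ℂ)) ∘ ofComplex) (P.pt : ℂ) ≠ 0 := by
      rw [Function.comp_apply, ofComplex_apply, ef_qExpand_DeltaSer]
      exact discriminant_ne_zero _
    rw [analyticOrderNatAt, ha.analyticOrderAt_eq_zero.mpr h0]
    rfl
  rw [hz] at hPu
  have hmain := hasOrd_of_repr ι U (1 : SL(2,ℤ)) hne (isP_ef hconv5) (isP_ef hconv2) he hPu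
  rw [one_smul_fun, Nat.cast_zero, add_zero] at hmain
  have hFo := Spot.hasOrd_ud_pt P (isP_ef hconv5).mdiff hF0
  have ho := hmain.unique hFo
  have o2 : 0 < (σ (u - algebraMap K _ uv)).order := by
    rw [hσ, ho]
    have ha : AnalyticAt ℂ (F ∘ ofComplex) (P.pt : ℂ) :=
      analyticAt_of_mdiff (isP_ef hconv5).mdiff P.pt
    have h0 : (F ∘ ofComplex) (P.pt : ℂ) = 0 := by
      rw [Function.comp_apply, ofComplex_apply, hFeq]
      change discriminant τ - ι uv * discriminant (Nτ N τ) = 0
      rw [hu, sub_self]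
    have h1 : analyticOrderAt (F ∘ ofComplex) (P.pt : ℂ) ≠ 0 := by
      rw [Ne, ha.analyticOrderAt_eq_zero]
      exact fun h => h h0
    have h2 : analyticOrderAt (F ∘ ofComplex) (P.pt : ℂ) ≠ ⊤ :=
      order_ne_top_of_mdiff (isP_ef hconv5).mdiff hF0 P.pt
    have h3 : analyticOrderNatAt (F ∘ ofComplex) (P.pt : ℂ) ≠ 0 := by
      rw [analyticOrderNatAt, Ne, ENat.toNat_eq_zero]
      push Not
      exact ⟨h1, h2⟩
    exact_mod_cast Nat.pos_of_ne_zero h3
  obtain ⟨v, ε, hε, hv⟩ := exists_place_of_emb (ι := ι) σ hσc (z := je K N - algebraMap K _ jv)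
    o1.ne'
  have hn1 : je K N - algebraMap K _ jv ≠ 0 := by
    intro h
    rw [h, map_zero, HahnSeries.order_zero] at o1
    exact lt_irrefl _ o1
  have hε' : (0 : ℤ) < ε := by exact_mod_cast hε
  refine ⟨v, ?_, ?_⟩
  · rw [hv _ hn1] at o1
    exact pos_of_mul_pos_right o1 hε'.le
  · rw [hv _ hne] at o2
    exact pos_of_mul_pos_right o2 hε'.le

end Fermat.Agent.MazY
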