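import Fermat.Agent.MazY.Comp
import Fermat.Agent.MazY.PlaceY
import Fermat.Agent.MazY.KcC
import Fermat.Agent.Frob.Exists

/-!
# The moduli statement: the place of `X_0(p)` attached to a curve with a subgroup of order `p`
-/

set_option autoImplicit false
set_option linter.unusedSectionVars false
set_option linter.style.haveILetI false
set_option synthInstance.maxHeartbeats 400000

noncomputable section

namespace Fermat.Agent.MazY

open AlgebraicCurve ModularCurve Fermat.Agent.Curves Fermat.Agent.GoodRed Fermat.Agent.GenusX0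
open Fermat.Agent.ModFun Fermat.Agent.SSMod IsLocalRing IntermediateField
open WeierstrassCurve WeierstrassCurve.Affine
open scoped Pointwise

local notation "Qbar" => AlgebraicClosure ℚ
local notation "GQ" => Qbar ≃ₐ[ℚ] Qbar

section HV

variable {K F : Type*} [Field K] [Field F] [Algebra K F] [IsAlgClosed K] [IsFunctionField K F]

/-- `f` has value `a` at `y` -/
def HV (y : Place K F) (f : F) (a : K) : Prop := y.adicValuation (f - algebraMap K F a) < 1

variable {y : Place K F} {f g : F} {a b : K}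

theorem HV.of_ord (h : 0 < y.ord (f - algebraMap K F a)) : HV y f a :=
  (val_lt_one_iff y).mpr (Or.inr h)

theorem val_const_le (y : Place K F) (a : K) : y.adicValuation (algebraMap K F a) ≤ 1 := by
  by_cases ha : a = 0
  · rw [ha, map_zero, map_zero]; exact zero_le_one
  · rw [val_algebraMap y ha]

theorem HV.val_le (h : HV y f a) : y.adicValuation f ≤ 1 := by
  have e : f = (f - algebraMap K F a) + algebraMap K F a := by ring
  rw [e]
  exact (Valuation.map_add _ _ _).trans (max_le h.le (val_const_le y a))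

theorem HV.mul (hf : HV y f a) (hg : HV y g b) : HV y (f * g) (a * b) := by
  have e : f * g - algebraMap K F (a * b) = (f - algebraMap K F a) * g +
      algebraMap K F a * (g - algebraMap K F b) := by rw [map_mul]; ring
  rw [HV, e]
  refine lt_of_le_of_lt (Valuation.map_add _ _ _) (max_lt ?_ ?_)
  · rw [map_mul]
    refine lt_of_le_of_lt (mul_le_mul' le_rfl hg.val_le) ?_
    rw [mul_one]; exact hf
  · rw [map_mul]
    refine lt_of_le_of_lt (mul_le_mul' (val_const_le y a) le_rfl) ?_
    rw [one_mul]; exact hg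

theorem HV.pow (hf : HV y f a) (n : ℕ) : HV y (f ^ n) (a ^ n) := by
  induction n with
  | zero =>
    rw [HV, pow_zero, pow_zero, map_one, sub_self, map_zero]
    exact zero_lt_one
  | succ n ih => rw [pow_succ, pow_succ]; exact ih.mul hf

theorem HV.inv (hf : HV y f a) (ha : a ≠ 0) : HV y f⁻¹ a⁻¹ := by
  have haF : algebraMap K F a ≠ 0 := by simpa using ha
  have hval : y.adicValuation f = 1 := by
    have e : f = algebraMap K F a + (f - algebraMap K F a) := by ring
    rw [e]
    rw [Valuation.map_add_eq_of_lt_left]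
    · exact val_algebraMap y ha
    · rw [val_algebraMap y ha]; exact hf
  have hf0 : f ≠ 0 := by
    rintro rfl
    rw [map_zero] at hval
    exact zero_ne_one hval
  have e : f⁻¹ - algebraMap K F a⁻¹ = -((f - algebraMap K F a) * (f⁻¹ * algebraMap K F a⁻¹)) := by
    rw [map_inv₀]
    field_simp
    ring
  rw [HV, e, Valuation.map_neg, map_mul, map_mul, map_inv₀, hval, inv_one, one_mul,
    val_algebraMap y (inv_ne_zero ha), mul_one]
  exact hf

theorem HV.ord_pos (hf : HV y f a) (hne : f - algebraMap K F a ≠ 0) :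
    0 < y.ord (f - algebraMap K F a) :=
  ((val_lt_one_iff y).mp hf).resolve_left hne

end HV

/-- the values of the functions at a place -/
structure Vals {K : Type*} [Field K] {F : Type*} [Field F] [Algebra K F]
    (y : Place K F) (t h s : F) (a b d : K) : Prop where
  vt : 0 < y.ord (t - algebraMap K F a)
  vh : 0 < y.ord (h - algebraMap K F b)
  vs : 0 < y.ord (s - algebraMap K F d)
  vsi : 0 < y.ord (s⁻¹ - algebraMap K F d⁻¹)

section Loc

variable {K F κ G : Type*} [Field K] [Field F] [Algebra K F] [IsAlgClosed K] [IsFunctionField K F]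
  [Field κ] [Field G] [Algebra κ G] [IsAlgClosed κ] [IsFunctionField κ G]
  {A : ValuationSubring K} {π : A →+* κ}
  {R : Divisor K F →+ Divisor κ G} {c : ℤ}
  {Pj P0 : Place K F} {N : ℕ} {t h s : F} {tb hb sb : G}
  (S : Sep R c π Pj P0 N t h s tb hb sb)

include S in
theorem loc_main (hN : 0 < N) (hπ : ∀ x : A, π x = 0 ↔ (x : K) ∈ A.nonunits) {y : Place K F}
    {a b d : K} (ha : a ∈ A.nonunits) (hbA : b ∈ A) (V : Vals y t h s a b d) :
    (π ⟨b, hbA⟩ = 1 ∧ R (Finsupp.single y 1) = R (Finsupp.single Pj 1) ∧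
      ∀ y' : Place K F, Vals y' t h s a b d → y' = y) ∨
    (π ⟨b, hbA⟩ = 0 ∧ R (Finsupp.single y 1) = R (Finsupp.single P0 1) ∧
      ∀ y' : Place K F, Vals y' t h s a b d → y' = y) := by
  have haA : a ∈ A := A.nonunits_subset ha
  have ha0 : π ⟨a, haA⟩ = 0 := (hπ _).mpr ha
  rcases S.near_label hN (a := ⟨a, haA⟩) (b := ⟨b, hbA⟩) ha0 V.vt V.vh with h1 | h0
  · left
    refine ⟨h1, S.near_inf hN (a := ⟨a, haA⟩) (b := ⟨b, hbA⟩) ha0 h1 V.vt V.vh, fun y' V' => ?_⟩
    exact S.unique_inf hN (a := ⟨a, haA⟩) (b := ⟨b, hbA⟩) ha0 h1 V'.vt V'.vh V.vt V.vh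
  · right
    have hdi : d⁻¹ ∉ A := by
      intro hd
      exact S.s_small hN (a := ⟨a, haA⟩) (b := ⟨b, hbA⟩) (d := ⟨d⁻¹, hd⟩) ha0 h0 V.vt V.vh V.vsi
    have hdn : d ∈ A.nonunits := by
      rw [ValuationSubring.mem_nonunits_iff]
      by_contra hcon
      push Not at hcon
      apply hdi
      rw [← ValuationSubring.valuation_le_one_iff, map_inv₀]
      exact inv_le_one_of_one_le₀ hcon
    have hdA : d ∈ A := A.nonunits_subset hdn
    have hd0 : π ⟨d, hdA⟩ = 0 := (hπ _).mpr hdn
    refine ⟨h0, S.near_zero hN (a := ⟨a, haA⟩) (b := ⟨b, hbA⟩) (d := ⟨d, hdA⟩) ha0 h0 V.vt V.vh hd0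
      V.vs, fun y' V' => ?_⟩
    exact S.unique_zero hN (a := ⟨a, haA⟩) (b := ⟨b, hbA⟩) (d := ⟨d, hdA⟩) ha0 h0 hd0 V'.vt V'.vh
      V'.vs V.vt V.vh V.vs

end Loc

end Fermat.Agent.MazY
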