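import Fermat.Agent.MazY.Main

/-!
# The moduli statement
-/

set_option autoImplicit false
set_option linter.unusedSectionVars false
set_option linter.style.haveILetI false
set_option synthInstance.maxHeartbeats 400000

noncomputable section

namespace Fermat.Agent.MazY

open AlgebraicCurve ModularCurve Fermat.Agent.Curves Fermat.Agent.GoodRed Fermat.Agent.GenusX0
open Fermat.Agent.ModFun Fermat.Agent.SSMod IsLocalRing IntermediateField
open WeierstrassCurve WeierstrassCurve.Affine
open scoped Pointwise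

local notation "Qbar" => AlgebraicClosure ℚ
local notation "GQ" => Qbar ≃ₐ[ℚ] Qbar

local instance instAlgQbar' : Algebra.IsAlgebraic ℚ Qbar := AlgebraicClosure.isAlgebraic ℚ

variable {p : ℕ} [NeZero p]

theorem gact_algebraMap (σ : GQ) (a : Qbar) :
    gact p σ • (algebraMap Qbar (modularFunctionFieldBar p) a) =
      algebraMap Qbar (modularFunctionFieldBar p) (σ a) :=
  arithmeticRingAut_algebraMap (modularFunctionFieldFull p) σ a

theorem ord_gact (σ : GQ) (y : Place Qbar (modularFunctionFieldBar p))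
    {f : modularFunctionFieldBar p} (hf : gact p σ • f = f) {a : Qbar} (ha : σ a = a) :
    (gact p σ • y).ord (f - algebraMap Qbar _ a) = y.ord (f - algebraMap Qbar _ a) := by
  have h1 := SemilinearAut.ord_smul (gact p σ) y (f - algebraMap Qbar _ a)
  have h2 : gact p σ • (f - algebraMap Qbar (modularFunctionFieldBar p) a) =
      f - algebraMap Qbar (modularFunctionFieldBar p) a := by
    rw [smul_sub, hf, gact_algebraMap, ha]
  rw [h2] at h1
  exact h1

theorem vals_gact (σ : GQ) {y : Place Qbar (modularFunctionFieldBar p)}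
    {t h s : modularFunctionFieldBar p} {a b d : Qbar} (V : Vals y t h s a b d)
    (ht : gact p σ • t = t) (hh : gact p σ • h = h) (hs : gact p σ • s = s)
    (ha : σ a = a) (hb : σ b = b) (hd : σ d = d) : Vals (gact p σ • y) t h s a b d where
  vt := by rw [ord_gact σ y ht ha]; exact V.vt
  vh := by rw [ord_gact σ y hh hb]; exact V.vh
  vs := by rw [ord_gact σ y hs hd]; exact V.vs
  vsi := by
    rw [ord_gact σ y (f := s⁻¹) ?_ (by rw [map_inv₀, hd])]
    · exact V.vsi
    · have h1 : gact p σ • s⁻¹ = (gact p σ • s)⁻¹ := map_inv₀ (SemilinearAut.toRingAut (gact p σ)) s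
      rw [h1, hs]

theorem gact_of_coe (σ : GQ) {f : modularFunctionFieldBar p}
    (hf : coeffMap (σ : Qbar →+* Qbar) (f : LaurentSeries Qbar) = (f : LaurentSeries Qbar)) :
    gact p σ • f = f := Subtype.ext hf

section Fix

variable {Pj P0 : Place Qbar (modularFunctionFieldBar p)} {t u h s : modularFunctionFieldBar p}
  (C : CF Qbar p Pj P0 t u h s) (σ : GQ)

include C

theorem fix_t : gact p σ • t = t := by
  apply gact_of_coe
  rw [C.ct, map_inv₀, coeffMap_jqModC]

theorem fix_u : gact p σ • u = u := by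
  apply gact_of_coe
  rw [C.cu, uL, map_mul, coeffMap_qExpand, coeffMap_DeltaSer, coeffMap_DeltaInvSer]

theorem fix_h : gact p σ • h = h := by
  rw [C.eh, smul_mul', smul_pow', fix_u C, fix_t C]

theorem fix_s : gact p σ • s = s := by
  rw [C.es, div_eq_mul_inv, smul_mul', fix_t C]
  have h1 : gact p σ • u⁻¹ = (gact p σ • u)⁻¹ :=
    map_inv₀ (SemilinearAut.toRingAut (gact p σ)) u
  rw [h1, fix_u C]

end Fix

theorem sub_const_ne_zero {K F : Type*} [Field K] [Field F] [Algebra K F] (P : Place K F) {f : F}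
    (h : P.ord f ≠ 0) (a : K) : f - algebraMap K F a ≠ 0 := by
  intro h0
  rw [sub_eq_zero] at h0
  exact h (by rw [h0, ord_algebraMap])

theorem val_int_lt {A : ValuationSubring Qbar} {ℓ : ℕ} (hA : A.LiesOverPrime ℓ) {n : ℤ}
    (hn : (ℓ : ℤ) ∣ n) : A.valuation (n : Qbar) < 1 := by
  obtain ⟨m, rfl⟩ := hn
  have h1 : A.valuation ((ℓ : ℕ) : Qbar) < 1 := (ValuationSubring.mem_nonunits_iff _).mp hA
  push_cast
  rw [map_mul]
  refine lt_of_le_of_lt (mul_le_mul' le_rfl (ECRed.val_int_le A m)) ?_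
  rw [mul_one]; exact h1

/-- local analysis at a place `A` -/
theorem local_pkg (ι : Qbar →+* ℂ) (hp : p.Prime) {Pj P0 : Place Qbar (modularFunctionFieldBar p)}
    {t u h s : modularFunctionFieldBar p} (C : CF Qbar p Pj P0 t u h s)
    {ℓ : ℕ} (hℓ : ℓ.Prime) {A : ValuationSubring Qbar} (hA : A.LiesOverPrime ℓ) (hℓp : ¬ ℓ ∣ p)
    {M : ℕ} (hM : (M : ResidueField A) ≠ 0) {y : Place Qbar (modularFunctionFieldBar p)}
    {a b d : Qbar} (ha : a ∈ A.nonunits) (hb : b ∈ A) (V : Vals y t h s a b d) :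
    (∀ y' : Place Qbar (modularFunctionFieldBar p), Vals y' t h s a b d → y' = y) ∧
    ∀ [NeZero M] [IsFunctionField (ResidueField A) (modularFunctionFieldFullC (ResidueField A) M)]
      (r : RedMap A p M),
      (b ∉ A.nonunits → r.R (Finsupp.single y 1 - Finsupp.single Pj 1) = 0) ∧
      (b ∈ A.nonunits → r.R (Finsupp.single y 1 - Finsupp.single P0 1) = 0) := by
  have hpκ := residue_ne_zero hℓ hA hℓp
  have hL : ((p * M : ℕ) : ResidueField A) ≠ 0 := by
    rw [Nat.cast_mul]; exact mul_ne_zero hpκ hM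
  obtain ⟨M', hLM, hM'κ, hG⟩ := exists_good (residue A) ι residue_surjective (p * M) hL
  haveI : NeZero M' := ⟨by rintro rfl; simp at hM'κ⟩
  haveI := isFunctionField_fullC (ResidueField A) M' hM'κ
  obtain ⟨R, c, tb, hb', sb, pd, spec, S⟩ := exists_sep residue_surjective
    (dvd_of_mul_right_dvd hLM) hM'κ hp hG (laurentBaseChange_eq Qbar p) C
  have hπ : ∀ x : A, residue A x = 0 ↔ (x : Qbar) ∈ A.nonunits := by
    intro x
    rw [residue_eq_zero_iff]
    exact ValuationSubring.coe_mem_nonunits_iff.symm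
  have hdeg : ∀ P P' : Place Qbar (modularFunctionFieldBar p),
      Divisor.degree (Finsupp.single P 1 - Finsupp.single P' 1) = 0 := by
    intro P P'
    rw [map_sub, Divisor.degree_single, Divisor.degree_single, deg_eq_one, deg_eq_one, sub_self]
  rcases loc_main S hp.pos hπ ha hb V with ⟨h1, h2, h3⟩ | ⟨h1, h2, h3⟩
  · refine ⟨h3, fun {_} {_} r => ⟨fun _ => ?_, fun hbn => ?_⟩⟩
    · refine red_eq_zero hℓ hA hℓp r (dvd_of_mul_left_dvd hLM) pd spec (hdeg _ _) ?_
      rw [map_sub, h2, sub_self]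
    · exfalso
      have := (hπ ⟨b, hb⟩).mpr hbn
      rw [h1] at this
      exact one_ne_zero this
  · refine ⟨h3, fun {_} {_} r => ⟨fun hbn => ?_, fun _ => ?_⟩⟩
    · exact absurd ((hπ ⟨b, hb⟩).mp h1) hbn
    · refine red_eq_zero hℓ hA hℓp r (dvd_of_mul_left_dvd hLM) pd spec (hdeg _ _) ?_
      rw [map_sub, h2, sub_self]

end Fermat.Agent.MazY
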