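import Fermat.Agent.MazY.Isog2
import Fermat.Agent.GenusX0.Places

/-!
# Modular parametrization: period pairs attached to points of the upper half plane
-/

set_option autoImplicit false

open UpperHalfPlane EisensteinSeries Real ModularForm
open scoped MatrixGroups

noncomputable section

namespace Fermat.Agent.MazY

open Fermat.Agent.DimS2 Fermat.Agent.GenusX0 Fermat.Agent.ModFun

/-- the period pair `(τ ω, ω)` -/
def LP (τ : ℍ) (ω : ℂ) (hω : ω ≠ 0) : PeriodPair where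
  ω₁ := τ * ω
  ω₂ := ω
  indep := by
    rw [LinearIndependent.pair_iff]
    intro a b h
    have h1 : ((a : ℂ) * τ + b) * ω = 0 := by
      rw [← h, Complex.real_smul, Complex.real_smul]; ring
    have h2 := (mul_eq_zero.mp h1).resolve_right hω
    have h3 := congrArg Complex.im h2
    have h4 : a * (τ : ℂ).im = 0 := by simpa using h3
    have ha : a = 0 := (mul_eq_zero.mp h4).resolve_right τ.im_pos.ne'
    subst ha
    refine ⟨rfl, ?_⟩
    have h5 := congrArg Complex.re h2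
    simpa using h5

theorem mem_LP {τ : ℍ} {ω : ℂ} {hω : ω ≠ 0} {z : ℂ} :
    z ∈ (LP τ ω hω).lattice ↔ ∃ a b : ℤ, z = (a * τ + b) * ω := by
  rw [PeriodPair.mem_lattice]
  constructor
  · rintro ⟨m, n, h⟩
    exact ⟨m, n, by rw [← h]; change (m : ℂ) * (τ * ω) + n * ω = _; ring⟩
  · rintro ⟨a, b, h⟩
    exact ⟨a, b, by rw [h]; change (a : ℂ) * (τ * ω) + b * ω = _; ring⟩

theorem lin_eq_zero {τ : ℍ} {a b : ℝ} (h : (a : ℂ) * τ + b = 0) : a = 0 ∧ b = 0 := by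
  have h3 := congrArg Complex.im h
  have h4 : a * (τ : ℂ).im = 0 := by simpa using h3
  have ha : a = 0 := (mul_eq_zero.mp h4).resolve_right τ.im_pos.ne'
  subst ha
  refine ⟨rfl, ?_⟩
  have h5 := congrArg Complex.re h
  simpa using h5

theorem G_LP (τ : ℍ) (ω : ℂ) (hω : ω ≠ 0) {k : ℕ} (hk : 3 ≤ k) :
    (LP τ ω hω).G k = (ω ^ k)⁻¹ * (riemannZeta k * eisensteinSeries (N := 1) 0 k τ) := by
  rw [← tsum_eisSummand_eq_riemannZeta_mul_eisensteinSeries hk, PeriodPair.G,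
    ← (LP τ ω hω).latticeEquivProd.symm.toEquiv.tsum_eq,
    ← (finTwoArrowEquiv ℤ).tsum_eq, ← tsum_mul_left]
  refine tsum_congr fun v => ?_
  have h1 : (((LP τ ω hω).latticeEquivProd.symm.toEquiv ((finTwoArrowEquiv ℤ) v) :
      (LP τ ω hω).lattice) : ℂ) = (v 0 : ℂ) * (τ * ω) + v 1 * ω :=
    PeriodPair.latticeEquiv_symm_apply (LP τ ω hω) _
  rw [h1, eisSummand]
  have h2 : (v 0 : ℂ) * (τ * ω) + v 1 * ω = ω * (v 0 * τ + v 1) := by ring
  rw [h2, mul_pow, mul_inv, zpow_neg, zpow_natCast]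

theorem zeta_six : riemannZeta 6 = (π : ℂ) ^ 6 / 945 := by
  have h := riemannZeta_two_mul_nat (k := 3) (by norm_num)
  have hb : bernoulli 6 = 1 / 42 := by decide +kernel
  norm_num [hb, Nat.factorial] at h ⊢
  rw [h]
  ring

theorem g2_LP (τ : ℍ) (ω : ℂ) (hω : ω ≠ 0) :
    12 * (LP τ ω hω).g₂ = (2 * π / ω) ^ 4 * e4 τ := by
  have h := G_LP τ ω hω (k := 4) (by norm_num)
  have he : e4 τ = (1 / 2 : ℂ) * eisensteinSeries (N := 1) 0 (4 : ℕ) τ := rfl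
  rw [PeriodPair.g₂, h, he]
  have h4 : riemannZeta ((4 : ℕ) : ℂ) = (π : ℂ) ^ 4 / 90 := by
    have := riemannZeta_four
    exact_mod_cast this
  rw [h4]
  field_simp
  ring

theorem g3_LP (τ : ℍ) (ω : ℂ) (hω : ω ≠ 0) :
    216 * (LP τ ω hω).g₃ = (2 * π / ω) ^ 6 * e6 τ := by
  have h := G_LP τ ω hω (k := 6) (by norm_num)
  have he : e6 τ = (1 / 2 : ℂ) * eisensteinSeries (N := 1) 0 (6 : ℕ) τ := rfl
  rw [PeriodPair.g₃, h, he]
  have h4 : riemannZeta ((6 : ℕ) : ℂ) = (π : ℂ) ^ 6 / 945 := by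
    have := zeta_six
    exact_mod_cast this
  rw [h4]
  field_simp
  ring

theorem Dl_LP (τ : ℍ) (ω : ℂ) (hω : ω ≠ 0) :
    Dl (LP τ ω hω) = (2 * π / ω) ^ 12 * discriminant τ := by
  rw [Dl, disc_eq]
  have h1 := g2_LP τ ω hω
  have h2 := g3_LP τ ω hω
  have h3 : (1728 : ℂ) * ((LP τ ω hω).g₂ ^ 3 - 27 * (LP τ ω hω).g₃ ^ 2) =
      1728 * ((2 * π / ω) ^ 12 * ((e4 τ ^ 3 - e6 τ ^ 2) / 1728)) := by
    have h4 : (1728 : ℂ) * ((LP τ ω hω).g₂ ^ 3 - 27 * (LP τ ω hω).g₃ ^ 2) =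
        (12 * (LP τ ω hω).g₂) ^ 3 - (216 * (LP τ ω hω).g₃) ^ 2 := by ring
    rw [h4, h1, h2]
    ring
  exact mul_left_cancel₀ (by norm_num) h3

theorem exists_scale {c4 c6 Δ : ℂ} (hr : 1728 * Δ = c4 ^ 3 - c6 ^ 2) (hΔ : Δ ≠ 0) (h4 : c4 ≠ 0)
    (h6 : c6 ≠ 0) (τ : ℍ) (hτ : jfun τ * Δ = c4 ^ 3) :
    ∃ ω : ℂ, ω ≠ 0 ∧ (2 * π / ω) ^ 4 * e4 τ = c4 ∧ (2 * π / ω) ^ 6 * e6 τ = c6 := by
  have hd := ModularForm.discriminant_ne_zero τ
  have hj := jfun_mul_disc τ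
  have hj' := jfun_sub_mul_disc τ
  have k1 : e4 τ ^ 3 * Δ = c4 ^ 3 * discriminant τ := by rw [← hj, ← hτ]; ring
  have k2 : e6 τ ^ 2 * Δ = c6 ^ 2 * discriminant τ := by
    rw [← hj']; linear_combination discriminant τ * hτ - discriminant τ * hr
  have e40 : e4 τ ≠ 0 := by
    intro h
    rw [h] at k1
    have : c4 ^ 3 * discriminant τ = 0 := by rw [← k1]; ring
    exact mul_ne_zero (pow_ne_zero _ h4) hd this
  have e60 : e6 τ ≠ 0 := by
    intro h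
    rw [h] at k2
    have : c6 ^ 2 * discriminant τ = 0 := by rw [← k2]; ring
    exact mul_ne_zero (pow_ne_zero _ h6) hd this
  have k3 : c6 ^ 2 * e4 τ ^ 3 = c4 ^ 3 * e6 τ ^ 2 := by
    apply mul_right_cancel₀ hΔ
    linear_combination c6 ^ 2 * k1 - c4 ^ 3 * k2
  obtain ⟨l, hl⟩ := IsAlgClosed.exists_pow_nat_eq (c6 * e4 τ / (e6 τ * c4)) (n := 2) (by norm_num)
  have hl0 : l ≠ 0 := by
    rintro rfl
    have : c6 * e4 τ / (e6 τ * c4) ≠ 0 := div_ne_zero (mul_ne_zero h6 e40) (mul_ne_zero e60 h4)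
    apply this
    rw [← hl]; ring
  have hpi : (π : ℂ) ≠ 0 := by exact_mod_cast Real.pi_ne_zero
  refine ⟨2 * π / l, div_ne_zero (mul_ne_zero two_ne_zero hpi) hl0, ?_, ?_⟩
  · have e : 2 * (π : ℂ) / (2 * π / l) = l := by field_simp
    rw [e, show l ^ 4 = (l ^ 2) ^ 2 by ring, hl]
    field_simp
    linear_combination k3
  · have e : 2 * (π : ℂ) / (2 * π / l) = l := by field_simp
    rw [e, show l ^ 6 = (l ^ 2) ^ 3 by ring, hl]
    field_simp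
    linear_combination k3

theorem exists_unif (W : WeierstrassCurve ℂ) (hΔ : W.Δ ≠ 0) (h4 : W.c₄ ≠ 0)
    (h6 : W.c₆ ≠ 0) (τ : ℍ) (hτ : jfun τ * W.Δ = W.c₄ ^ 3) :
    ∃ (ω : ℂ) (hω : ω ≠ 0), Unif (LP τ ω hω) W := by
  obtain ⟨ω, hω, k4, k6⟩ := exists_scale W.c_relation hΔ h4 h6 τ hτ
  exact ⟨ω, hω, ⟨by rw [g2_LP, k4], by rw [g3_LP, k6], hΔ⟩⟩

/-! ### only the lattice matters -/

theorem G_congr {L L' : PeriodPair} (h : L.lattice = L'.lattice) (n : ℕ) : L.G n = L'.G n := by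
  have : ∀ S T : Submodule ℤ ℂ, S = T → ∑' l : S, ((l : ℂ) ^ n)⁻¹ = ∑' l : T, ((l : ℂ) ^ n)⁻¹ := by
    rintro _ _ rfl; rfl
  exact this _ _ h

theorem unif_congr {L L' : PeriodPair} (h : L.lattice = L'.lattice) {W : WeierstrassCurve ℂ}
    (hu : Unif L W) : Unif L' W where
  h4 := by rw [← hu.h4, PeriodPair.g₂, PeriodPair.g₂, G_congr h]
  h6 := by rw [← hu.h6, PeriodPair.g₃, PeriodPair.g₃, G_congr h]
  hΔ := hu.hΔ

end Fermat.Agent.MazY
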