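import Fermat.Agent.MazY.Modu

/-!
# Modular parametrization: the point of the upper half plane of a curve with a cyclic subgroup
-/

set_option autoImplicit false

open UpperHalfPlane EisensteinSeries Real ModularForm
open scoped MatrixGroups

noncomputable section

namespace Fermat.Agent.MazY

open Fermat.Agent.DimS2 Fermat.Agent.GenusX0 Fermat.Agent.ModFun

theorem wp_congr {L L' : PeriodPair} (h : L.lattice = L'.lattice) :
    L.weierstrassP = L'.weierstrassP := by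
  have : ∀ S T : Submodule ℤ ℂ, S = T → (fun z : ℂ => ∑' l : S, (1 / (z - l) ^ 2 - 1 / (l : ℂ) ^ 2)) =
      (fun z : ℂ => ∑' l : T, (1 / (z - l) ^ 2 - 1 / (l : ℂ) ^ 2)) := by
    rintro _ _ rfl; rfl
  exact this _ _ h

theorem wp'_congr {L L' : PeriodPair} (h : L.lattice = L'.lattice) :
    L.derivWeierstrassP = L'.derivWeierstrassP := by
  have : ∀ S T : Submodule ℤ ℂ, S = T → (fun z : ℂ => - ∑' l : S, 2 / (z - l) ^ 3) =
      (fun z : ℂ => - ∑' l : T, 2 / (z - l) ^ 3) := by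
    rintro _ _ rfl; rfl
  exact this _ _ h

theorem X_congr {L L' : PeriodPair} (h : L.lattice = L'.lattice) (W : WeierstrassCurve ℂ) (z : ℂ) :
    X L W z = X L' W z := by
  rw [X, X, wp_congr h]

theorem Y_congr {L L' : PeriodPair} (h : L.lattice = L'.lattice) (W : WeierstrassCurve ℂ) (z : ℂ) :
    Y L W z = Y L' W z := by
  rw [Y, Y, X_congr h, wp'_congr h]

theorem Phi_congr {L L' : PeriodPair} (h : L.lattice = L'.lattice) {W : WeierstrassCurve ℂ}
    (hu : Unif L W) (z : ℂ) : Phi (unif_congr h hu) z = Phi hu z := by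
  by_cases hz : z ∈ L.lattice
  · rw [Phi_of_mem hu hz, Phi_of_mem _ (h ▸ hz)]
  · have hz' : z ∉ L'.lattice := h ▸ hz
    rw [Phi_of_notMem hu hz, Phi_of_notMem _ hz']
    simp only [X_congr h, Y_congr h]

/-- change of basis -/
theorem lattice_smul (g : SL(2,ℤ)) (τ : ℍ) (ω : ℂ) (hω : ω ≠ 0)
    (hω' : ((g 1 0 : ℂ) * τ + g 1 1) * ω ≠ 0) :
    (LP (g • τ) (((g 1 0 : ℂ) * τ + g 1 1) * ω) hω').lattice = (LP τ ω hω).lattice := by
  have hD : (g 1 0 : ℂ) * τ + g 1 1 ≠ 0 := fun h => hω' (by rw [h, zero_mul])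
  have hg : ((g • τ : ℍ) : ℂ) * ((g 1 0 : ℂ) * τ + g 1 1) = (g 0 0 : ℂ) * τ + g 0 1 := by
    rw [UpperHalfPlane.coe_specialLinearGroup_apply]
    simp only [algebraMap_int_eq, Int.coe_castRingHom, Complex.ofReal_intCast]
    rw [div_mul_cancel₀ _ hD]
  have hdet : ((g 0 0 : ℤ) : ℂ) * g 1 1 - g 0 1 * g 1 0 = 1 := by
    have := Matrix.SpecialLinearGroup.det_coe g
    rw [Matrix.det_fin_two] at this
    exact_mod_cast this
  ext z
  rw [mem_LP, mem_LP]
  constructor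
  · rintro ⟨a, b, rfl⟩
    refine ⟨a * g 0 0 + b * g 1 0, a * g 0 1 + b * g 1 1, ?_⟩
    push_cast
    linear_combination a * ω * hg
  · rintro ⟨a, b, rfl⟩
    refine ⟨a * g 1 1 - b * g 1 0, -a * g 0 1 + b * g 0 0, ?_⟩
    push_cast
    linear_combination -(a * g 1 1 - b * g 1 0) * ω * hg - (a * τ + b) * ω * hdet

/-- the point `N τ` -/
def Nτ (N : ℕ) [NeZero N] (τ : ℍ) : ℍ := ⟨N * τ, by
  have h : (0 : ℝ) < N := by exact_mod_cast Nat.pos_of_ne_zero (NeZero.ne N)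
  have : ((N : ℂ) * (τ : ℂ)).im = N * τ.im := by
    simp [UpperHalfPlane.coe_im]
  rw [this]
  exact mul_pos h τ.im_pos⟩

@[simp] theorem coe_Nτ (N : ℕ) [NeZero N] (τ : ℍ) : ((Nτ N τ : ℍ) : ℂ) = N * τ := rfl

theorem isg_LP (N : ℕ) [NeZero N] (hN : Even (N - 1)) (τ : ℍ) (ω : ℂ) (hω : ω ≠ 0)
    (hω' : ω / N ≠ 0) : Isg (LP τ ω hω) (LP (Nτ N τ) (ω / N) hω') (ω / N) (N - 1) := by
  have hN0 : (N : ℂ) ≠ 0 := by exact_mod_cast NeZero.ne N
  have hN1 : N - 1 + 1 = N := Nat.sub_add_cancel (Nat.one_le_iff_ne_zero.mpr (NeZero.ne N))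
  refine ⟨?_, ?_, ?_, ?_, ?_, hN⟩
  · intro z hz
    obtain ⟨a, b, rfl⟩ := mem_LP.mp hz
    refine mem_LP.mpr ⟨a, b * N, ?_⟩
    rw [coe_Nτ]
    push_cast
    field_simp
  · exact mem_LP.mpr ⟨0, 1, by push_cast; ring⟩
  · rw [hN1]
    exact mem_LP.mpr ⟨0, 1, by push_cast; field_simp; ring⟩
  · intro z hz
    obtain ⟨a, b, rfl⟩ := mem_LP.mp hz
    refine ⟨-b, mem_LP.mpr ⟨a, 0, ?_⟩⟩
    rw [coe_Nτ]
    push_cast
    field_simp
    ring
  · intro k hk
    obtain ⟨a, b, h⟩ := mem_LP.mp hk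
    rw [hN1]
    refine ⟨b, ?_⟩
    have h1 : ((a * N : ℝ) : ℂ) * τ + ((b * N - k : ℝ) : ℂ) = 0 := by
      have h2 : (k : ℂ) * (ω / N) * N = (a * τ + b) * ω * N := by rw [h]
      rw [mul_assoc, div_mul_cancel₀ _ hN0] at h2
      have h3 : ω * ((k : ℂ) - (a * τ + b) * N) = 0 := by linear_combination h2
      have h4 := (mul_eq_zero.mp h3).resolve_left hω
      push_cast
      linear_combination -h4
    have h2 := (lin_eq_zero h1).2
    have h3 : (k : ℝ) = N * b := by linarith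
    exact_mod_cast h3

theorem half_cov (τ : ℍ) (ω : ℂ) (hω : ω ≠ 0) (z : ℂ) (hz : z + z ∈ (LP τ ω hω).lattice) :
    z ∈ (LP τ ω hω).lattice ∨ z + τ * ω / 2 ∈ (LP τ ω hω).lattice ∨
      z + ω / 2 ∈ (LP τ ω hω).lattice ∨ z + (τ * ω / 2 + ω / 2) ∈ (LP τ ω hω).lattice := by
  obtain ⟨a, b, h⟩ := mem_LP.mp hz
  have hz : z = (a * τ + b) * ω / 2 := by linear_combination h / 2
  rcases Int.even_or_odd' a with ⟨m, rfl | rfl⟩ <;> rcases Int.even_or_odd' b with ⟨n, rfl | rfl⟩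
  · left
    exact mem_LP.mpr ⟨m, n, by rw [hz]; push_cast; ring⟩
  · right; right; left
    exact mem_LP.mpr ⟨m, n + 1, by rw [hz]; push_cast; ring⟩
  · right; left
    exact mem_LP.mpr ⟨m + 1, n, by rw [hz]; push_cast; ring⟩
  · right; right; right
    exact mem_LP.mpr ⟨m + 1, n + 1, by rw [hz]; push_cast; ring⟩

theorem half_notMem (τ : ℍ) (ω : ℂ) (hω : ω ≠ 0) {c d : ℤ} (h : ¬ (2 ∣ c ∧ 2 ∣ d)) :
    ((c : ℂ) * (τ : ℂ) + d) * ω / 2 ∉ (LP τ ω hω).lattice := by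
  intro hm
  obtain ⟨a, b, e⟩ := mem_LP.mp hm
  have h1 : ((c - 2 * a : ℝ) : ℂ) * τ + ((d - 2 * b : ℝ) : ℂ) = 0 := by
    have h2 : ω * ((c * τ + d) - 2 * (a * τ + b)) = 0 := by linear_combination 2 * e
    have h3 := (mul_eq_zero.mp h2).resolve_left hω
    push_cast
    linear_combination h3
  obtain ⟨h2, h3⟩ := lin_eq_zero h1
  apply h
  constructor
  · refine ⟨a, ?_⟩
    have : (c : ℝ) = 2 * a := by linarith
    exact_mod_cast this
  · refine ⟨b, ?_⟩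
    have : (d : ℝ) = 2 * b := by linarith
    exact_mod_cast this

theorem disc_LP (N : ℕ) [NeZero N] (hN : Even (N - 1)) (τ : ℍ) (ω : ℂ) (hω : ω ≠ 0) :
    discriminant τ * Dl (LP τ ω hω) ^ (N - 1) =
      N ^ 12 * (Gk (LP τ ω hω) (ω / N) (N - 1) 0) ^ 4 * discriminant (Nτ N τ) := by
  have hN0 : (N : ℂ) ≠ 0 := by exact_mod_cast NeZero.ne N
  have hN1 : N - 1 + 1 = N := Nat.sub_add_cancel (Nat.one_le_iff_ne_zero.mpr (NeZero.ne N))
  have hω' : ω / N ≠ 0 := div_ne_zero hω hN0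
  have h := (isg_LP N hN τ ω hω hω').disc_eq (s := τ * ω / 2) (t := ω / 2)
    (by have := half_notMem τ ω hω (c := 1) (d := 0) (by decide)
        convert this using 1; push_cast; ring_nf)
    (by have := half_notMem τ ω hω (c := 0) (d := 1) (by decide)
        convert this using 1; push_cast; ring_nf)
    (by have := half_notMem τ ω hω (c := 1) (d := 1) (by decide)
        convert this using 1; push_cast; ring_nf)
    (mem_LP.mpr ⟨1, 0, by push_cast; ring⟩)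
    (mem_LP.mpr ⟨0, 1, by push_cast; ring⟩)
    (half_cov τ ω hω)
  rw [Dl_LP (Nτ N τ), pow_succ] at h
  nth_rewrite 2 [Dl_LP τ] at h
  have hpi : (π : ℂ) ≠ 0 := by exact_mod_cast Real.pi_ne_zero
  have h2 : (2 * (π : ℂ) / (ω / N)) ^ 12 = N ^ 12 * (2 * π / ω) ^ 12 := by
    field_simp
  rw [h2] at h
  have h3 : (2 * (π : ℂ) / ω) ^ 12 ≠ 0 := pow_ne_zero _ (div_ne_zero (mul_ne_zero two_ne_zero hpi) hω)
  apply mul_left_cancel₀ h3
  linear_combination h

end Fermat.Agent.MazY
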