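import Fermat.Agent.MazY.Cusps
import Fermat.Agent.GoodRed.S37Core
import Fermat.Agent.SSMod.GaussN

/-!
# Reduction of the functions `t`, `h`, `s`
-/

set_option autoImplicit false
set_option linter.unusedSectionVars false
set_option linter.style.haveILetI false
set_option synthInstance.maxHeartbeats 400000

noncomputable section

namespace Fermat.Agent.MazY

open AlgebraicCurve ModularCurve Fermat.Agent.Curves Fermat.Agent.GoodRed Fermat.Agent.GenusX0
open Fermat.Agent.ModFun Fermat.Agent.SSMod IsLocalRing IntermediateField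

section Along

variable {k F F' : Type*} [Field k] [Field F] [Field F'] [Algebra k F] [Algebra k F']
  [IsFunctionField k F] [IsFunctionField k F'] [IsAlgClosed k] (φ : F →ₐ[k] F')

theorem poleDivisor_along (hφ : φ.toRingHom.IsIntegral) (x : F) :
    Divisor.pullbackAlong φ hφ (poleDivisor (k := k) x) = poleDivisor (φ x) := by
  letI := algebraAlong φ
  haveI := isScalarTower_along φ
  haveI := isIntegral_along φ hφ
  haveI : FiniteDimensional F F' := finiteDimensional_of_isFunctionField (k := k)
  exact (poleDivisor_algebraMap x).symm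

theorem pullbackAlong_injective (hφ : φ.toRingHom.IsIntegral) :
    Function.Injective (Divisor.pullbackAlong φ hφ : Divisor k F →+ Divisor k F') := by
  rw [injective_iff_map_eq_zero]
  intro D hD
  obtain ⟨x, hx⟩ : ∃ x : F, Transcendental k x := by
    obtain ⟨x, hx, -⟩ := IsFunctionField.exists_transcendental (k := k) (F := F)
    exact ⟨x, hx⟩
  have h1 := pushforwardAlong_pullbackAlong φ hφ D
  rw [hD, map_zero] at h1
  ext v
  have h2 := DFunLike.congr_fun h1 v
  rw [Finsupp.smul_apply] at h2
  have h3 : finrankAlong k φ ≠ 0 := by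
    letI := algebraAlong φ
    haveI := isScalarTower_along φ
    haveI : FiniteDimensional F F' := finiteDimensional_of_isFunctionField (k := k)
    exact (Module.finrank_pos (R := F) (M := F')).ne'
  simp only [Finsupp.coe_zero, Pi.zero_apply] at h2 ⊢
  rw [nsmul_eq_mul] at h2
  exact (mul_eq_zero.mp h2.symm).resolve_left (by exact_mod_cast h3)

end Along

variable {K κ : Type} [Field K] [Field κ] {A : ValuationSubring K} (π : A →+* κ)
  [IsLocalHom π] [IsAlgClosed K] [IsAlgClosed κ] [CharZero K]

/-- levels with good charts -/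
theorem exists_good (ι : K →+* ℂ) (hπ : Function.Surjective π) (L : ℕ) (hL : (L : κ) ≠ 0) :
    ∃ M : ℕ, L ∣ M ∧ (M : κ) ≠ 0 ∧ HasGood π M := by
  have hL0 : L ≠ 0 := by rintro rfl; simp at hL
  haveI : NeZero L := ⟨hL0⟩
  have hLK : (L : K) ≠ 0 := by exact_mod_cast hL0
  by_cases h6 : (6 : κ) = 0
  · have h23 : (2 : κ) * 3 = 0 := by rw [← h6]; norm_num
    rcases mul_eq_zero.1 h23 with h2 | h3
    · have h3 : ((3 : ℕ) : κ) ≠ 0 := by
        intro h
        have : (1 : κ) = 3 - 2 := by norm_num
        push_cast at h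
        rw [h, h2, sub_zero] at this
        exact one_ne_zero this
      have h3Nκ : ((3 * L : ℕ) : κ) ≠ 0 := by
        push_cast; exact mul_ne_zero (by exact_mod_cast h3) hL
      have h3NK : ((3 * L : ℕ) : K) ≠ 0 := by
        push_cast; exact mul_ne_zero (by norm_num) hLK
      exact ⟨3 * L, Dvd.intro_left 3 rfl, h3Nκ,
        haup3.hasGood π (3 * L) ι hπ h3NK h3Nκ (by norm_num) h3 (Dvd.intro _ rfl)⟩
    · have h2 : ((2 : ℕ) : κ) ≠ 0 := by
        intro h
        have : (1 : κ) = 3 - 2 := by norm_num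
        push_cast at h
        rw [h, h3, sub_zero] at this
        exact one_ne_zero this.symm.symm
      have h2Nκ : ((2 * L : ℕ) : κ) ≠ 0 := by
        push_cast; exact mul_ne_zero (by exact_mod_cast h2) hL
      have h2NK : ((2 * L : ℕ) : K) ≠ 0 := by
        push_cast; exact mul_ne_zero (by norm_num) hLK
      exact ⟨2 * L, Dvd.intro_left 2 rfl, h2Nκ,
        haup2.hasGood π (2 * L) ι hπ h2NK h2Nκ (by norm_num) h2 (Dvd.intro _ rfl)⟩
  · exact ⟨L, dvd_rfl, hL, hasGood_of_six π L ι h6 hπ hLK hL⟩

/-- the reduction map of known degree -/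
theorem exists_R {N M : ℕ} [NeZero N] [NeZero M] (hNM : N ∣ M)
    (hG : HasGood π M) {E : IntermediateField K (LaurentSeries K)}
    (hE : E = modularFunctionFieldFullC K N) [IsFunctionField K E]
    [IsFunctionField κ (modularFunctionFieldFullC κ M)] :
    ∃ (R : Divisor K E →+ Divisor κ (modularFunctionFieldFullC κ M))
      (c : ℤ), PosDeg R c ∧ c * dedekindPsi N = dedekindPsi M ∧
      (∀ (f : E) (fb : modularFunctionFieldFullC κ M),
        LR π (f : LaurentSeries K) (fb : LaurentSeries κ) → fb ≠ 0 →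
          R (divisorOf f) = divisorOf fb) := by
  subst hE
  obtain ⟨hπ, hMK, hMκ', t, tb, h1, h2⟩ := hG
  haveI := isFunctionField_fullC K M hMK
  have hle := full_degeneracyC_le (K := K) hNM
  let ρ : modularFunctionFieldFullC K N →ₐ[K] modularFunctionFieldFullC K M :=
    IntermediateField.inclusion hle
  let R : Divisor K (modularFunctionFieldFullC K N) →+ Divisor κ (modularFunctionFieldFullC κ M) :=
    (redDiv h1 h2).comp (Divisor.pullbackAlong ρ (integralAlong ρ))
  refine ⟨R, _, (pullbackAlong_posDeg ρ (integralAlong ρ)).comp (redDiv_posDeg h1 h2), ?_, ?_⟩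
  · have h3 := (pullbackAlong_posDeg ρ (integralAlong ρ)).degree (poleDivisor (je K N))
    rw [poleDivisor_along] at h3
    have h4 : ρ (je K N) = je K M := rfl
    rw [h4, degree_poleDivisor transcendental_je, degree_poleDivisor transcendental_je,
      finrank_je, finrank_je] at h3
    rw [one_mul]
    exact h3.symm
  · intro f fb hLR hfb
    change redDiv h1 h2 (Divisor.pullbackAlong ρ (integralAlong ρ) (divisorOf f)) = _
    rw [pullbackAlong_divisorOf]
    exact redDiv_divisorOf h1 h2 ((modGauss_R π M).2 hLR) hfb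

theorem LR_uL (N : ℕ) [NeZero N] : LR π (uL K N) (uL κ N) := by
  have := LR.of (π := π) (DeltaSer A * qExpand A N (DeltaInvSer A))
  rw [map_mul, map_mul, coeffMap_qExpand, coeffMap_qExpand, coeffMap_DeltaSer, coeffMap_DeltaSer,
    coeffMap_DeltaInvSer, coeffMap_DeltaInvSer] at this
  exact this

theorem coe_const_mul {E : IntermediateField K (LaurentSeries K)} (c : K) (u : E) :
    ((algebraMap K E c * u : E) : LaurentSeries K) = HahnSeries.C c * (u : LaurentSeries K) := by
  rw [MulMemClass.coe_mul, ModFun.C_eq_algebraMap]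
  rfl

theorem uL_mem_red (hπ : Function.Surjective π) {N : ℕ} [NeZero N] (hNκ : (N : κ) ≠ 0)
    {E : IntermediateField K (LaurentSeries K)} (hE : E = modularFunctionFieldFullC K N) {u : E}
    (hu : (u : LaurentSeries K) = uL K N) : uL κ N ∈ modularFunctionFieldFullC κ N := by
  have huL : uL κ N ≠ 0 := by
    have h := (ld_Delta κ).mul ((ld_DeltaInv κ).qExpand N)
    rw [one_mul] at h
    intro h0
    have h2 := h.2
    change (uL κ N).coeff _ = 1 at h2
    rw [h0] at h2
    exact zero_ne_one h2
  have hLR : LR π (u : LaurentSeries K) (uL κ N) := by rw [hu]; exact LR_uL π N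
  have hu0 : u ≠ 0 := by
    rintro rfl
    exact huL (hLR.unique (LR.zero π))
  obtain ⟨c, fb, hc, hfb, h1⟩ := exists_scale π N hπ hNκ hE hu0
  have hmulC : ∀ a : κ, HahnSeries.C a = algebraMap κ (LaurentSeries κ) a := fun a => by
    rw [ModFun.C_eq_algebraMap]
  rw [coe_const_mul] at h1
  rcases A.mem_or_inv_mem c with hcA | hcA
  · have h2 : LR π (HahnSeries.C c * (u : LaurentSeries K))
        (HahnSeries.C (π ⟨c, hcA⟩) * uL κ N) := (LR.C (π := π) ⟨c, hcA⟩).mul hLR
    have h3 := h1.unique h2
    have h4 : π ⟨c, hcA⟩ ≠ 0 := by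
      intro h
      rw [h, map_zero, zero_mul] at h3
      exact hfb (Subtype.ext h3)
    have h5 : uL κ N = algebraMap κ (LaurentSeries κ) (π ⟨c, hcA⟩)⁻¹ * fb := by
      rw [h3, hmulC, ← mul_assoc, ← map_mul, inv_mul_cancel₀ h4, map_one, one_mul]
    rw [h5]
    exact mul_mem (IntermediateField.algebraMap_mem _ _) fb.2
  · have h2 : LR π (HahnSeries.C (c⁻¹) * (HahnSeries.C c * (u : LaurentSeries K)))
        (HahnSeries.C (π ⟨c⁻¹, hcA⟩) * (fb : LaurentSeries κ)) :=
      (LR.C (π := π) ⟨c⁻¹, hcA⟩).mul h1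
    have h6 : (HahnSeries.C (c⁻¹) * (HahnSeries.C c * (u : LaurentSeries K)) : LaurentSeries K) =
        (u : LaurentSeries K) := by
      rw [← mul_assoc, ← map_mul, inv_mul_cancel₀ hc, map_one, one_mul]
    rw [h6] at h2
    have h3 := hLR.unique h2
    rw [h3, hmulC]
    exact mul_mem (IntermediateField.algebraMap_mem _ _) fb.2

end Fermat.Agent.MazY
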