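import Fermat.Agent.MazY.Red

/-!
# The separation data at a place
-/

set_option autoImplicit false
set_option linter.unusedSectionVars false
set_option linter.style.haveILetI false
set_option synthInstance.maxHeartbeats 400000

noncomputable section

namespace Fermat.Agent.MazY

open AlgebraicCurve ModularCurve Fermat.Agent.Curves Fermat.Agent.GoodRed Fermat.Agent.GenusX0
open Fermat.Agent.ModFun Fermat.Agent.SSMod IsLocalRing IntermediateField

variable {K κ : Type} [Field K] [Field κ] {A : ValuationSubring K} {π : A →+* κ}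
  [IsLocalHom π] [IsAlgClosed K] [IsAlgClosed κ] [CharZero K]

theorem spc_of_LR {M : ℕ} {E : IntermediateField K (LaurentSeries K)} [IsFunctionField K E]
    [IsFunctionField κ (modularFunctionFieldFullC κ M)]
    {R : Divisor K E →+ Divisor κ (modularFunctionFieldFullC κ M)}
    (spec : ∀ (f : E) (fb : modularFunctionFieldFullC κ M),
        LR π (f : LaurentSeries K) (fb : LaurentSeries κ) → fb ≠ 0 →
          R (divisorOf f) = divisorOf fb) {f : E} {fb : modularFunctionFieldFullC κ M}
    (h : LR π (f : LaurentSeries K) (fb : LaurentSeries κ)) : Spc R π f fb := by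
  intro a ha
  refine spec _ _ ?_ ha
  exact SSMod.LR.sub h (LR.const π a)

theorem ord_const_zero {k F : Type*} [Field k] [Field F] [Algebra k F] (w : Place k F) {c : k} :
    w.ord (algebraMap k F c) = 0 := ord_algebraMap w c

theorem exists_supp' {F G : Type*} [Field F] [Field G] [Algebra K F] [Algebra κ G]
    [IsFunctionField K F] [IsFunctionField κ G] {R : Divisor K F →+ Divisor κ G} {c : ℤ}
    (pd : PosDeg R c) (hc : 0 < c) (P : Place K F) : ∃ Q, 0 < R (Finsupp.single P 1) Q := by
  by_contra hcon
  push Not at hcon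
  have h0 : R (Finsupp.single P 1) = 0 := by
    ext Q
    have h1 := hcon Q
    have h2 := pd.nonneg (Finsupp.single P 1) (by
      rw [Finsupp.single_nonneg]; norm_num) Q
    simp only [Finsupp.coe_zero, Pi.zero_apply] at h2 ⊢
    omega
  have h1 := pd.degree (Finsupp.single P 1)
  rw [h0, map_zero, Divisor.degree_single, deg_eq_one] at h1
  simp at h1
  omega

theorem tr_of_ne {G : Type*} [Field G] [Algebra κ G] [IsFunctionField κ G] {fb : G}
    {Q : Place κ G} (h : (divisorOf (k := κ) fb) Q ≠ 0) : Transcendental κ fb := by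
  rcases transcendental_or (k := κ) fb with h1 | ⟨d, rfl⟩
  · exact h1
  · exact absurd (by rw [divisorOf_apply, ord_const_zero]) h

set_option maxHeartbeats 1600000 in
/-- existence of the separation data -/
theorem exists_sep (hπ : Function.Surjective π) {N M : ℕ} [NeZero N]
    [NeZero M] (hNM : N ∣ M) (hMκ : (M : κ) ≠ 0) (hN : N.Prime)
    (hG : HasGood π M) {E : IntermediateField K (LaurentSeries K)}
    (hE : E = modularFunctionFieldFullC K N) [IsFunctionField K E]
    [IsFunctionField κ (modularFunctionFieldFullC κ M)] {Pj P0 : Place K E} {t u h s : E}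
    (C : CF K N Pj P0 t u h s) :
    ∃ (R : Divisor K E →+ Divisor κ (modularFunctionFieldFullC κ M))
      (c : ℤ) (tb hb sb : modularFunctionFieldFullC κ M), PosDeg R c ∧
      (∀ (f : E) (fb : modularFunctionFieldFullC κ M),
        LR π (f : LaurentSeries K) (fb : LaurentSeries κ) → fb ≠ 0 →
          R (divisorOf f) = divisorOf fb) ∧ Sep R c π Pj P0 N t h s tb hb sb := by
  classical
  obtain ⟨R, c, pd, hc, spec⟩ := exists_R π hNM hG hE
  have hNκ : (N : κ) ≠ 0 := by
    obtain ⟨d, rfl⟩ := hNM
    intro h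
    apply hMκ
    rw [Nat.cast_mul, h, zero_mul]
  have hle := full_degeneracyC_le (K := κ) hNM
  have hum := hle (uL_mem_red π hπ hNκ hE C.cu)
  have huL : uL κ N ≠ 0 := by
    have h := (ld_Delta κ).mul ((ld_DeltaInv κ).qExpand N)
    rw [one_mul] at h
    intro h0
    have h2 := h.2
    change (uL κ N).coeff _ = 1 at h2
    rw [h0] at h2
    exact zero_ne_one h2
  have hcpos : 0 < c := by
    have h1 : 0 < dedekindPsi M := Nat.pos_of_ne_zero (dedekindPsi_pos (NeZero.ne M))
    have h2 : 0 < dedekindPsi N := Nat.pos_of_ne_zero (dedekindPsi_pos (NeZero.ne N))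
    have h3 : (0 : ℤ) < c * dedekindPsi N := by rw [hc]; exact_mod_cast h1
    exact pos_of_mul_pos_left h3 (by positivity)
  let tb : modularFunctionFieldFullC κ M := (je κ M)⁻¹
  let ub : modularFunctionFieldFullC κ M := ⟨uL κ N, hum⟩
  let hb : modularFunctionFieldFullC κ M := ub * tb ^ (N - 1)
  let sb : modularFunctionFieldFullC κ M := tb / ub
  have hj0 : je κ M ≠ 0 := fun h => transcendental_je (k := κ) (N := M) (h ▸ isAlgebraic_zero)
  have htb0 : tb ≠ 0 := inv_ne_zero hj0
  have hub0 : ub ≠ 0 := fun h => huL (congrArg Subtype.val h)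
  have hhb0 : hb ≠ 0 := mul_ne_zero hub0 (pow_ne_zero _ htb0)
  have hsb0 : sb ≠ 0 := div_ne_zero htb0 hub0
  have t_tr : Transcendental κ tb := transcendental_je_inv
  -- reductions
  have LRt : LR π (t : LaurentSeries K) (tb : LaurentSeries κ) := by
    rw [C.ct]
    exact (LR_jq π).inv (fun h => hj0 (Subtype.ext h))
  have LRu : LR π (u : LaurentSeries K) (ub : LaurentSeries κ) := by
    rw [C.cu]; exact LR_uL π N
  have LRh : LR π (h : LaurentSeries K) (hb : LaurentSeries κ) := by
    rw [C.eh]
    have := LRu.mul (SSMod.LR.pow LRt (N - 1))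
    rwa [← SubmonoidClass.coe_pow, ← SubmonoidClass.coe_pow, ← MulMemClass.coe_mul,
      ← MulMemClass.coe_mul] at this
  have LRs : LR π (s : LaurentSeries K) (sb : LaurentSeries κ) := by
    rw [C.es]
    exact SSMod.LR.div LRt LRu huL
  have LRsi : LR π ((s⁻¹ : E) : LaurentSeries K)
      ((sb⁻¹ : modularFunctionFieldFullC κ M) : LaurentSeries κ) :=
    LRs.inv (fun h => hsb0 (Subtype.ext h))
  -- transcendence
  have hdeg : Divisor.degree (poleDivisor (k := κ) tb) =
      c * Divisor.degree (poleDivisor (k := K) t) := by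
    have e1 : Divisor.degree (poleDivisor (k := κ) tb) = dedekindPsi M := by
      rw [degree_poleDivisor t_tr]
      change (Module.finrank κ⟮(je κ M)⁻¹⟯ _ : ℤ) = _
      rw [finrank_adjoin_inv]
      exact congrArg _ (finrank_fullC κ M hMκ)
    have e2 : Divisor.degree (poleDivisor (k := K) t) = dedekindPsi N := by
      have e3 : divisorOf (k := K) t = poleDivisor t⁻¹ - poleDivisor t := divisorOf_eq t
      have e4 := congrArg Divisor.degree e3
      rw [degree_divisorOf, map_sub, C.t_div hN, map_add, map_nsmul, Divisor.degree_single,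
        Divisor.degree_single, deg_eq_one, deg_eq_one] at e4
      rw [psi_prime hN]
      push_cast at e4 ⊢
      simp at e4
      omega
    rw [e1, e2, hc]
  have hdt : R (divisorOf t) = divisorOf tb := spec t tb LRt htb0
  obtain ⟨rp, rz⟩ := R_pole pd hdt hdeg
  obtain ⟨Q, hQ⟩ := exists_supp' pd hcpos P0
  have hNpos : (0 : ℤ) < N := by exact_mod_cast hN.pos
  have hpos : 0 < (N : ℤ) * R (Finsupp.single P0 1) Q := mul_pos hNpos hQ
  have hn1 := pd.nonneg (Finsupp.single Pj 1) (by
    rw [Finsupp.single_nonneg]; norm_num) Q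
  simp only [Finsupp.coe_zero, Pi.zero_apply] at hn1
  have hpos' : 0 ≤ (N : ℤ) * R (Finsupp.single Pj 1) Q := mul_nonneg hNpos.le hn1
  have hp0 : R (poleDivisor t) Q = 0 := by
    have hz := DFunLike.congr_fun rz Q
    rw [C.t_div hN, map_add, map_nsmul, Finsupp.add_apply, Finsupp.smul_apply,
      nsmul_eq_mul, poleDivisor_apply, Q.ord_inv] at hz
    rw [rp, poleDivisor_apply]
    omega
  have h_tr : Transcendental κ hb := by
    refine tr_of_ne (Q := Q) ?_
    rw [← spec h hb LRh hhb0, divisorOf_eq, map_sub, Finsupp.sub_apply]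
    obtain ⟨m, hm⟩ := C.h_pol hN
    have hp1 := mono pd hm Q
    rw [map_nsmul, Finsupp.smul_apply, hp0, smul_zero] at hp1
    have hd2 := mono pd (single_le_zeros (C.h_zero hN)) Q
    omega
  have s_tr : Transcendental κ sb := by
    refine tr_of_ne (Q := Q) ?_
    rw [← spec s sb LRs hsb0, divisorOf_eq, map_sub, Finsupp.sub_apply, C.s_pol hN, hp0,
      C.s_zer hN, map_add, map_nsmul, Finsupp.add_apply, Finsupp.smul_apply, nsmul_eq_mul]
    omega
  exact ⟨R, c, tb, hb, sb, pd, spec, ⟨pd, hcpos, t_tr, h_tr, s_tr, spc_of_LR spec LRt,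
    spc_of_LR spec LRh, spc_of_LR spec LRs, spc_of_LR spec LRsi, hdeg, C.t_div hN, C.s_zer hN,
    C.s_pol hN, C.h_pol hN, C.hj, C.h_zero hN, zero_ne_one⟩⟩

end Fermat.Agent.MazY
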