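import Fermat.Agent.GoodRed.Rigid

/-!
# Separation of places in the residue discs of two cusps (abstract form)
-/

set_option autoImplicit false
set_option linter.unusedSectionVars false
set_option linter.style.haveILetI false

noncomputable section

namespace Fermat.Agent.MazY

open AlgebraicCurve Fermat.Agent.Curves Fermat.Agent.GoodRed

section Basic

variable {K F : Type*} [Field K] [Field F] [Algebra K F] [IsAlgClosed K] [IsFunctionField K F]

theorem eq_zero_of_degree {D : Divisor K F} (h0 : 0 ≤ D) (hd : Divisor.degree D = 0) : D = 0 := by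
  classical
  rw [degree_eq_sum, Finsupp.sum, Finset.sum_eq_zero_iff_of_nonneg (fun w _ => h0 w)] at hd
  ext w
  by_cases hw : w ∈ D.support
  · exact hd w hw
  · exact Finsupp.notMem_support_iff.mp hw

theorem eq_of_le_of_degree {D E : Divisor K F} (h : D ≤ E)
    (hd : Divisor.degree E ≤ Divisor.degree D) : D = E := by
  have h1 : 0 ≤ E - D := sub_nonneg.mpr h
  have h2 := pos_of_nonneg_degree _ h1
  rw [map_sub] at h2
  have h3 := eq_zero_of_degree h1 (by rw [map_sub]; omega)
  exact (sub_eq_zero.mp h3).symm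

theorem ord_sub_of_neg (w : Place K F) {f : F} (a : K) (h : w.ord f < 0) :
    w.ord (f - algebraMap K F a) = w.ord f := by
  have hf : f ≠ 0 := by rintro rfl; simp at h
  by_cases ha : a = 0
  · rw [ha, map_zero, sub_zero]
  have ha' : algebraMap K F a ≠ 0 := by simpa using ha
  have hne : f - algebraMap K F a ≠ 0 := by
    intro h0
    rw [sub_eq_zero] at h0
    rw [h0, ord_algebraMap] at h
    omega
  have h1 := ord_add w (f := f) (g := -algebraMap K F a) (by rwa [← sub_eq_add_neg]) hf
    (neg_ne_zero.mpr ha')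
  rw [← sub_eq_add_neg, ord_neg, ord_algebraMap] at h1
  have h2 := ord_add w (f := f - algebraMap K F a) (g := algebraMap K F a)
    (by rw [sub_add_cancel]; exact hf) hne ha'
  rw [sub_add_cancel, ord_algebraMap] at h2
  omega

theorem ord_sub_of_nonneg (w : Place K F) {f : F} (a : K) (h : 0 ≤ w.ord f) :
    0 ≤ w.ord (f - algebraMap K F a) := by
  by_contra hlt
  push Not at hlt
  have h1 := ord_sub_of_neg w (f := f - algebraMap K F a) (-a) hlt
  rw [map_neg, sub_neg_eq_add, sub_add_cancel] at h1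
  omega

theorem poleDivisor_sub (f : F) (a : K) :
    poleDivisor (k := K) (f - algebraMap K F a) = poleDivisor f := by
  ext w
  rw [poleDivisor_apply, poleDivisor_apply]
  rcases lt_or_ge (w.ord f) 0 with h | h
  · rw [ord_sub_of_neg w a h]
  · have := ord_sub_of_nonneg w a h
    omega

theorem ord_const_unique (w : Place K F) {f : F} {a b : K}
    (h1 : 0 < w.ord (f - algebraMap K F a)) (h2 : 0 < w.ord (f - algebraMap K F b)) : a = b := by
  by_contra hab
  have h3 : f - algebraMap K F a ≠ 0 := by intro h; rw [h] at h1; simp at h1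
  have h4 : f - algebraMap K F b ≠ 0 := by intro h; rw [h] at h2; simp at h2
  have e : (f - algebraMap K F a) + -(f - algebraMap K F b) = algebraMap K F (b - a) := by
    rw [map_sub]; ring
  have h5 : algebraMap K F (b - a) ≠ 0 := by
    rw [Ne, map_eq_zero, sub_eq_zero]
    exact fun h => hab h.symm
  have h6 := ord_add w (f := f - algebraMap K F a) (g := -(f - algebraMap K F b))
    (by rw [e]; exact h5) h3 (neg_ne_zero.mpr h4)
  rw [e, ord_algebraMap, ord_neg] at h6
  omega

theorem single_le_zeros {P : Place K F} {f : F} (h : 0 < P.ord f) :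
    (Finsupp.single P 1 : Divisor K F) ≤ poleDivisor f⁻¹ := by
  classical
  intro w
  rw [poleDivisor_apply, w.ord_inv, Finsupp.single_apply]
  split_ifs with hw
  · subst hw; omega
  · exact le_max_left _ _

end Basic

variable {K F κ G : Type*} [Field K] [Field F] [Algebra K F] [IsAlgClosed K] [IsFunctionField K F]
  [Field κ] [Field G] [Algebra κ G] [IsAlgClosed κ] [IsFunctionField κ G]
  {A : ValuationSubring K} {π : A →+* κ}
  {R : Divisor K F →+ Divisor κ G} {c : ℤ}

/-- `fb` is a good reduction of `f` -/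
def Spc (R : Divisor K F →+ Divisor κ G) (π : A →+* κ) (f : F) (fb : G) : Prop :=
  ∀ a : A, fb - algebraMap κ G (π a) ≠ 0 →
    R (divisorOf (f - algebraMap K F a)) = divisorOf (fb - algebraMap κ G (π a))

theorem mono (h : PosDeg R c) {D E : Divisor K F} (hDE : D ≤ E) : R D ≤ R E := by
  have := h.nonneg (E - D) (sub_nonneg.mpr hDE)
  rw [map_sub] at this
  exact sub_nonneg.mp this

theorem sub_const_ne {fb : G} (h : Transcendental κ fb) (a : κ) : fb - algebraMap κ G a ≠ 0 := by
  intro h0
  rw [sub_eq_zero] at h0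
  exact h (h0 ▸ isAlgebraic_algebraMap a)

/-- labels -/
theorem label (hR : PosDeg R c) {f : F} {fb : G} (hf : Spc R π f fb) (hfb : Transcendental κ fb)
    {P : Place K F} {a : A} (hP : 0 < P.ord (f - algebraMap K F a)) {Q : Place κ G}
    (hQ : 0 < R (Finsupp.single P 1) Q) (hpole : R (poleDivisor f) Q = 0) :
    0 < Q.ord (fb - algebraMap κ G (π a)) := by
  have h1 := DFunLike.congr_fun (hf a (sub_const_ne hfb _)) Q
  rw [divisorOf_eq, map_sub, poleDivisor_sub, Finsupp.sub_apply, hpole, sub_zero,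
    divisorOf_apply] at h1
  have h2 := mono hR (single_le_zeros hP) Q
  omega

/-- poles reduce to poles when the degrees agree -/
theorem R_pole (hR : PosDeg R c) {f : F} {fb : G} (hf : R (divisorOf f) = divisorOf fb)
    (hdeg : Divisor.degree (poleDivisor (k := κ) fb) = c * Divisor.degree (poleDivisor (k := K) f)) :
    R (poleDivisor f) = poleDivisor fb ∧ R (poleDivisor f⁻¹) = poleDivisor fb⁻¹ := by
  have h1 : R (poleDivisor f) = poleDivisor fb := by
    refine (eq_of_le_of_degree ?_ ?_).symm
    · intro Q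
      have h2 := DFunLike.congr_fun hf Q
      rw [divisorOf_eq, map_sub, Finsupp.sub_apply, divisorOf_apply] at h2
      have h3 := hR.nonneg _ (poleDivisor_nonneg (k := K) f) Q
      have h4 := hR.nonneg _ (poleDivisor_nonneg (k := K) f⁻¹) Q
      simp only [Finsupp.coe_zero, Pi.zero_apply] at h3 h4
      rw [poleDivisor_apply]
      omega
    · rw [hR.degree, hdeg]
  refine ⟨h1, ?_⟩
  rw [divisorOf_eq, divisorOf_eq, map_sub, h1] at hf
  exact sub_left_injective hf

/-- data for the separation of two cusps -/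
structure Sep (R : Divisor K F →+ Divisor κ G) (c : ℤ) (π : A →+* κ) (Pj P0 : Place K F) (N : ℕ)
    (t h s : F) (tb hb sb : G) : Prop where
  pd : PosDeg R c
  cpos : 0 < c
  t_tr : Transcendental κ tb
  h_tr : Transcendental κ hb
  s_tr : Transcendental κ sb
  t_sp : Spc R π t tb
  h_sp : Spc R π h hb
  s_sp : Spc R π s sb
  si_sp : Spc R π s⁻¹ sb⁻¹
  deg : Divisor.degree (poleDivisor (k := κ) tb) = c * Divisor.degree (poleDivisor (k := K) t)
  t_div : poleDivisor (k := K) t⁻¹ = Finsupp.single Pj 1 + N • Finsupp.single P0 1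
  s_zer : poleDivisor (k := K) s⁻¹ = Finsupp.single P0 1 + N • Finsupp.single Pj 1
  s_pol : poleDivisor (k := K) s = poleDivisor t
  h_pol : ∃ m : ℕ, poleDivisor (k := K) h ≤ m • poleDivisor t
  h_inf : 0 < Pj.ord (h - 1)
  h_zero : 0 < P0.ord h
  ne : (0 : κ) ≠ 1

namespace Sep

variable {Pj P0 : Place K F} {N : ℕ} {t h s : F} {tb hb sb : G}
  (S : Sep R c π Pj P0 N t h s tb hb sb)

include S

theorem zero_sp {f : F} {fb : G} (hf : Spc R π f fb) (htr : Transcendental κ fb) {a : A}
    (ha : π a = 0) : R (divisorOf (f - algebraMap K F a)) = divisorOf fb := by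
  have := hf a (sub_const_ne htr _)
  rw [ha, map_zero, sub_zero] at this
  exact this

theorem R_t : R (poleDivisor t) = poleDivisor tb ∧ R (poleDivisor t⁻¹) = poleDivisor tb⁻¹ := by
  refine R_pole S.pd ?_ S.deg
  have := S.zero_sp S.t_sp S.t_tr (a := 0) (map_zero _)
  rwa [ZeroMemClass.coe_zero, map_zero, sub_zero] at this

/-- near the cusps -/
theorem R_zeros_t {a : A} (ha : π a = 0) :
    R (poleDivisor (t - algebraMap K F a)⁻¹) =
      R (Finsupp.single Pj 1) + N • R (Finsupp.single P0 1) := by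
  have h1 := S.zero_sp S.t_sp S.t_tr ha
  rw [divisorOf_eq, map_sub, poleDivisor_sub, S.R_t.1, divisorOf_eq, ← S.R_t.2, S.t_div, map_add,
    map_nsmul] at h1
  exact sub_left_injective h1

theorem R_zeros_s {a : A} (ha : π a = 0) :
    R (poleDivisor (s - algebraMap K F a)⁻¹) =
      R (Finsupp.single P0 1) + N • R (Finsupp.single Pj 1) := by
  have h1 := S.zero_sp S.s_sp S.s_tr ha
  have h0 := S.zero_sp S.s_sp S.s_tr (a := 0) (map_zero _)
  rw [ZeroMemClass.coe_zero, map_zero, sub_zero] at h0
  rw [← h0, divisorOf_eq, divisorOf_eq, map_sub, map_sub, poleDivisor_sub, S.s_zer, map_add,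
    map_nsmul] at h1
  exact sub_left_injective h1

/-- a point of the support of the reduction of a place near the cusps is not a pole of `t` -/
theorem no_pole {Q : Place κ G}
    (hQ : 0 < (R (Finsupp.single Pj 1) + N • R (Finsupp.single P0 1) : Divisor κ G) Q) :
    R (poleDivisor t) Q = 0 ∧ R (poleDivisor h) Q = 0 ∧ R (poleDivisor s) Q = 0 := by
  have h1 : R (poleDivisor t) Q = 0 := by
    rw [S.R_t.1, poleDivisor_apply]
    have h2 := DFunLike.congr_fun S.R_t.2 Q
    rw [S.t_div, map_add, map_nsmul, poleDivisor_apply, Q.ord_inv] at h2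
    omega
  refine ⟨h1, ?_, by rw [S.s_pol, h1]⟩
  obtain ⟨m, hm⟩ := S.h_pol
  have h2 := mono S.pd hm Q
  have h3 := S.pd.nonneg _ (poleDivisor_nonneg (k := K) h) Q
  rw [map_nsmul, Finsupp.smul_apply, h1, smul_zero] at h2
  simp only [Finsupp.coe_zero, Pi.zero_apply] at h3
  omega

theorem nn (P : Place K F) (Q : Place κ G) : 0 ≤ R (Finsupp.single P 1) Q := by
  refine S.pd.nonneg _ ?_ Q
  rw [Finsupp.single_nonneg]
  norm_num

theorem lab_inf {Q : Place κ G} (hQ : 0 < R (Finsupp.single Pj 1) Q) :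
    0 < Q.ord (hb - algebraMap κ G 1) := by
  have hn := S.no_pole (Q := Q) (by
    rw [Finsupp.add_apply, Finsupp.smul_apply, nsmul_eq_mul]
    have := S.nn P0 Q
    positivity)
  have := label S.pd S.h_sp S.h_tr (P := Pj) (a := 1) (by
    rw [OneMemClass.coe_one, map_one]; exact S.h_inf) hQ hn.2.1
  rwa [map_one] at this

theorem lab_zero (hN : 0 < N) {Q : Place κ G} (hQ : 0 < R (Finsupp.single P0 1) Q) :
    0 < Q.ord (hb - algebraMap κ G 0) := by
  have hn := S.no_pole (Q := Q) (by
    rw [Finsupp.add_apply, Finsupp.smul_apply, nsmul_eq_mul]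
    have := S.nn Pj Q
    have h2 : (0 : ℤ) < N := by exact_mod_cast hN
    positivity)
  have := label S.pd S.h_sp S.h_tr (P := P0) (a := 0) (by
    rw [ZeroMemClass.coe_zero, map_zero, sub_zero]; exact S.h_zero) hQ hn.2.1
  rwa [map_zero] at this

/-- the two reductions are disjoint -/
theorem disj (hN : 0 < N) (Q : Place κ G) (h1 : 0 < R (Finsupp.single Pj 1) Q)
    (h2 : 0 < R (Finsupp.single P0 1) Q) : False :=
  S.ne (ord_const_unique Q (S.lab_zero hN h2) (S.lab_inf h1))

theorem exists_supp (P : Place K F) : ∃ Q, 0 < R (Finsupp.single P 1) Q := by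
  by_contra hcon
  push Not at hcon
  have h0 : R (Finsupp.single P 1) = 0 := by
    ext Q
    have := S.nn P Q
    have := hcon Q
    simp only [Finsupp.coe_zero, Pi.zero_apply]
    omega
  have h1 := S.pd.degree (Finsupp.single P 1)
  rw [h0, map_zero, Divisor.degree_single, deg_eq_one] at h1
  have := S.cpos
  simp at h1
  omega

theorem degree_R (P : Place K F) : Divisor.degree (R (Finsupp.single P 1)) = c := by
  rw [S.pd.degree, Divisor.degree_single, deg_eq_one]
  simp

/-- the label of a place near the cusps is `0` or `1` -/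
theorem near (hN : 0 < N) {P : Place K F} {a b : A} (ha : π a = 0)
    (hta : 0 < P.ord (t - algebraMap K F a)) (hhb : 0 < P.ord (h - algebraMap K F b))
    {Q : Place κ G} (hQ : 0 < R (Finsupp.single P 1) Q) :
    (π b = 1 ∧ 0 < R (Finsupp.single Pj 1) Q ∧ R (Finsupp.single P0 1) Q = 0) ∨
    (π b = 0 ∧ 0 < R (Finsupp.single P0 1) Q ∧ R (Finsupp.single Pj 1) Q = 0) := by
  have h1 := mono S.pd (single_le_zeros hta) Q
  rw [S.R_zeros_t ha] at h1
  have hn := S.no_pole (Q := Q) (by omega)
  have hl := label S.pd S.h_sp S.h_tr hhb hQ hn.2.1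
  rw [Finsupp.add_apply, Finsupp.smul_apply, nsmul_eq_mul] at h1
  have n1 := S.nn Pj Q
  have n2 := S.nn P0 Q
  rcases lt_or_eq_of_le n1 with h2 | h2
  · left
    refine ⟨ord_const_unique Q hl (S.lab_inf h2), h2, ?_⟩
    by_contra h3
    exact S.disj hN Q h2 (by omega)
  · right
    have h3 : 0 < R (Finsupp.single P0 1) Q := by
      rcases lt_or_eq_of_le n2 with h3 | h3
      · exact h3
      · rw [← h2, ← h3] at h1
        simp at h1
        omega
    exact ⟨ord_const_unique Q hl (S.lab_zero hN h3), h3, h2.symm⟩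

theorem near_label (hN : 0 < N) {P : Place K F} {a b : A} (ha : π a = 0)
    (hta : 0 < P.ord (t - algebraMap K F a)) (hhb : 0 < P.ord (h - algebraMap K F b)) :
    π b = 1 ∨ π b = 0 := by
  obtain ⟨Q, hQ⟩ := S.exists_supp P
  rcases S.near hN ha hta hhb hQ with h | h
  · exact Or.inl h.1
  · exact Or.inr h.1

/-- near `∞` -/
theorem near_inf (hN : 0 < N) {P : Place K F} {a b : A} (ha : π a = 0) (hb1 : π b = 1)
    (hta : 0 < P.ord (t - algebraMap K F a)) (hhb : 0 < P.ord (h - algebraMap K F b)) :
    R (Finsupp.single P 1) = R (Finsupp.single Pj 1) := by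
  refine eq_of_le_of_degree ?_ (by rw [S.degree_R, S.degree_R])
  intro Q
  rcases lt_or_eq_of_le (S.nn P Q) with h1 | h1
  · rcases S.near hN ha hta hhb h1 with h2 | h2
    · have h3 := mono S.pd (single_le_zeros hta) Q
      rw [S.R_zeros_t ha, Finsupp.add_apply, Finsupp.smul_apply, h2.2.2, smul_zero, add_zero] at h3
      exact h3
    · exact absurd (h2.1.symm.trans hb1) S.ne
  · rw [← h1]
    exact S.nn Pj Q

theorem pair_le_zeros {f : F} {P P' : Place K F} (hne : P ≠ P') (h1 : 0 < P.ord f)
    (h2 : 0 < P'.ord f) :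
    (Finsupp.single P 1 + Finsupp.single P' 1 : Divisor K F) ≤ poleDivisor f⁻¹ := by
  classical
  intro w
  rw [poleDivisor_apply, w.ord_inv, Finsupp.add_apply, Finsupp.single_apply, Finsupp.single_apply]
  split_ifs with hw hw' hw'
  · exact absurd (hw.trans hw'.symm) hne
  · subst hw; omega
  · subst hw'; omega
  · exact le_max_left _ _

/-- uniqueness near `∞` -/
theorem unique_inf (hN : 0 < N) {P P' : Place K F} {a b : A} (ha : π a = 0) (hb1 : π b = 1)
    (hta : 0 < P.ord (t - algebraMap K F a)) (hhb : 0 < P.ord (h - algebraMap K F b))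
    (hta' : 0 < P'.ord (t - algebraMap K F a)) (hhb' : 0 < P'.ord (h - algebraMap K F b)) :
    P = P' := by
  by_contra hne
  obtain ⟨Q, hQ⟩ := S.exists_supp P
  have e1 := S.near_inf hN ha hb1 hta hhb
  have e2 := S.near_inf hN ha hb1 hta' hhb'
  rcases S.near hN ha hta hhb hQ with h2 | h2
  · have h3 := mono S.pd (S.pair_le_zeros hne hta hta') Q
    rw [S.R_zeros_t ha, Finsupp.add_apply, Finsupp.smul_apply, h2.2.2, smul_zero, add_zero,
      map_add, Finsupp.add_apply, e1, e2] at h3
    omega
  · exact absurd (h2.1.symm.trans hb1) S.ne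

/-- `s` is small near `0` -/
theorem s_small (hN : 0 < N) {P : Place K F} {a b : A} (ha : π a = 0) (hb0 : π b = 0)
    (hta : 0 < P.ord (t - algebraMap K F a)) (hhb : 0 < P.ord (h - algebraMap K F b))
    {d : A} (hd : 0 < P.ord (s⁻¹ - algebraMap K F d)) : False := by
  obtain ⟨Q, hQ⟩ := S.exists_supp P
  rcases S.near hN ha hta hhb hQ with h2 | ⟨-, h2, h3⟩
  · exact S.ne (hb0.symm.trans h2.1)
  have hn := S.no_pole (Q := Q) (by
    rw [Finsupp.add_apply, Finsupp.smul_apply, nsmul_eq_mul, h3, zero_add]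
    have h2 : (0 : ℤ) < N := by exact_mod_cast hN
    positivity)
  -- order of `sb`
  have h4 : Q.ord sb = R (Finsupp.single P0 1) Q := by
    have h0 := S.zero_sp S.s_sp S.s_tr (a := 0) (map_zero _)
    rw [ZeroMemClass.coe_zero, map_zero, sub_zero, divisorOf_eq, map_sub, S.s_zer, map_add,
      map_nsmul] at h0
    have h5 := DFunLike.congr_fun h0 Q
    rw [Finsupp.sub_apply, Finsupp.add_apply, Finsupp.smul_apply, h3, smul_zero, add_zero, hn.2.2,
      sub_zero, divisorOf_apply] at h5
    exact h5.symm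
  have h6 : Transcendental κ sb⁻¹ := fun h => S.s_tr (by simpa using h.inv)
  have h7 := DFunLike.congr_fun (S.si_sp d (sub_const_ne h6 _)) Q
  rw [divisorOf_eq, map_sub, poleDivisor_sub, S.s_zer, map_add, map_nsmul, Finsupp.sub_apply,
    Finsupp.add_apply, Finsupp.smul_apply, h3, smul_zero, add_zero, divisorOf_apply,
    ord_sub_of_neg Q _ (by rw [Q.ord_inv]; omega), Q.ord_inv, h4] at h7
  have h8 := mono S.pd (single_le_zeros hd) Q
  omega

/-- near `0` -/
theorem near_zero (hN : 0 < N) {P : Place K F} {a b d : A} (ha : π a = 0) (hb0 : π b = 0)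
    (hta : 0 < P.ord (t - algebraMap K F a)) (hhb : 0 < P.ord (h - algebraMap K F b))
    (hd0 : π d = 0) (hd : 0 < P.ord (s - algebraMap K F d)) :
    R (Finsupp.single P 1) = R (Finsupp.single P0 1) := by
  refine eq_of_le_of_degree ?_ (by rw [S.degree_R, S.degree_R])
  intro Q
  rcases lt_or_eq_of_le (S.nn P Q) with h1 | h1
  · rcases S.near hN ha hta hhb h1 with h2 | h2
    · exact absurd (hb0.symm.trans h2.1) S.ne
    · have h3 := mono S.pd (single_le_zeros hd) Q
      rw [S.R_zeros_s hd0, Finsupp.add_apply, Finsupp.smul_apply, h2.2.2, smul_zero, add_zero] at h3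
      exact h3
  · rw [← h1]
    exact S.nn P0 Q

/-- uniqueness near `0` -/
theorem unique_zero (hN : 0 < N) {P P' : Place K F} {a b d : A} (ha : π a = 0) (hb0 : π b = 0)
    (hd0 : π d = 0)
    (hta : 0 < P.ord (t - algebraMap K F a)) (hhb : 0 < P.ord (h - algebraMap K F b))
    (hd : 0 < P.ord (s - algebraMap K F d))
    (hta' : 0 < P'.ord (t - algebraMap K F a)) (hhb' : 0 < P'.ord (h - algebraMap K F b))
    (hd' : 0 < P'.ord (s - algebraMap K F d)) :
    P = P' := by
  by_contra hne
  obtain ⟨Q, hQ⟩ := S.exists_supp P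
  have e1 := S.near_zero hN ha hb0 hta hhb hd0 hd
  have e2 := S.near_zero hN ha hb0 hta' hhb' hd0 hd'
  rcases S.near hN ha hta hhb hQ with h2 | h2
  · exact absurd (hb0.symm.trans h2.1) S.ne
  · have h3 := mono S.pd (S.pair_le_zeros hne hd hd') Q
    rw [S.R_zeros_s hd0, Finsupp.add_apply, Finsupp.smul_apply, h2.2.2, smul_zero, add_zero,
      map_add, Finsupp.add_apply, e1, e2] at h3
    omega

end Sep

end Fermat.Agent.MazY
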