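import Fermat.Agent.MazY.Liou

/-!
# Uniformisation of elliptic curves by `℘`
-/

set_option autoImplicit false

noncomputable section

namespace Fermat.Agent.MazY

open Filter Topology WeierstrassCurve

variable (L : PeriodPair)

local notation "℘" => PeriodPair.weierstrassP L
local notation "℘'" => PeriodPair.derivWeierstrassP L

/-! ### limits at the origin -/

theorem tendsto_sq_mul_wp : Tendsto (fun z => z ^ 2 * ℘ z) (𝓝[≠] 0) (𝓝 1) := by
  have h1 : ∀ z : ℂ, z ≠ 0 → z ^ 2 * ℘ z = z ^ 2 * L.weierstrassPExcept 0 z + 1 := by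
    intro z hz
    have h2 := L.weierstrassPExcept_add ⟨0, zero_mem _⟩ z
    simp only at h2
    rw [← h2, sub_zero, zero_pow two_ne_zero, div_zero, sub_zero]
    field_simp
  have h3 : ContinuousAt (L.weierstrassPExcept 0) 0 :=
    (L.analyticAt_weierstrassPExcept 0).continuousAt
  have h4 : Tendsto (fun z : ℂ => z ^ 2 * L.weierstrassPExcept 0 z + 1) (𝓝 0) (𝓝 1) := by
    have h5 : ContinuousAt (fun z : ℂ => z ^ 2 * L.weierstrassPExcept 0 z + 1) 0 :=
      ((continuousAt_id.pow 2).mul h3).add continuousAt_const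
    have h6 := h5.tendsto
    simpa using h6
  refine (h4.mono_left nhdsWithin_le_nhds).congr' ?_
  filter_upwards [self_mem_nhdsWithin] with z hz
  exact (h1 z hz).symm

theorem tendsto_cube_mul_wp' : Tendsto (fun z => z ^ 3 * ℘' z) (𝓝[≠] 0) (𝓝 (-2)) := by
  have h1 : ∀ z : ℂ, z ≠ 0 → z ^ 3 * ℘' z = z ^ 3 * L.derivWeierstrassPExcept 0 z - 2 := by
    intro z hz
    have h2 := L.derivWeierstrassPExcept_sub ⟨0, zero_mem _⟩ z
    simp only at h2
    rw [← h2, sub_zero]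
    field_simp
  have h3 : ContinuousAt (L.derivWeierstrassPExcept 0) 0 :=
    (L.analyticAt_derivWeierstrassPExcept 0).continuousAt
  have h4 : Tendsto (fun z : ℂ => z ^ 3 * L.derivWeierstrassPExcept 0 z - 2) (𝓝 0) (𝓝 (-2)) := by
    have h5 : ContinuousAt (fun z : ℂ => z ^ 3 * L.derivWeierstrassPExcept 0 z - 2) 0 :=
      ((continuousAt_id.pow 3).mul h3).sub continuousAt_const
    have h6 := h5.tendsto
    simpa using h6
  refine (h4.mono_left nhdsWithin_le_nhds).congr' ?_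
  filter_upwards [self_mem_nhdsWithin] with z hz
  exact (h1 z hz).symm

theorem tendsto_shift (c : ℂ) {f : ℂ → ℂ} {s : Filter ℂ} :
    Tendsto (fun z => f (c + z)) (𝓝[≠] 0) s ↔ Tendsto f (𝓝[≠] c) s := by
  have h1 : map (fun z => c + z) (𝓝[≠] (0 : ℂ)) = 𝓝[≠] c := by
    have := (Homeomorph.addLeft c).map_punctured_nhds_eq 0
    simpa using this
  rw [← h1, tendsto_map'_iff]
  exact Iff.rfl

theorem wp'_order_ne_top (z : ℂ) : meromorphicOrderAt ℘' z ≠ ⊤ := by
  intro h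
  have h1 : meromorphicOrderAt ℘' 0 = ⊤ := by
    by_contra h2
    have h3 := (MeromorphicOn.exists_meromorphicOrderAt_ne_top_iff_forall
      (f := ℘') (U := Set.univ) (fun z _ => L.meromorphic_derivWeierstrassP z)
      isConnected_univ).1 ⟨⟨0, Set.mem_univ _⟩, h2⟩ ⟨z, Set.mem_univ _⟩
    exact h3 h
  rw [meromorphicOrderAt_eq_top_iff] at h1
  have h4 : Tendsto (fun z => z ^ 3 * ℘' z) (𝓝[≠] 0) (𝓝 0) := by
    refine tendsto_const_nhds.congr' ?_
    filter_upwards [h1] with z hz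
    rw [hz, mul_zero]
  have := tendsto_nhds_unique h4 (tendsto_cube_mul_wp' L)
  norm_num at this

theorem eventually_notMem {z : ℂ} : ∀ᶠ w in 𝓝[≠] z, w ∉ L.lattice := by
  have h := L.compl_lattice_sdiff_singleton_mem_nhds z
  filter_upwards [self_mem_nhdsWithin, mem_nhdsWithin_of_mem_nhds h] with w hw hw2 hw3
  exact hw2 ⟨hw3, hw⟩

/-- the second derivative -/
theorem hasDerivAt_wp' {z : ℂ} (hz : z ∉ L.lattice) :
    HasDerivAt ℘' (6 * ℘ z ^ 2 - L.g₂ / 2) z := by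
  have ha := analyticAt_wp' (L := L) hz
  have hop : (L.lattice : Set ℂ)ᶜ ∈ 𝓝 z := L.isClosed_lattice.isOpen_compl.mem_nhds hz
  -- the relation between derivatives
  have h1 : ∀ w, w ∉ L.lattice → ℘' w * (deriv ℘' w - (6 * ℘ w ^ 2 - L.g₂ / 2)) = 0 := by
    intro w hw
    have e1 : (fun w => ℘' w ^ 2) =ᶠ[𝓝 w] fun w => 4 * ℘ w ^ 3 - L.g₂ * ℘ w - L.g₃ := by
      filter_upwards [L.isClosed_lattice.isOpen_compl.mem_nhds hw] with u hu
      exact L.derivWeierstrassP_sq u hu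
    have d1 : HasDerivAt (fun w => ℘' w ^ 2) (2 * ℘' w * deriv ℘' w) w := by
      have := ((analyticAt_wp' (L := L) hw).differentiableAt.hasDerivAt).fun_pow 2
      simpa using this
    have d2 : HasDerivAt (fun w => 4 * ℘ w ^ 3 - L.g₂ * ℘ w - L.g₃)
        (4 * (3 * ℘ w ^ 2 * ℘' w) - L.g₂ * ℘' w) w := by
      have h3 := (((hasDerivAt_wp (L := L) hw).fun_pow 3).const_mul 4).fun_sub
        ((hasDerivAt_wp (L := L) hw).const_mul L.g₂)
      have h4 := h3.sub_const L.g₃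
      simpa using h4
    have d3 := d1.unique (d2.congr_of_eventuallyEq e1)
    linear_combination d3 / 2
  have h2 : AnalyticAt ℂ (fun w => deriv ℘' w - (6 * ℘ w ^ 2 - L.g₂ / 2)) z :=
    ha.deriv.sub (((analyticAt_const).mul ((analyticAt_wp hz).pow 2)).sub analyticAt_const)
  have h3 : ∀ᶠ w in 𝓝[≠] z, ℘' w ≠ 0 := by
    rcases ha.eventually_eq_zero_or_eventually_ne_zero with h | h
    · exfalso
      apply wp'_order_ne_top L z
      rw [meromorphicOrderAt_eq_top_iff]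
      exact h.filter_mono nhdsWithin_le_nhds
    · exact h
  have h4 : (fun w => deriv ℘' w - (6 * ℘ w ^ 2 - L.g₂ / 2)) =ᶠ[𝓝[≠] z] fun _ => 0 := by
    filter_upwards [h3, mem_nhdsWithin_of_mem_nhds hop] with w hw hw2
    exact (mul_eq_zero.mp (h1 w hw2)).resolve_left hw
  have h5 : deriv ℘' z - (6 * ℘ z ^ 2 - L.g₂ / 2) = 0 :=
    tendsto_nhds_unique ((h2.continuousAt.tendsto.mono_left nhdsWithin_le_nhds).congr' h4)
      tendsto_const_nhds
  have h6 := ha.differentiableAt.hasDerivAt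
  rwa [sub_eq_zero.mp h5] at h6

/-! ### the uniformisation -/

/-- the lattice `L` uniformises `W` -/
structure Unif (W : WeierstrassCurve ℂ) : Prop where
  h4 : 12 * L.g₂ = W.c₄
  h6 : 216 * L.g₃ = W.c₆
  hΔ : W.Δ ≠ 0

variable (W : WeierstrassCurve ℂ)

/-- the `x`-coordinate -/
def X (z : ℂ) : ℂ := ℘ z - W.b₂ / 12

/-- the `y`-coordinate -/
def Y (z : ℂ) : ℂ := (℘' z - W.a₁ * X L W z - W.a₃) / 2

theorem psi_eq (z : ℂ) : 2 * Y L W z + W.a₁ * X L W z + W.a₃ = ℘' z := by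
  rw [Y]; ring

variable {L W}

theorem Unif.equation (h : Unif L W) {z : ℂ} (hz : z ∉ L.lattice) :
    W.toAffine.Equation (X L W z) (Y L W z) := by
  rw [Affine.equation_iff']
  have h1 := L.derivWeierstrassP_sq z hz
  have h2 := h.h4
  have h3 := h.h6
  have e : ℘ z = X L W z + W.b₂ / 12 := by rw [X]; ring
  have e2 : ℘' z = 2 * Y L W z + W.a₁ * X L W z + W.a₃ := (psi_eq L W z).symm
  rw [e, e2] at h1
  simp only [WeierstrassCurve.c₄, WeierstrassCurve.c₆, WeierstrassCurve.b₂, WeierstrassCurve.b₄,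
    WeierstrassCurve.b₆] at h1 h2 h3
  linear_combination (1 / 4 : ℂ) * h1 - (X L W z + (W.a₁ ^ 2 + 4 * W.a₂) / 12) / 48 * h2 -
    (1 / 864 : ℂ) * h3

theorem Unif.nonsingular (h : Unif L W) {z : ℂ} (hz : z ∉ L.lattice) :
    W.toAffine.Nonsingular (X L W z) (Y L W z) :=
  (Affine.equation_iff_nonsingular_of_Δ_ne_zero h.hΔ).1 (h.equation hz)

theorem X_neg (z : ℂ) : X L W (-z) = X L W z := by
  rw [X, X, L.weierstrassP_neg]

theorem Y_neg (z : ℂ) : Y L W (-z) = W.toAffine.negY (X L W z) (Y L W z) := by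
  rw [Y, X_neg, L.derivWeierstrassP_neg, Affine.negY, Y]
  ring

theorem hasDerivAt_X {z : ℂ} (hz : z ∉ L.lattice) : HasDerivAt (X L W) (℘' z) z :=
  (hasDerivAt_wp hz).sub_const _

theorem Unif.hasDerivAt_Y (h : Unif L W) {z : ℂ} (hz : z ∉ L.lattice) :
    HasDerivAt (Y L W) (3 * X L W z ^ 2 + 2 * W.a₂ * X L W z + W.a₄ - W.a₁ * Y L W z) z := by
  have h1 := (((hasDerivAt_wp' L hz).sub ((hasDerivAt_X (W := W) hz).const_mul W.a₁)).sub_const
    W.a₃).div_const 2
  refine h1.congr_deriv ?_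
  have e : ℘ z = X L W z + W.b₂ / 12 := by rw [X]; ring
  have h2 := h.h4
  rw [← psi_eq L W z, e]
  simp only [WeierstrassCurve.c₄, WeierstrassCurve.b₂, WeierstrassCurve.b₄] at h2 ⊢
  linear_combination (-1 / 48 : ℂ) * h2

end Fermat.Agent.MazY
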